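import Mathlib
import Fermat.Prelude.Thm_IsAdicComplete_of_module_finite
import Fermat.Prelude.Def_GaloisRep_Adic
import Fermat.Prelude.Def_GaloisRep_LocalConditions
import Fermat.Prelude.Def_EllipticCurve_FrobeniusTrace
import Fermat.Prelude.Def_FLTPrelim_Ramification
import Fermat.Prelude.Def_GaloisRep_StrictOrdinary
import Fermat.Agent.MUL.Lib.BadRed.Bridge.PullAux
import Fermat.Agent.MUL.Lib.BadRed.Nodal.P.Cov
import Fermat.Agent.MUL.Lib.BadRed.Nodal.P.Level
import Fermat.Agent.MUL.Lib.BadRed.Nodal.P.OrdRepMain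
import Fermat.Agent.MUL.Lib.BadRed.PNew.SpDef
import Fermat.Agent.MUL.Lib.Kronecker.KroneckerAux
import Fermat.Agent.MUL.Orig.Lib.Kronecker.Formal
import Fermat.Agent.MUL.Orig.Lib.GaussInt.Basic
import Fermat.Agent.MUL.Orig.Lib.Kronecker.Congruence
import Fermat.Agent.MUL.Lib.Kronecker.ConjGens2
import Fermat.Agent.MUL.Lib.BadRed.Bridge.NormAt
import Fermat.Agent.MUL.Lib.BadRed.Bridge.P1
import Fermat.Agent.MUL.Orig.Lib.BadRed.Mod.Arch
import Fermat.Agent.MUL.Lib.BadRed.Nodal.P.Defs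
import Fermat.Agent.MUL.Lib.BadRed.Bridge.Assembly
import Fermat.Agent.MUL.Lib.BadRed.Final.Main
import Fermat.Agent.MUL.Lib.BadRed.Bridge.E1
import Fermat.Agent.MUL.Orig.Lib.BadRed.Bridge.NormRed
import Fermat.Agent.MUL.Orig.Lib.FrobTrace.Residue
import Fermat.Agent.MUL.Lib.Torsion.Card
import Fermat.Agent.MUL.Orig.Lib.Torsion.Reduced
import Fermat.Agent.MUL.Lib.FrobTrace.MainAll
import Fermat.Agent.MUL.Orig.Lib.FrobDensity.Bridge
import Fermat.Agent.MUL.Lib.MultRed.E0TorsQbar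
import Fermat.Agent.MUL.Orig.Lib.MultRed.InertiaCyclo
import Fermat.Agent.MUL.Orig.Lib.MultRed.SatLine
import Fermat.Agent.MUL.Orig.Lib.Cyclo.ModChar
import Fermat.Agent.MUL.Orig.S59.DefCond.StrictOrdArith
import Fermat.Agent.MUL.R38.SpineDefs
import Fermat.Agent.MUL.S33.PNew
import Fermat.Agent.MUL.R38.Spine
import Fermat.Agent.MUL.Orig.R38.T.FreyData
import Fermat.Agent.MUL.Orig.Lib.Frey.Basic

section MergeWrap_Lib_BadRed_Bridge_PullSplit -- from Lib/BadRed/Bridge/PullSplit.lean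

/-!
# Cluster T / S33-new, seat P-AUX3: the split subgroup at the level `N` from the level `N ℓ`
(helper94; interface (G1), (G2) of helper11's note)

Let `N = N₀ p`, `p ∤ N₀`, and `ℓ ∤ N₀ p` an auxiliary prime with the transfer core (`ℓ = 2, 3`).
If a subgroup `Sp' ≤ J₀(N₀ ℓ p)` satisfies

* (G1) `x ∈ J₀(N₀ ℓ p)[p^n]`, `α_* x = 0 = α_* w_* x`, `τ ∈ I`  ⟹  `τ x - x ∈ Sp'`,
* (G2) `x ∈ Sp'`, `p x = 0`, `σ ∈ I`, `σ = (ζ ↦ ζ^e)` on `μ_p`  ⟹  `σ x = e x`,

then `Sp := (α^*)⁻¹ Sp' ≤ J₀(N₀ p)` satisfies (G1) and (G2) at the level `N₀ p`.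
Used at `p = 3`, `2 ∤ N`, `ℓ = 2`: the modular nodal package exists only at the level `2 N`
(`AuxOK`), and the norm descent is not available for `3`-power torsion.
-/

set_option autoImplicit false
set_option linter.unusedSectionVars false
set_option linter.style.haveILetI false

noncomputable section

namespace Fermat.Agent.BadRed.PullAux

open ModularCurve AlgebraicCurve Fermat.Agent.F3 Fermat.Agent.F3G Fermat.Agent.GaussInt
  Fermat.Agent.AtkinLehner Fermat.Agent.Kronecker Fermat.Agent.F3I2 Fermat.Agent.F3Deg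
  Fermat.Agent.F3DegW Fermat.Agent.F3T Fermat.Agent.FF Fermat.Agent.BadRed

local notation "Qb" => AlgebraicClosure ℚ

set_option synthInstance.maxHeartbeats 400000
set_option maxHeartbeats 1000000

/-- **(G1)** for a subgroup `Sp` of `J₀(N₀ p)`, the inertia group of `A` and the degeneracy maps
`α_*`, `α_* w_*` (`w = w_p` given by the Atkin–Lehner datum `D`). -/
def SplitG1 (p N₀ : ℕ) [NeZero N₀] [NeZero p] (D : ALData) (hM : N₀ * p = D.Q * D.R)
    (A : ValuationSubring Qb) (Sp : AddSubgroup (JZero (N₀ * p))) : Prop :=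
  ∀ (n : ℕ) (x : JZero (N₀ * p)), p ^ n • x = 0 → pushAlpha N₀ p x = 0 →
    pushAlpha N₀ p (pushWAt D hM x) = 0 →
      ∀ τ : Qb ≃ₐ[ℚ] Qb, τ ∈ A.inertiaSubgroupIn ℚ → τ • x - x ∈ Sp

/-- **(G2)** for a subgroup `Sp` of `J₀(N)` and the inertia group of `A`. -/
def SplitG2 (p N : ℕ) [NeZero N] (A : ValuationSubring Qb) (Sp : AddSubgroup (JZero N)) : Prop :=
  ∀ x ∈ Sp, p • x = 0 → ∀ σ : Qb ≃ₐ[ℚ] Qb, σ ∈ A.inertiaSubgroupIn ℚ →
    ∀ e : ℕ, (∀ ζ : Qb, ζ ^ p = 1 → σ ζ = ζ ^ e) → σ • x = e • x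

/-- the pull-back of a subgroup along `α^*`. -/
def pullSub {N M : ℕ} [NeZero N] [NeZero M] (h : N ∣ M) (Sp' : AddSubgroup (JZero M)) :
    AddSubgroup (JZero N) :=
  Sp'.comap (pullJZero h)

theorem mem_pullSub {N M : ℕ} [NeZero N] [NeZero M] (h : N ∣ M) (Sp' : AddSubgroup (JZero M))
    (x : JZero N) : x ∈ pullSub h Sp' ↔ pullJZero h x ∈ Sp' :=
  Iff.rfl

variable {p N₀ ℓ : ℕ} [NeZero N₀] [NeZero p] [NeZero ℓ]

/-- **(G1) descends** from the level `N₀ ℓ p` to the level `N₀ p`. -/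
theorem splitG1_pull (hp : p.Prime) (hpN : ¬ p ∣ N₀) (hpℓ : ¬ p ∣ ℓ)
    (D D' : ALData) (hM : N₀ * p = D.Q * D.R) (hM' : N₀ * ℓ * p = D'.Q * D'.R)
    (hQ : D'.Q = D.Q) (hR : D'.R = D.R * ℓ) (h : N₀ * p ∣ N₀ * ℓ * p)
    (A : ValuationSubring Qb) (Sp' : AddSubgroup (JZero (N₀ * ℓ * p)))
    (hG1 : SplitG1 p (N₀ * ℓ) D' hM' A Sp') :
    SplitG1 p N₀ D hM A (pullSub h Sp') := by
  intro n x hx h1 h2 τ hτ
  have hpn : p ^ n ≠ 0 := pow_ne_zero n hp.ne_zero
  obtain ⟨h1', h2'⟩ := isNew_pullJZero hp hpN hpℓ D D' hM hM' hQ hR h hpn x hx h1 h2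
  have hx' : p ^ n • pullJZero h x = 0 := by
    rw [← map_nsmul, hx, map_zero]
  have := hG1 n (pullJZero h x) hx' h1' h2' τ hτ
  rw [mem_pullSub, map_sub, pullJZero_smul]
  exact this

/-- **(G2) descends** from the level `M' = r N` to the level `N` (with the transfer core). -/
theorem splitG2_pull (hp : p.Prime) (N r : ℕ) [NeZero N] [NeZero r] (hc : TransferCore N r)
    {M' : ℕ} [NeZero M'] (hM' : M' = r * N) (h : N ∣ M')
    (A : ValuationSubring Qb) (Sp' : AddSubgroup (JZero M'))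
    (hG2 : SplitG2 p M' A Sp') :
    SplitG2 p N A (pullSub h Sp') := by
  intro x hxS hx σ hσ e he
  have hx' : p • pullJZero h x = 0 := by
    rw [← map_nsmul, hx, map_zero]
  have h0 := hG2 (pullJZero h x) ((mem_pullSub h Sp' x).mp hxS) hx' σ hσ e he
  have h1 : pullJZero h (σ • x - e • x) = 0 := by
    rw [map_sub, pullJZero_smul, map_nsmul, h0, sub_self]
  have h2 : p • (σ • x - e • x) = 0 := by
    have h3 := map_nsmul (DistribSMul.toAddMonoidHom (JZero N) σ) p x
    simp only [DistribSMul.toAddMonoidHom_apply] at h3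
    have hσx : p • (σ • x) = 0 := by
      rw [← h3, hx]
      exact smul_zero σ
    have hex : p • (e • x) = 0 := by
      rw [smul_comm p e x, hx, smul_zero]
    rw [nsmul_sub, hσx, hex, sub_zero]
  have := pullJZero_injective_of_torsion N r hc hM' h hp.pos _ h2 h1
  exact sub_eq_zero.mp this

/-- **P-AUX3**: (G1) and (G2) at the level `N₀ p` from the level `N₀ ℓ p`, `ℓ = 2`. -/
theorem split_pull_two (hp : p.Prime) (hpN : ¬ p ∣ N₀) (hp2 : ¬ p ∣ 2)
    (D D' : ALData) (hM : N₀ * p = D.Q * D.R) (hM' : N₀ * 2 * p = D'.Q * D'.R)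
    (hQ : D'.Q = D.Q) (hR : D'.R = D.R * 2)
    (A : ValuationSubring Qb) (Sp' : AddSubgroup (JZero (N₀ * 2 * p)))
    (hG1 : SplitG1 p (N₀ * 2) D' hM' A Sp') (hG2 : SplitG2 p (N₀ * 2 * p) A Sp') :
    ∃ Sp : AddSubgroup (JZero (N₀ * p)), SplitG1 p N₀ D hM A Sp ∧ SplitG2 p (N₀ * p) A Sp := by
  haveI : NeZero (2 : ℕ) := ⟨by norm_num⟩
  have h : N₀ * p ∣ N₀ * 2 * p := ⟨2, by ring⟩
  exact ⟨pullSub h Sp', splitG1_pull hp hpN hp2 D D' hM hM' hQ hR h A Sp' hG1,
    splitG2_pull hp (N₀ * p) 2 (transferCore_two (N₀ * p)) (by ring) h A Sp' hG2⟩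

end Fermat.Agent.BadRed.PullAux
end
end MergeWrap_Lib_BadRed_Bridge_PullSplit

section MergeWrap_Lib_BadRed_Nodal_P_CovMain -- from Lib/BadRed/Nodal/P/CovMain.lean

set_option autoImplicit false

/-!
# S33-new: `(COV)` for the abstract nodal package, all inputs plugged in

`pCovMain` : `PCovStatement N p lam` from `IsCycloUnif N p lam`, `p`-th roots in `K`, the genus
relation and a `NodalNS` package; inputs `(R0)` (`NodalP.ordRepStatement`, helper46), `(L)` and
`(AS)` (`PTor.level`, `PTor.asKey`, helper42), `(HL)` inside them, and `PCov.pCov`.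
-/

noncomputable section

open AlgebraicCurve Fermat.Agent.RR Fermat.Agent.Deuring

namespace Fermat.Agent.BadRed.PCov

open Fermat.Agent.BadRed.PTor

theorem charP_of_cast_eq_zero {k : Type*} [Field k] {p : ℕ} (hp : p.Prime)
    (h : (p : k) = 0) : CharP k p := by
  obtain ⟨q, hq⟩ := CharP.exists k
  have hqp : q ∣ p := (CharP.cast_eq_zero_iff k q p).mp h
  rcases (Nat.dvd_prime hp).mp hqp with h1 | h1
  · exact absurd h1 (CharP.char_ne_one k q)
  · rw [← h1]
    exact hq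

variable {K F k Fk₁ Fk₂ : Type*} [Field K] [Field F] [Algebra K F]
  [Field k] [Field Fk₁] [Algebra k Fk₁] [Field Fk₂] [Algebra k Fk₂] {ι : Type*}

/-- the residue field of a nodal package with a cyclotomic uniformiser for `p` has
characteristic `p`. -/
theorem charP_of_isCycloUnif {N : NodalSetup K F k Fk₁ Fk₂ ι} {p : ℕ} {lam : K}
    (h : IsCycloUnif N p lam) : CharP k p :=
  charP_of_cast_eq_zero h.prime (cyclo_facts h).2.2.2.2

/-- **(COV)** for the abstract nodal package: an inertial automorphism `t` with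
`t (lam ^ p) / lam ^ p ≡ e mod lam` acts on the split `p`-torsion classes by `e`. -/
theorem pCovMain [Fintype ι] [Infinite k] (N : NodalSetup K F k Fk₁ Fk₂ ι)
    (NS : NodalNS N (genusFF K F)) (p : ℕ) (lam : K) (h : IsCycloUnif N p lam)
    (hK : ∀ c : K, ∃ d : K, d ^ p = c) (hrel : N.GenusRel) : PCovStatement N p lam := by
  haveI : Fact p.Prime := ⟨h.prime⟩
  haveI : CharP k p := charP_of_isCycloUnif h
  exact pCov N NS p lam h (NodalP.ordRepStatement p hK hrel) (level N _ NS p lam h hK)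
    (asKey N NS p lam h hK)

/-- `pCovMain` with `Nonempty (NodalNS N (genusFF K F))`. -/
theorem pCovMain_of_nonempty [Fintype ι] [Infinite k] (N : NodalSetup K F k Fk₁ Fk₂ ι)
    (hNS : Nonempty (NodalNS N (genusFF K F))) (p : ℕ) (lam : K) (h : IsCycloUnif N p lam)
    (hK : ∀ c : K, ∃ d : K, d ^ p = c) (hrel : N.GenusRel) : PCovStatement N p lam := by
  obtain ⟨NS⟩ := hNS
  exact pCovMain N NS p lam h hK hrel

end Fermat.Agent.BadRed.PCov
end
end MergeWrap_Lib_BadRed_Nodal_P_CovMain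

section MergeWrap_Lib_BadRed_PNew_LevelOne -- from Lib/BadRed/PNew/LevelOne.lean

set_option autoImplicit false
set_option linter.style.haveILetI false
set_option linter.unusedSectionVars false

/-!
# S33-new, seat P-BR (b) (helper94): `K'` is level-independent

`hasRedOneGen_one` : a class `x` killed by `p` which has a Kummer generator of exponent `p ^ n`
with reduction `1` for both Gauss valuations (`A` a place over `p`) has such a generator of
exponent `p`.

Proof.  `p ^ n E = div g`, `p E = div y`; then `g = c y ^ (p ^ (n - 1))`, `c = d ^ (p ^ (n - 1))`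
(`ℚ̄` is algebraically closed), so `g = g₁ ^ (p ^ (n - 1))` with `g₁ = d y`, `div g₁ = p E`.  If
`g₁ ^ (p ^ k)` has reduction `1` for a valuation `v_∞ ∘ ψ`, then so has `g₁`: scale `c g₁` to a
unit with reduction `r` (`exists_scale_redAt`); `c ^ (p ^ k)` is then a unit of `A`, hence `c`
is, `g₁` reduces to `r₁` with `r₁ ^ (p ^ k) = 1`, and Frobenius is injective on `k((q))`.
-/

noncomputable section

namespace Fermat.Agent.BadRed.PNew

open ModularCurve AlgebraicCurve Fermat.Agent.F3 Fermat.Agent.F3G Fermat.Agent.GaussInt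
  Fermat.Agent.AtkinLehner Fermat.Agent.F3I2 Fermat.Agent.F3Deg Fermat.Agent.F3DegW
  Fermat.Agent.F3DegP Fermat.Agent.BadRed

local notation "Qb" => AlgebraicClosure ℚ

section Roots

variable {M : ℕ} {A : ValuationSubring Qb}

/-- the coercion to Laurent series of a constant. -/
theorem levelOne_coe_algebraMap (ψ : FBar M ≃ₐ[Qb] FBar M) (c : Qb) :
    ((ψ (algebraMap Qb (FBar M) c) : FBar M) : LaurentSeries Qb) =
      algebraMap Qb (LaurentSeries Qb) c := by
  rw [AlgEquiv.commutes]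
  rfl

/-- a constant with a reduction lies in `A`. -/
theorem levelOne_mem_of_redAt {ψ : FBar M ≃ₐ[Qb] FBar M} {c : Qb}
    {r : LaurentSeries (IsLocalRing.ResidueField A)}
    (h : RedAt A ψ (algebraMap Qb (FBar M) c) r) : c ∈ A := by
  have h1 := h.1
  rw [levelOne_coe_algebraMap] at h1
  exact algebraMap_mem_gaussSub_iff.mp h1

/-- `c ^ m ∈ A` and `(c ^ m)⁻¹ ∈ A` imply `c ∈ A` and `c⁻¹ ∈ A`. -/
theorem levelOne_mem_of_pow_mem {c : Qb} {m : ℕ} (hm : m ≠ 0) (h1 : c ^ m ∈ A) :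
    c ∈ A := by
  rcases A.mem_or_inv_mem c with h | h
  · exact h
  · by_cases hc0 : c = 0
    · rw [hc0]
      exact A.zero_mem
    · have e : c = c ^ m * (c⁻¹) ^ (m - 1) := by
        obtain ⟨k, rfl⟩ := Nat.exists_eq_succ_of_ne_zero hm
        rw [Nat.succ_sub_one, pow_succ, inv_pow]
        field_simp
      rw [e]
      exact A.mul_mem _ _ h1 (pow_mem h _)

/-- Frobenius is injective on `k((q))`: `r ^ (p ^ k) = 1 ⟹ r = 1`. -/
theorem levelOne_eq_one_of_pow {k' : Type*} [Field k'] {p : ℕ} (hp : p.Prime) [CharP k' p]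
    (k : ℕ) {r : LaurentSeries k'} (h : r ^ p ^ k = 1) : r = 1 := by
  haveI : Fact p.Prime := ⟨hp⟩
  haveI : CharP (LaurentSeries k') p :=
    charP_of_injective_algebraMap (algebraMap k' (LaurentSeries k')).injective p
  have h1 : (r - 1) ^ p ^ k = 0 := by
    rw [sub_pow_char_pow, h, one_pow, sub_self]
  exact sub_eq_zero.mp (pow_eq_zero_iff (pow_ne_zero k hp.ne_zero) |>.mp h1)

/-- **root extraction for reductions**: if `y ^ (p ^ k)` has reduction `1` for the valuation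
`v_∞ ∘ ψ` at a place over `p`, then so has `y`. -/
theorem redAt_one_of_pow [NeZero M] {p : ℕ} (hp : p.Prime) (hA : A.LiesOverPrime p)
    (ψ : FBar M ≃ₐ[Qb] FBar M) {y : FBar M} (k : ℕ) (h : RedAt A ψ (y ^ p ^ k) 1) :
    RedAt A ψ y 1 := by
  haveI : CharP (IsLocalRing.ResidueField A) p :=
    Fermat.Agent.Kronecker.charP_residueField_of_liesOverPrime A p hp hA
  have hm : p ^ k ≠ 0 := pow_ne_zero k hp.ne_zero
  have hy : y ≠ 0 := by
    have h0 := h.ne_zero one_ne_zero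
    exact fun h' => h0 (by rw [h', zero_pow hm])
  obtain ⟨c, hc0, r, hr0, hcy⟩ := exists_scale_redAt hp hA ψ hy
  have hca : algebraMap Qb (FBar M) c ≠ 0 := by simpa using hc0
  -- `c ^ (p ^ k)` has the nonzero reduction `r ^ (p ^ k)`
  have hpow := hcy.pow (p ^ k)
  have hrm : r ^ p ^ k ≠ 0 := pow_ne_zero _ hr0
  have hconst : RedAt A ψ (algebraMap Qb (FBar M) (c ^ p ^ k)) (r ^ p ^ k) := by
    have h3 := hpow.div h one_ne_zero
    rw [div_one] at h3
    refine h3.congr ?_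
    rw [mul_pow, map_pow]
    exact mul_div_cancel_right₀ _ (pow_ne_zero _ hy)
  have hcm : c ^ p ^ k ∈ A := levelOne_mem_of_redAt hconst
  have hcmi : (c⁻¹) ^ p ^ k ∈ A := by
    have h4 := hconst.inv hrm
    rw [← map_inv₀, ← inv_pow] at h4
    exact levelOne_mem_of_redAt h4
  have hcA : c ∈ A := levelOne_mem_of_pow_mem hm hcm
  have hciA : c⁻¹ ∈ A := levelOne_mem_of_pow_mem hm hcmi
  -- the reduction of `y`
  have hci : RedAt A ψ (algebraMap Qb (FBar M) c⁻¹) _ := RedAt.const (ψ := ψ) hciA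
  have hy1 := hci.mul hcy
  have hy2 : RedAt A ψ y _ := hy1.congr (by
    rw [map_inv₀, ← mul_assoc, inv_mul_cancel₀ hca, one_mul])
  have hy3 := hy2.pow (p ^ k)
  have e1 := hy3.2.symm.trans h.2
  have e2 := levelOne_eq_one_of_pow hp k e1
  exact hy2.congr_res e2

end Roots

section Kummer

variable {M : ℕ} [NeZero M]

/-- **root extraction for Kummer generators**: if `p ^ (m + 1) E = div g` and `p [E] = 0`, then
`g = g₁ ^ (p ^ m)` with `p E = div g₁`. -/
theorem exists_pow_eq_of_isRootDiv {p : ℕ} (hp : p ≠ 0) {m : ℕ} {g : FBar M}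
    {E : Divisor.degZero (K := Qb) (F := FBar M)} (hR : IsRootDiv (p ^ (m + 1)) g E)
    (hx : (p : ℤ) • (Pic0.mk E : Pic0 Qb (FBar M)) = 0) :
    ∃ g₁ : FBar M, IsRootDiv p g₁ E ∧ g₁ ^ p ^ m = g := by
  have hpm : p ^ m ≠ 0 := pow_ne_zero m hp
  -- `p E = div y`
  have h1 : (Pic0.mk ((p : ℤ) • E) : Pic0 Qb (FBar M)) = 0 := by
    rw [← hx]
    exact map_zsmul (QuotientAddGroup.mk' _) (p : ℤ) E
  have h2 : ((p : ℤ) • E : Divisor.degZero (K := Qb) (F := FBar M)) ∈
      (Divisor.principal (K := Qb) (F := FBar M)).addSubgroupOf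
        (Divisor.degZero (K := Qb) (F := FBar M)) :=
    (QuotientAddGroup.eq_zero_iff _).mp h1
  obtain ⟨y, hy, hDy⟩ := h2
  have hRy : IsRootDiv p y E := by
    refine ⟨hy, fun v => ?_⟩
    rw [← hDy v]
    simp
  -- `g / y ^ (p ^ m)` is constant
  have hym : y ^ p ^ m ≠ 0 := pow_ne_zero _ hy
  have hz0 : g / y ^ p ^ m ≠ 0 := div_ne_zero hR.1 hym
  have hzord : ∀ v : Place Qb (FBar M), v.ord (g / y ^ p ^ m) = 0 := by
    intro v
    rw [div_eq_mul_inv, v.ord_mul hR.1 (inv_ne_zero hym), v.ord_inv, ← zpow_natCast y (p ^ m),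
      v.ord_zpow, ← hR.2 v, ← hRy.2 v]
    push_cast
    ring
  obtain ⟨c, hc0, hc⟩ := normRel_const_of_ord_eq_zero M hz0 hzord
  obtain ⟨d, hd⟩ := IsAlgClosed.exists_pow_nat_eq c (Nat.pos_of_ne_zero hpm)
  have hd0 : d ≠ 0 := by
    rintro rfl
    rw [zero_pow hpm] at hd
    exact hc0 hd.symm
  refine ⟨algebraMap Qb (FBar M) d * y, hRy.const_mul hd0, ?_⟩
  rw [mul_pow, ← map_pow, hd, ← hc]
  exact div_mul_cancel₀ _ hym

end Kummer

section Main

variable {M : ℕ} [NeZero M] (D : ALData) (hM : M = D.Q * D.R) (A : ValuationSubring Qb)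

/-- **(b) `K'` is level-independent**: a class killed by `p` with a Kummer generator of exponent
`p ^ n` reducing to `1` for both Gauss valuations has such a generator of exponent `p`. -/
theorem hasRedOneGen_one {p : ℕ} (hp : p.Prime) (hA : A.LiesOverPrime p) {n : ℕ}
    {x : JZero M} (h : HasRedOneGen D hM A p n x) (hx : p • x = 0) :
    HasRedOneGen D hM A p 1 x := by
  obtain ⟨E, g, hR, rfl, h1, h2⟩ := h
  cases n with
  | zero =>
    have h0 : (Pic0.mk E : Pic0 Qb (FBar M)) = 0 := by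
      have := hR.nsmul_mk_eq_zero
      rwa [pow_zero, Nat.cast_one, one_zsmul] at this
    have h3 := (HasRedOneGen.zero (D := D) (hM := hM) (A := A) (p := p)).raise 1
    rw [zero_add] at h3
    exact h0 ▸ h3
  | succ m =>
    have hx' : (p : ℤ) • (Pic0.mk E : Pic0 Qb (FBar M)) = 0 := by
      rw [natCast_zsmul]
      exact hx
    obtain ⟨g₁, hR₁, hg⟩ := exists_pow_eq_of_isRootDiv hp.ne_zero hR hx'
    refine ⟨E, g₁, ?_, rfl, ?_, ?_⟩
    · rw [pow_one]
      exact hR₁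
    · exact redAt_one_of_pow hp hA _ m (hg ▸ h1)
    · exact redAt_one_of_pow hp hA _ m (hg ▸ h2)

end Main

end Fermat.Agent.BadRed.PNew
end
end MergeWrap_Lib_BadRed_PNew_LevelOne

section MergeWrap_Lib_BadRed_PNew_Contract -- from Lib/BadRed/PNew/Contract.lean

set_option autoImplicit false

noncomputable section

namespace Fermat.Agent.BadRed.PNew

open ModularCurve Fermat.Agent.GaussInt Fermat.Agent.Kronecker

section General

variable {R : Type*} [CommRing R]

/-- ALGEBRA: if `t * y b = t * y0` for all `b ∈ s`, then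
`∏_{b ∈ s} (y b + t) = ∏_{b ∈ s} y b + ((y0 + t) ^ #s - y0 ^ #s)`. -/
theorem prod_add_eq_of_mul_eq {ι : Type*} (s : Finset ι) (y : ι → R) (y0 t : R)
    (h : ∀ b ∈ s, t * y b = t * y0) :
    ∏ b ∈ s, (y b + t) = ∏ b ∈ s, y b + ((y0 + t) ^ s.card - y0 ^ s.card) := by
  classical
  induction s using Finset.induction_on with
  | empty => simp
  | insert a s ha ih =>
    have hs : ∀ b ∈ s, t * y b = t * y0 := fun b hb => h b (Finset.mem_insert_of_mem hb)
    have hta : t * y a = t * y0 := h a (Finset.mem_insert_self a s)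
    have hprod : t * ∏ b ∈ s, y b = t * y0 ^ s.card := by
      clear ih h hta
      induction s using Finset.induction_on with
      | empty => simp
      | insert c s hc ih2 =>
        have h1 : t * y c = t * y0 := hs c (Finset.mem_insert_self c s)
        have h2 := ih2 (fun hac => ha (Finset.mem_insert_of_mem hac))
          (fun b hb => hs b (Finset.mem_insert_of_mem hb))
        rw [Finset.prod_insert hc, Finset.card_insert_of_notMem hc, pow_succ]
        calc t * (y c * ∏ b ∈ s, y b) = (t * y c) * ∏ b ∈ s, y b := by ring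
          _ = y0 * (t * ∏ b ∈ s, y b) := by rw [h1]; ring
          _ = t * (y0 ^ s.card * y0) := by rw [h2]; ring
    obtain ⟨E, hE⟩ : t ∣ (y0 + t) ^ s.card - y0 ^ s.card := by
      have := sub_dvd_pow_sub_pow (y0 + t) y0 s.card
      rwa [add_sub_cancel_left] at this
    rw [Finset.prod_insert ha, Finset.prod_insert ha, Finset.card_insert_of_notMem ha, ih hs]
    have h3 : y a * ((y0 + t) ^ s.card - y0 ^ s.card) =
        y0 * ((y0 + t) ^ s.card - y0 ^ s.card) := by
      rw [hE]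
      calc y a * (t * E) = (t * y a) * E := by ring
        _ = y0 * (t * E) := by rw [hta]; ring
    calc (y a + t) * (∏ b ∈ s, y b + ((y0 + t) ^ s.card - y0 ^ s.card))
        = y a * ∏ b ∈ s, y b + t * ∏ b ∈ s, y b
            + y a * ((y0 + t) ^ s.card - y0 ^ s.card)
            + t * ((y0 + t) ^ s.card - y0 ^ s.card) := by ring
      _ = y a * ∏ b ∈ s, y b + t * y0 ^ s.card
            + y0 * ((y0 + t) ^ s.card - y0 ^ s.card)
            + t * ((y0 + t) ^ s.card - y0 ^ s.card) := by rw [hprod, h3]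
      _ = y a * ∏ b ∈ s, y b + ((y0 + t) ^ (s.card + 1) - y0 ^ (s.card + 1)) := by ring

/-- If `c * z = c` then `c * z ^ n = c` for every integer `n`. -/
theorem mul_zpow_eq_of_mul_eq (c : R) (z : Rˣ) (h : c * (z : R) = c) (n : ℤ) :
    c * ((z ^ n : Rˣ) : R) = c := by
  have hnat : ∀ k : ℕ, c * ((z ^ k : Rˣ) : R) = c := by
    intro k
    induction k with
    | zero => simp
    | succ k ih =>
      rw [pow_succ, Units.val_mul, ← mul_assoc, ih, h]
  have hinv : ∀ k : ℕ, c * (((z ^ k)⁻¹ : Rˣ) : R) = c := by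
    intro k
    have h1 := hnat k
    calc c * (((z ^ k)⁻¹ : Rˣ) : R)
        = (c * ((z ^ k : Rˣ) : R)) * (((z ^ k)⁻¹ : Rˣ) : R) := by rw [h1]
      _ = c * (((z ^ k : Rˣ) : R) * (((z ^ k)⁻¹ : Rˣ) : R)) := by ring
      _ = c := by rw [Units.mul_inv, mul_one]
  rcases Int.eq_nat_or_neg n with ⟨k, rfl | rfl⟩
  · rw [zpow_natCast]
    exact hnat k
  · rw [zpow_neg, zpow_natCast]
    exact hinv k

/-- If `c * z = c`, then multiplication by the constant `c` absorbs the substitution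
`q ↦ z q`. -/
theorem single_mul_scaleL_eq (c : R) (z : Rˣ) (h : c * (z : R) = c) (W : LaurentSeries R) :
    HahnSeries.single 0 c * scaleL z W = HahnSeries.single 0 c * W := by
  ext n
  rw [HahnSeries.coeff_single_zero_mul, HahnSeries.coeff_single_zero_mul, scaleL_coeff,
    ← mul_assoc, mul_zpow_eq_of_mul_eq c z h n]

theorem scaleL_single_zero (z : Rˣ) (c : R) :
    scaleL z (HahnSeries.single 0 c : LaurentSeries R) = HahnSeries.single 0 c := by
  ext n
  rw [scaleL_coeff]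
  by_cases hn : n = 0
  · subst hn
    simp
  · rw [HahnSeries.coeff_single_of_ne hn, mul_zero]

/-- KERNEL of the reduction modulo `π'`: a series all of whose coefficients are multiples of
`π'` is `π'` times a series. -/
theorem exists_eq_single_mul_of_coeffMap_eq_zero (π' : R) (Y : LaurentSeries R)
    (hY : coeffMap (Ideal.Quotient.mk (Ideal.span {π'})) Y = 0) :
    ∃ S : LaurentSeries R, Y = HahnSeries.single 0 π' * S := by
  classical
  have hc : ∀ n : ℤ, ∃ s : R, Y.coeff n = π' * s ∧ (Y.coeff n = 0 → s = 0) := by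
    intro n
    by_cases h0 : Y.coeff n = 0
    · exact ⟨0, by rw [h0, mul_zero], fun _ => rfl⟩
    · have h1 : Ideal.Quotient.mk (Ideal.span {π'}) (Y.coeff n) = 0 := by
        have := congrArg (fun Q : LaurentSeries (R ⧸ Ideal.span {π'}) => Q.coeff n) hY
        simpa using this
      rw [Ideal.Quotient.eq_zero_iff_mem, Ideal.mem_span_singleton] at h1
      obtain ⟨s, hs⟩ := h1
      exact ⟨s, hs, fun h => absurd h h0⟩
  choose s hs hs0 using hc
  refine ⟨⟨s, Y.isPWO_support.mono (fun n hn => ?_)⟩, ?_⟩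
  · rw [Function.mem_support] at hn
    rw [HahnSeries.mem_support]
    exact fun h => hn (hs0 n h)
  · ext n
    rw [HahnSeries.coeff_single_zero_mul]
    exact hs n

/-- CONTRACTION of the multiplicative `U_p`, over any commutative ring. -/
theorem prod_scaleL_add_single_mul (p : ℕ) (hp : p.Prime) (ζ : Rˣ)
    (hpl : ((ζ : R) - 1) ∣ (p : R)) (π π' : R) (h1 : π' ∣ π * ((ζ : R) - 1)) (h2 : π' ∣ π ^ p)
    (Y₁ Y₂ : LaurentSeries R) :
    ∃ S : LaurentSeries R,
      ∏ b ∈ Finset.range p, scaleL (ζ ^ b) (Y₂ + HahnSeries.single 0 π * Y₁) =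
        ∏ b ∈ Finset.range p, scaleL (ζ ^ b) Y₂ + HahnSeries.single 0 π' * S := by
  classical
  set I : Ideal R := Ideal.span {π'} with hI
  set f : R →+* R ⧸ I := Ideal.Quotient.mk I with hf
  set z : (R ⧸ I)ˣ := Units.map (f : R →* R ⧸ I) ζ with hz
  set c : R ⧸ I := f π with hcdef
  -- the three facts about `c = π mod π'`
  have hcz : c * (z : R ⧸ I) = c := by
    have h3 : f (π * ((ζ : R) - 1)) = 0 := by
      rw [hf, Ideal.Quotient.eq_zero_iff_mem, hI, Ideal.mem_span_singleton]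
      exact h1
    rw [map_mul, map_sub, map_one] at h3
    have h4 : (z : R ⧸ I) = f (ζ : R) := rfl
    rw [h4]
    have h5 : c * (f (ζ : R) - 1) = 0 := h3
    rw [mul_sub, mul_one, sub_eq_zero] at h5
    exact h5
  have hcp : c ^ p = 0 := by
    rw [hcdef, ← map_pow, hf, Ideal.Quotient.eq_zero_iff_mem, hI, Ideal.mem_span_singleton]
    exact h2
  have hpc : (p : R ⧸ I) * c = 0 := by
    have h3 : π' ∣ (p : R) * π := by
      obtain ⟨u, hu⟩ := hpl
      refine h1.trans ⟨u, ?_⟩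
      rw [hu]
      ring
    have h4 : f ((p : R) * π) = 0 := by
      rw [hf, Ideal.Quotient.eq_zero_iff_mem, hI, Ideal.mem_span_singleton]
      exact h3
    rw [map_mul, map_natCast] at h4
    exact h4
  -- the reduced series
  set cm : LaurentSeries R →+* LaurentSeries (R ⧸ I) := coeffMap f with hcm
  set t : LaurentSeries (R ⧸ I) := HahnSeries.single 0 c * cm Y₁ with ht
  set y0 : LaurentSeries (R ⧸ I) := cm Y₂ with hy0
  have hzpow : ∀ b : ℕ, c * ((z ^ b : (R ⧸ I)ˣ) : R ⧸ I) = c := fun b => by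
    have := mul_zpow_eq_of_mul_eq c z hcz (b : ℤ)
    rwa [zpow_natCast] at this
  have hcmscale : ∀ (b : ℕ) (Y : LaurentSeries R),
      cm (scaleL (ζ ^ b) Y) = scaleL (z ^ b) (cm Y) := by
    intro b Y
    rw [hcm, coeffMap_scaleL, map_pow]
  have hterm : ∀ b : ℕ, cm (scaleL (ζ ^ b) (Y₂ + HahnSeries.single 0 π * Y₁)) =
      scaleL (z ^ b) y0 + t := by
    intro b
    rw [hcmscale, map_add, map_add, map_mul, map_mul]
    congr 1
    rw [hcm, coeffMap_single, scaleL_single_zero]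
    exact single_mul_scaleL_eq c (z ^ b) (hzpow b) _
  have hty : ∀ b ∈ Finset.range p, t * scaleL (z ^ b) y0 = t * y0 := by
    intro b _
    rw [ht]
    calc HahnSeries.single 0 c * cm Y₁ * scaleL (z ^ b) y0
        = cm Y₁ * (HahnSeries.single 0 c * scaleL (z ^ b) y0) := by ring
      _ = cm Y₁ * (HahnSeries.single 0 c * y0) := by
          rw [single_mul_scaleL_eq c (z ^ b) (hzpow b)]
      _ = HahnSeries.single 0 c * cm Y₁ * y0 := by ring
  have hpow : (y0 + t) ^ p - y0 ^ p = 0 := by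
    obtain ⟨r, hr⟩ := exists_add_pow_prime_eq hp y0 t
    have hC : (HahnSeries.single 0 c : LaurentSeries (R ⧸ I)) = HahnSeries.C c :=
      (HahnSeries.C_apply c).symm
    have htp : t ^ p = 0 := by
      rw [ht, mul_pow, hC, ← map_pow, hcp, map_zero, zero_mul]
    have hpt : (p : LaurentSeries (R ⧸ I)) * t = 0 := by
      have h3 : (p : LaurentSeries (R ⧸ I)) = HahnSeries.C (p : R ⧸ I) := by
        rw [map_natCast]
      rw [ht, h3, ← mul_assoc, hC, ← map_mul, hpc, map_zero, zero_mul]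
    rw [hr, htp]
    calc y0 ^ p + 0 + (p : LaurentSeries (R ⧸ I)) * y0 * t * r - y0 ^ p
        = ((p : LaurentSeries (R ⧸ I)) * t) * (y0 * r) := by ring
      _ = 0 := by rw [hpt, zero_mul]
  have hred : cm (∏ b ∈ Finset.range p, scaleL (ζ ^ b) (Y₂ + HahnSeries.single 0 π * Y₁)
      - ∏ b ∈ Finset.range p, scaleL (ζ ^ b) Y₂) = 0 := by
    rw [map_sub, map_prod, map_prod]
    rw [Finset.prod_congr rfl (fun b _ => hterm b),
      Finset.prod_congr rfl (fun b _ => hcmscale b Y₂)]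
    rw [prod_add_eq_of_mul_eq (Finset.range p) (fun b => scaleL (z ^ b) y0) y0 t hty,
      Finset.card_range, hpow, add_zero, sub_self]
  obtain ⟨S, hS⟩ := exists_eq_single_mul_of_coeffMap_eq_zero π' _ hred
  exact ⟨S, by rw [← hS]; ring⟩

end General

section Valuation

variable {K : Type*} [Field K] (A : ValuationSubring K)

set_option linter.unusedVariables false in
/-- CONTRACTION of the multiplicative `U_p`:
`∏_b (Y₂ + π Y₁)(ζ^b q) = ∏_b Y₂(ζ^b q) + π' S`, `π' ∣ π (ζ - 1)`, `π' ∣ π ^ p`. -/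
theorem prod_scaleL_add_const_mul (p : ℕ) (hp : p.Prime) (ζ : Aˣ) (hζ : ζ ^ p = 1)
    (hpl : ((ζ : A) - 1) ∣ (p : A)) (π π' : A) (h1 : π' ∣ π * ((ζ : A) - 1)) (h2 : π' ∣ π ^ p)
    (Y₁ Y₂ : LaurentSeries A) :
    ∃ S : LaurentSeries A,
      ∏ b ∈ Finset.range p, scaleL (ζ ^ b) (Y₂ + constA A π * Y₁) =
        ∏ b ∈ Finset.range p, scaleL (ζ ^ b) Y₂ + constA A π' * S :=
  prod_scaleL_add_single_mul p hp ζ hpl π π' h1 h2 Y₁ Y₂

theorem constA_mul_left_cancel {π' : A} (hπ' : π' ≠ 0) {S T : LaurentSeries A}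
    (h : constA A π' * S = constA A π' * T) : S = T := by
  refine HahnSeries.ext (funext fun n => ?_)
  have h1 := congrArg (fun Q : LaurentSeries A => Q.coeff n) h
  simp only [constA, HahnSeries.coeff_single_zero_mul] at h1
  exact mul_left_cancel₀ hπ' h1

/-- The series `S` of the contraction is fixed by `q ↦ ζ q` (when `π' ≠ 0`). -/
theorem prod_scaleL_add_const_mul_fixed (p : ℕ) (hp : p.Prime) (ζ : Aˣ) (hζ : ζ ^ p = 1)
    (hpl : ((ζ : A) - 1) ∣ (p : A)) (π π' : A) (hπ' : π' ≠ 0) (h1 : π' ∣ π * ((ζ : A) - 1))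
    (h2 : π' ∣ π ^ p) (Y₁ Y₂ : LaurentSeries A) :
    ∃ S : LaurentSeries A, scaleL ζ S = S ∧
      ∏ b ∈ Finset.range p, scaleL (ζ ^ b) (Y₂ + constA A π * Y₁) =
        ∏ b ∈ Finset.range p, scaleL (ζ ^ b) Y₂ + constA A π' * S := by
  obtain ⟨S, hS⟩ := prod_scaleL_add_const_mul A p hp ζ hζ hpl π π' h1 h2 Y₁ Y₂
  refine ⟨S, ?_, hS⟩
  have h3 := congrArg (scaleL ζ) hS
  rw [scaleL_prod_scaleL p ζ hζ, map_add, scaleL_prod_scaleL p ζ hζ, map_mul, hS] at h3
  have h4 : scaleL ζ (constA A π') = constA A π' := scaleL_single_zero ζ π'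
  rw [h4] at h3
  exact (constA_mul_left_cancel A hπ' (add_left_cancel h3)).symm

/-- The series `S` of the contraction is a series in `q ^ p` (when `ζ` is primitive and
`π' ≠ 0`). -/
theorem prod_scaleL_add_const_mul_qExpand (p : ℕ) [NeZero p] (hp : p.Prime) (ζ : Aˣ)
    (hζ : IsPrimitiveRoot ζ p)
    (hpl : ((ζ : A) - 1) ∣ (p : A)) (π π' : A) (hπ' : π' ≠ 0) (h1 : π' ∣ π * ((ζ : A) - 1))
    (h2 : π' ∣ π ^ p) (Y₁ Y₂ : LaurentSeries A) :
    ∃ S' : LaurentSeries A,
      ∏ b ∈ Finset.range p, scaleL (ζ ^ b) (Y₂ + constA A π * Y₁) =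
        ∏ b ∈ Finset.range p, scaleL (ζ ^ b) Y₂ + constA A π' * qExpand A p S' := by
  obtain ⟨S, hfix, hS⟩ :=
    prod_scaleL_add_const_mul_fixed A p hp ζ hζ.pow_eq_one hpl π π' hπ' h1 h2 Y₁ Y₂
  obtain ⟨W, hW⟩ := exists_qExpand_eq_of_scaleL_eq p ζ hζ S hfix
  exact ⟨W, by rw [hW]; exact hS⟩

end Valuation

end Fermat.Agent.BadRed.PNew
end
end MergeWrap_Lib_BadRed_PNew_Contract

section MergeWrap_Lib_BadRed_PNew_LevP -- from Lib/BadRed/PNew/LevP.lean

set_option autoImplicit false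
set_option linter.style.haveILetI false
set_option linter.unusedSectionVars false

/-!
# S33-new, (W1), part 1: contraction of the multiplicative `U_p` on `1`-units  (helper66)

`A` a valuation subring of `K` with residue characteristic `p`, `ζ ∈ A` a primitive `p`-th root
of unity, `F ⊆ K((q))` a field of series which is stable under the multiplicative `U_p`-operator
`Nφ` (`(Nφ z)(q^p) = ∏_{b<p} z(ζ^b q)`).

`LevP A F π x` : `x ≡ 1` modulo `π` in the Gauss ring of `F` (presentation form: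
`x · Y₂ = Y₂ + π Y₁` with `Y₁, Y₂ ∈ F` integral, `Y₂` primitive).

`LevP.contract` : if `y(q^p) = ∏_b x(ζ^b q)` and `x ≡ 1 mod π` then `y ≡ 1 mod π'` for every
`π' ≠ 0` dividing `π (ζ - 1)` and `π ^ p`.
-/

noncomputable section

namespace Fermat.Agent.BadRed.PNew

open ModularCurve Fermat.Agent.GaussInt Fermat.Agent.Kronecker

variable {K : Type*} [Field K] (A : ValuationSubring K)
  (F : IntermediateField K (LaurentSeries K))

/-- `x ≡ 1 mod π` in the Gauss ring of `F`, presentation form. -/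
def LevP (π : A) (x : LaurentSeries K) : Prop :=
  ∃ Y₁ Y₂ : LaurentSeries A, emb A Y₁ ∈ F ∧ emb A Y₂ ∈ F ∧ red A Y₂ ≠ 0 ∧
    x * emb A Y₂ = emb A (Y₂ + constA A π * Y₁)

variable {A F}

theorem LevP.mem {π : A} {x : LaurentSeries K} (h : LevP A F π x) : x ∈ F := by
  obtain ⟨Y₁, Y₂, h1, h2, h3, h4⟩ := h
  have h0 : emb A Y₂ ≠ 0 := by
    intro h0
    have : Y₂ = 0 := emb_injective A (by rw [h0, map_zero])
    exact h3 (by rw [this, map_zero])
  have : x = emb A (Y₂ + constA A π * Y₁) / emb A Y₂ := by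
    rw [eq_div_iff h0, h4]
  rw [this]
  refine div_mem ?_ h2
  rw [map_add, map_mul, emb_constA]
  exact add_mem h2 (mul_mem (F.algebraMap_mem _) h1)

theorem levP_one (π : A) : LevP A F π 1 :=
  ⟨0, 1, by simp, by simp, by simp, by simp⟩

/-- weakening of the level. -/
theorem LevP.of_dvd {π π' : A} {x : LaurentSeries K} (h : LevP A F π x) (hd : π' ∣ π) :
    LevP A F π' x := by
  obtain ⟨Y₁, Y₂, h1, h2, h3, h4⟩ := h
  obtain ⟨a, rfl⟩ := hd
  refine ⟨constA A a * Y₁, Y₂, ?_, h2, h3, ?_⟩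
  · rw [map_mul, emb_constA]
    exact mul_mem (F.algebraMap_mem _) h1
  · rw [h4]
    congr 2
    rw [← mul_assoc]
    congr 1
    rw [constA, constA, constA, HahnSeries.single_mul_single, add_zero]

/-- from the presentation to the Gauss ring. -/
theorem LevP.sub_one_div_mem {π : A} (hπ : (π : K) ≠ 0) {x : LaurentSeries K}
    (h : LevP A F π x) :
    (x - 1) / algebraMap K (LaurentSeries K) (π : K) ∈ gaussSub A F := by
  obtain ⟨Y₁, Y₂, h1, h2, h3, h4⟩ := h
  refine ⟨Y₁, Y₂, h1, h2, h3, ?_⟩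
  have hπ' : algebraMap K (LaurentSeries K) (π : K) ≠ 0 := by
    rwa [Ne, map_eq_zero_iff _ (algebraMap K (LaurentSeries K)).injective]
  rw [map_add, map_mul, emb_constA] at h4
  field_simp
  linear_combination h4

/-- from the Gauss ring to the presentation. -/
theorem levP_of_mem {π : A} (hπ : (π : K) ≠ 0) {x : LaurentSeries K}
    (h : (x - 1) / algebraMap K (LaurentSeries K) (π : K) ∈ gaussSub A F) : LevP A F π x := by
  obtain ⟨Y₁, Y₂, h⟩ := h
  refine ⟨Y₁, Y₂, h.mem₁, h.mem₂, h.prim, ?_⟩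
  have hπ' : algebraMap K (LaurentSeries K) (π : K) ≠ 0 := by
    rwa [Ne, map_eq_zero_iff _ (algebraMap K (LaurentSeries K)).injective]
  have h4 := h.eq
  rw [map_add, map_mul, emb_constA, ← h4]
  field_simp
  ring

section Contract

variable (p : ℕ) [Fact p.Prime] [CharP (IsLocalRing.ResidueField A) p]

omit [Fact p.Prime] [CharP (IsLocalRing.ResidueField A) p] in
theorem emb_prod_scaleL (ζ : Aˣ) (Y : LaurentSeries A) :
    emb A (∏ b ∈ Finset.range p, scaleL (ζ ^ b) Y) =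
      ∏ b ∈ Finset.range p, scaleL ((Units.map (A.subtype : A →* K) ζ) ^ b) (emb A Y) := by
  rw [map_prod]
  refine Finset.prod_congr rfl fun b _ => ?_
  rw [coeffMap_scaleL, map_pow]

omit [Fact p.Prime] [CharP (IsLocalRing.ResidueField A) p] in
theorem emb_qExpand [NeZero p] (Y : LaurentSeries A) :
    emb A (qExpand A p Y) = qExpand K p (emb A Y) := by
  ext k
  by_cases hk : (p : ℤ) ∣ k
  · obtain ⟨m, rfl⟩ := hk
    rw [emb_coeff, qExpand_coeff_mul, qExpand_coeff_mul, emb_coeff]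
  · rw [emb_coeff, qExpand_coeff_of_not_dvd p _ hk, qExpand_coeff_of_not_dvd p _ hk]
    rfl

/-- **CONTRACTION**: `y(q^p) = ∏_b x(ζ^b q)`, `x ≡ 1 mod π` ⟹ `y ≡ 1 mod π'`. -/
theorem LevP.contract (ζ : Aˣ) (hζ : IsPrimitiveRoot ζ p)
    (hpl : ((ζ : A) - 1) ∣ (p : A))
    (hN : haveI : NeZero p := ⟨(Fact.out : p.Prime).ne_zero⟩
      ∀ z ∈ F, ∃ n ∈ F, qExpand K p n =
        ∏ b ∈ Finset.range p, scaleL ((Units.map (A.subtype : A →* K) ζ) ^ b) z)
    {π π' : A} (hπ' : π' ≠ 0) (h1 : π' ∣ π * ((ζ : A) - 1)) (h2 : π' ∣ π ^ p)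
    {x y : LaurentSeries K} (hy : y ∈ F)
    (hxy : haveI : NeZero p := ⟨(Fact.out : p.Prime).ne_zero⟩
      qExpand K p y =
        ∏ b ∈ Finset.range p, scaleL ((Units.map (A.subtype : A →* K) ζ) ^ b) x)
    (hx : LevP A F π x) : LevP A F π' y := by
  haveI : NeZero p := ⟨(Fact.out : p.Prime).ne_zero⟩
  obtain ⟨Y₁, Y₂, hY₁, hY₂, hprim, hxY⟩ := hx
  obtain ⟨S, hS⟩ := prod_scaleL_add_const_mul A p Fact.out ζ hζ.pow_eq_one hpl π π' h1 h2 Y₁ Y₂
  set W₂ : LaurentSeries A := ∏ b ∈ Finset.range p, scaleL (ζ ^ b) Y₂ with hW₂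
  set W₃ : LaurentSeries A :=
    ∏ b ∈ Finset.range p, scaleL (ζ ^ b) (Y₂ + constA A π * Y₁) with hW₃
  have hfix₂ : scaleL ζ W₂ = W₂ := scaleL_prod_scaleL p ζ hζ.pow_eq_one Y₂
  have hfix₃ : scaleL ζ W₃ = W₃ := scaleL_prod_scaleL p ζ hζ.pow_eq_one _
  have hc0 : constA A π' ≠ 0 := by
    rw [constA]
    intro h
    exact hπ' (HahnSeries.single_eq_zero_iff.mp h)
  have hscc : scaleL ζ (constA A π') = constA A π' := by
    rw [constA, scaleL_single, zpow_zero, Units.val_one, one_mul]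
  have hfixS : scaleL ζ S = S := by
    have h3 : scaleL ζ (constA A π' * S) = constA A π' * S := by
      have e : constA A π' * S = W₃ - W₂ := by rw [hS]; ring
      rw [e, map_sub, hfix₂, hfix₃]
    rw [map_mul, hscc] at h3
    exact mul_left_cancel₀ hc0 h3
  obtain ⟨V₂, hV₂⟩ := exists_qExpand_eq_of_scaleL_eq p ζ hζ W₂ hfix₂
  obtain ⟨S', hS'⟩ := exists_qExpand_eq_of_scaleL_eq p ζ hζ S hfixS
  have hP : (∏ b ∈ Finset.range p, scaleL ((Units.map (A.subtype : A →* K) ζ) ^ b) x) *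
      emb A W₂ = emb A W₃ := by
    rw [hW₂, hW₃, emb_prod_scaleL, emb_prod_scaleL, ← Finset.prod_mul_distrib]
    refine Finset.prod_congr rfl fun b _ => ?_
    rw [← map_mul, hxY]
  have hqW₂ : emb A W₂ = qExpand K p (emb A V₂) := by rw [← hV₂, emb_qExpand]
  have hqc : qExpand A p (constA A π') = constA A π' := by
    rw [constA, qExpand_single, mul_zero]
  have key : qExpand K p (y * emb A V₂) = qExpand K p (emb A (V₂ + constA A π' * S')) := by
    have e1 : qExpand A p (V₂ + constA A π' * S') = W₂ + constA A π' * S := by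
      rw [map_add, map_mul, hV₂, hS', hqc]
    rw [map_mul, hxy, ← hqW₂, hP, hS, ← emb_qExpand, e1]
  have hyV : y * emb A V₂ = emb A (V₂ + constA A π' * S') := qExpand_injective p key
  obtain ⟨n, hnF, hn⟩ := hN (emb A Y₂) hY₂
  have hnV : n = emb A V₂ := by
    apply qExpand_injective (R := K) p
    rw [hn, ← emb_prod_scaleL, ← hW₂, hqW₂]
  have hV₂F : emb A V₂ ∈ F := hnV ▸ hnF
  have hπK : algebraMap K (LaurentSeries K) (π' : K) ≠ 0 := by
    rw [Ne, map_eq_zero_iff _ (algebraMap K (LaurentSeries K)).injective]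
    exact fun h => hπ' (Subtype.ext h)
  have hS'F : emb A S' ∈ F := by
    have h5 : algebraMap K (LaurentSeries K) (π' : K) * emb A S' = y * emb A V₂ - emb A V₂ := by
      rw [hyV, map_add, map_mul, emb_constA]
      ring
    have h6 : emb A S' =
        (algebraMap K (LaurentSeries K) (π' : K))⁻¹ * (y * emb A V₂ - emb A V₂) := by
      rw [← h5, ← mul_assoc, inv_mul_cancel₀ hπK, one_mul]
    rw [h6]
    exact mul_mem (inv_mem (F.algebraMap_mem _)) (sub_mem (mul_mem hy hV₂F) hV₂F)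
  have hprimV : red A V₂ ≠ 0 := by
    have hk := kronecker_formal p (IsLocalRing.residue A) ζ hζ.pow_eq_one Y₂ V₂ (hV₂.trans hW₂)
    intro h0
    apply hprim
    have h7 : coeffMap (frobenius (IsLocalRing.ResidueField A) p) (red A Y₂) = 0 := by
      rw [← hk]
      exact h0
    exact coeffMap_injective_of_injective _
      (frobenius (IsLocalRing.ResidueField A) p).injective (by rw [h7, map_zero])
  exact ⟨S', V₂, hS'F, hV₂F, hprimV, hyV⟩

end Contract

end Fermat.Agent.BadRed.PNew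
end
end MergeWrap_Lib_BadRed_PNew_LevP

section MergeWrap_Lib_BadRed_PNew_WSplit -- from Lib/BadRed/PNew/WSplit.lean

set_option autoImplicit false
set_option linter.style.haveILetI false
set_option linter.unusedSectionVars false
set_option linter.unusedVariables false
set_option synthInstance.maxHeartbeats 400000
set_option maxHeartbeats 1000000

/-!
# S33-new, (W1): `p`-new classes in the kernel of reduction are SPLIT  (helper66)

Level `M = N₀ p` (`p ∤ N₀`), `α : F_{N₀} ⊂ F_M`, `w = wAt D hM` the Atkin–Lehner involution,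
`A` a place of `ℚ̄` over `p`.  A function `g ∈ F_M` is NEW (`IsNewFn`) if `Norm_α g` and
`Norm_α (w g)` are constants times `p`-th powers (function form of `α_* x = 0 = β_* x` for the
class `x` with `p D = div g`).

`w1_split` : `g` new, `g ≡ 1` modulo the maximal ideal of the Gauss ring ⟹
`g = c H ^ p G` with `G ≡ 1` modulo `p ^ 2` in the Gauss ring.

Proof: the norm product formula `Norm_α x = x · Nφ(w x)` (`norm_expansion_wAt`) gives
`g = c H^p · Nφ (Nφ g)` for new `g`, and `Nφ` is a contraction on `1`-units (`LevP.contract`).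
-/

noncomputable section

namespace Fermat.Agent.BadRed.PNew

open ModularCurve AlgebraicCurve Fermat.Agent.F3 Fermat.Agent.F3G Fermat.Agent.GaussInt
  Fermat.Agent.AtkinLehner Fermat.Agent.Kronecker

local notation "Qb" => AlgebraicClosure ℚ

variable {N₀ p : ℕ} [NeZero N₀] [NeZero p]

/-- **NEW, function form**: the norms of `g` and of `w g` are constants times `p`-th powers. -/
def IsNewFn (D : ALData) (hM : N₀ * p = D.Q * D.R) (g : FBar (N₀ * p)) : Prop :=
  (∃ (a : FBar N₀) (c : Qb), c ≠ 0 ∧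
      normAlong (heckeAlphaBar Qb N₀ p) g = algebraMap Qb (FBar N₀) c * a ^ p) ∧
    (∃ (a : FBar N₀) (c : Qb), c ≠ 0 ∧
      normAlong (heckeAlphaBar Qb N₀ p) (wAt D hM g) = algebraMap Qb (FBar N₀) c * a ^ p)

section Norm

variable (hp : p.Prime) (hpN : ¬ p ∣ N₀)
include hp hpN

theorem finiteAlong_alpha : FiniteAlong Qb (heckeAlphaBar Qb N₀ p) :=
  (finrank_heckeAlphaBar N₀ p hp hpN).1

/-- the norm of a constant. -/
theorem normAlong_const (c : Qb) :
    normAlong (heckeAlphaBar Qb N₀ p) (algebraMap Qb (FBar (N₀ * p)) c) =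
      algebraMap Qb (FBar N₀) (c ^ (p + 1)) := by
  letI := (heckeAlphaBar Qb N₀ p).toRingHom.toAlgebra
  obtain ⟨hfd, hrank⟩ := finrank_heckeAlphaBar N₀ p hp hpN
  have h1 : algebraMap Qb (FBar (N₀ * p)) c =
      algebraMap (FBar N₀) (FBar (N₀ * p)) (algebraMap Qb (FBar N₀) c) :=
    ((heckeAlphaBar Qb N₀ p).commutes c).symm
  have h2 := Algebra.norm_algebraMap (S := FBar (N₀ * p)) (algebraMap Qb (FBar N₀) c)
  rw [hrank] at h2
  show Algebra.norm (FBar N₀) (algebraMap Qb (FBar (N₀ * p)) c) = _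
  rw [h1, h2, map_pow]

theorem normAlong_ne_zero' {x : FBar (N₀ * p)} (hx : x ≠ 0) :
    normAlong (heckeAlphaBar Qb N₀ p) x ≠ 0 :=
  normAlong_ne_zero _ (finiteAlong_alpha hp hpN) hx

end Norm

section Nphi

variable (D : ALData) (hM : N₀ * p = D.Q * D.R)

/-- the multiplicative `U_p`-operator `Nφ z := α (Norm_α (w z)) / w z`. -/
def nphi (z : FBar (N₀ * p)) : FBar (N₀ * p) :=
  heckeAlphaBar Qb N₀ p (normAlong (heckeAlphaBar Qb N₀ p) (wAt D hM z)) / wAt D hM z

theorem wAt_ne_zero {z : FBar (N₀ * p)} (hz : z ≠ 0) : wAt D hM z ≠ 0 :=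
  (map_ne_zero_iff _ (wAt D hM).injective).mpr hz

variable (hp : p.Prime) (hpN : ¬ p ∣ N₀)
  (ζ : Qbˣ)
  (hE : ∀ x : FBar (N₀ * p),
      qExpand Qb p ((normAlong (heckeAlphaBar Qb N₀ p) x : FBar N₀) : LaurentSeries Qb) =
        qExpand Qb p (x : LaurentSeries Qb) *
          ∏ i ∈ Finset.range p,
            scaleL (ζ ^ i) ((wAt D hM x : FBar (N₀ * p)) : LaurentSeries Qb))

include hp hE in
/-- `(Nφ z)(q^p) = ∏_b z(ζ^b q)`. -/
theorem qExpand_nphi (z : FBar (N₀ * p)) :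
    qExpand Qb p ((nphi D hM z : FBar (N₀ * p)) : LaurentSeries Qb) =
      ∏ i ∈ Finset.range p, scaleL (ζ ^ i) (z : LaurentSeries Qb) := by
  by_cases hz : z = 0
  · subst hz
    have h0 : nphi D hM (0 : FBar (N₀ * p)) = 0 := by
      unfold nphi
      rw [map_zero, div_zero]
    rw [h0]
    have h1 : (((0 : FBar (N₀ * p)) : FBar (N₀ * p)) : LaurentSeries Qb) = 0 := rfl
    rw [h1, map_zero]
    symm
    exact Finset.prod_eq_zero (Finset.mem_range.mpr hp.pos) (map_zero _)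
  · have hw := wAt_ne_zero D hM hz
    have hwc : ((wAt D hM z : FBar (N₀ * p)) : LaurentSeries Qb) ≠ 0 := fun h =>
      hw (Subtype.ext h)
    have h1 := hE (wAt D hM z)
    rw [wAt_wAt] at h1
    have h2 : ((nphi D hM z : FBar (N₀ * p)) : LaurentSeries Qb) =
        ((normAlong (heckeAlphaBar Qb N₀ p) (wAt D hM z) : FBar N₀) : LaurentSeries Qb) /
          ((wAt D hM z : FBar (N₀ * p)) : LaurentSeries Qb) := by
      unfold nphi
      rw [IntermediateField.coe_div, coe_heckeAlphaBar]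
    rw [h2, map_div₀, h1, mul_div_cancel_left₀]
    exact (map_ne_zero_iff _ (qExpand_injective (R := Qb) p)).mpr hwc

include hp hpN in
theorem nphi_ne_zero {z : FBar (N₀ * p)} (hz : z ≠ 0) : nphi D hM z ≠ 0 := by
  unfold nphi
  refine div_ne_zero ?_ (wAt_ne_zero D hM hz)
  exact (map_ne_zero_iff _ (heckeAlphaBar Qb N₀ p).toRingHom.injective).mpr
    (normAlong_ne_zero' hp hpN (wAt_ne_zero D hM hz))

theorem nphi_mul_wAt {z : FBar (N₀ * p)} (hz : z ≠ 0) :
    nphi D hM z * wAt D hM z =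
      heckeAlphaBar Qb N₀ p (normAlong (heckeAlphaBar Qb N₀ p) (wAt D hM z)) := by
  unfold nphi
  exact div_mul_cancel₀ _ (wAt_ne_zero D hM hz)

include hp hpN in
/-- **the double step**: a new function is a constant times a `p`-th power times `Nφ (Nφ g)`. -/
theorem exists_eq_mul_nphi_nphi {g : FBar (N₀ * p)} (hg : g ≠ 0) (hnew : IsNewFn D hM g) :
    ∃ (H : FBar (N₀ * p)) (c₀ : Qb), c₀ ≠ 0 ∧ H ≠ 0 ∧
      g = algebraMap Qb (FBar (N₀ * p)) c₀ * H ^ p * nphi D hM (nphi D hM g) := by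
  obtain ⟨⟨a, c, hc, hn₁⟩, ⟨a', c', hc', hn₂⟩⟩ := hnew
  set α := heckeAlphaBar Qb N₀ p with hα
  set w := wAt D hM with hw
  set G₁ := nphi D hM g with hG₁
  set G₂ := nphi D hM G₁ with hG₂
  have hG₁0 : G₁ ≠ 0 := nphi_ne_zero D hM hp hpN hg
  have hG₂0 : G₂ ≠ 0 := nphi_ne_zero D hM hp hpN hG₁0
  have ha0 : a ≠ 0 := by
    rintro rfl
    have := normAlong_ne_zero' hp hpN hg
    rw [hn₁, zero_pow hp.ne_zero, mul_zero] at this
    exact this rfl
  have ha'0 : a' ≠ 0 := by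
    rintro rfl
    have := normAlong_ne_zero' hp hpN (wAt_ne_zero D hM hg)
    rw [hn₂, zero_pow hp.ne_zero, mul_zero] at this
    exact this rfl
  -- `G₁ * w g = c' A'^p`
  have e1 : G₁ * w g = algebraMap Qb (FBar (N₀ * p)) c' * (α a') ^ p := by
    rw [hG₁, nphi_mul_wAt D hM hg, hn₂, map_mul, map_pow, AlgHom.commutes]
  -- `w G₁ * g = c' (w A')^p`
  have e2 : w G₁ * g = algebraMap Qb (FBar (N₀ * p)) c' * (w (α a')) ^ p := by
    have := congrArg w e1
    rw [map_mul, map_mul, map_pow, hw, wAt_wAt, AlgEquiv.commutes] at this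
    exact this
  -- `G₂ * w G₁ = α (Norm (w G₁))`
  have e3 : G₂ * w G₁ = α (normAlong α (w G₁)) := nphi_mul_wAt D hM hG₁0
  -- norms
  have e4 : normAlong α (w G₁) * normAlong α g =
      algebraMap Qb (FBar N₀) (c' ^ (p + 1)) * (normAlong α (w (α a'))) ^ p := by
    rw [← map_mul, e2, map_mul, map_pow, normAlong_const hp hpN]
  have e5 : α (normAlong α (w G₁)) * (algebraMap Qb (FBar (N₀ * p)) c * (α a) ^ p) =
      (algebraMap Qb (FBar (N₀ * p)) c') ^ (p + 1) * (α (normAlong α (w (α a')))) ^ p := by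
    have := congrArg α e4
    simpa only [map_mul, map_pow, hn₁, AlgHom.commutes] using this
  set A₁ := α a with hA₁
  set B := w (α a') with hB
  set NB := α (normAlong α B) with hNB
  set cF := algebraMap Qb (FBar (N₀ * p)) c with hcF'
  set dF := algebraMap Qb (FBar (N₀ * p)) c' with hdF'
  have hA₁0 : A₁ ≠ 0 := (map_ne_zero_iff _ α.toRingHom.injective).mpr ha0
  have hB0 : B ≠ 0 := wAt_ne_zero D hM ((map_ne_zero_iff _ α.toRingHom.injective).mpr ha'0)
  have hNB0 : NB ≠ 0 := (map_ne_zero_iff _ α.toRingHom.injective).mpr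
    (normAlong_ne_zero' hp hpN hB0)
  have hcF : cF ≠ 0 :=
    (map_ne_zero_iff _ (algebraMap Qb (FBar (N₀ * p))).injective).mpr hc
  have hdF : dF ≠ 0 :=
    (map_ne_zero_iff _ (algebraMap Qb (FBar (N₀ * p))).injective).mpr hc'
  refine ⟨A₁ * B / NB, c / c' ^ p, div_ne_zero hc (pow_ne_zero _ hc'),
    div_ne_zero (mul_ne_zero hA₁0 hB0) hNB0, ?_⟩
  -- the identity
  have key : dF * (G₂ * B ^ p * (cF * A₁ ^ p)) = dF * (dF ^ p * NB ^ p * g) := by
    linear_combination (-(G₂ * (cF * A₁ ^ p))) * e2 + (g * (cF * A₁ ^ p)) * e3 + g * e5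
  have key' : G₂ * B ^ p * (cF * A₁ ^ p) = dF ^ p * NB ^ p * g := mul_left_cancel₀ hdF key
  rw [map_div₀, map_pow, div_pow, mul_pow]
  have hdFp : dF ^ p ≠ 0 := pow_ne_zero _ hdF
  have hNBp : NB ^ p ≠ 0 := pow_ne_zero _ hNB0
  rw [div_mul_div_comm, div_mul_eq_mul_div, eq_div_iff (mul_ne_zero hdFp hNBp)]
  linear_combination (-1 : FBar (N₀ * p)) * key'

end Nphi

end Fermat.Agent.BadRed.PNew
end
end MergeWrap_Lib_BadRed_PNew_WSplit

section MergeWrap_Lib_BadRed_PNew_Cyclo -- from Lib/BadRed/PNew/Cyclo.lean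

set_option autoImplicit false

/-!
# S33-new, seat P-BR (helper46): the cyclotomic uniformiser `lam = ζ - 1`

`L` a field, `A` a valuation subring of `L` in which the prime `p` is not a unit, `ζ ∈ L` a
primitive `p`-th root of unity, `lam = ζ - 1`.

* `cyc_zeta_mem`      : `ζ ∈ A`;
* `cyc_kappa_mem`, `cyc_kappa_inv_mem` : `p / lam ^ (p - 1)` is a unit of `A`;
* `cyc_lam_mem`, `cyc_lam_inv_not_mem` : `lam` is a nonzero non-unit of `A`;
* `cyc_twist_mem`     : `(((ζ ^ e - 1) / (ζ - 1)) ^ p - e) / lam ∈ A`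
  (for `σ ζ = ζ ^ e`: `σ (lam ^ p) / lam ^ p ≡ e mod lam`).
-/

namespace Fermat.Agent.BadRed.PNew

open Finset

variable {L : Type*} [Field L] (A : ValuationSubring L) {p : ℕ} {ζ : L}

theorem cyc_zeta_mem (hp : p ≠ 0) (hζ : ζ ^ p = 1) : ζ ∈ A := by
  rcases A.mem_or_inv_mem ζ with h | h
  · exact h
  · have hζ0 : ζ ≠ 0 := by
      rintro rfl
      rw [zero_pow hp] at hζ
      exact zero_ne_one hζ
    have e : ζ = ζ⁻¹ ^ (p - 1) := by
      have h1 : ζ ^ (p - 1) * ζ = 1 := by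
        rw [← pow_succ, Nat.sub_add_cancel (Nat.pos_of_ne_zero hp), hζ]
      rw [inv_pow]
      exact eq_inv_of_mul_eq_one_right h1
    rw [e]
    exact pow_mem h _

theorem cyc_geom_mem {x : L} (hx : x ∈ A) (n : ℕ) : ∑ i ∈ range n, x ^ i ∈ A :=
  sum_mem fun i _ => pow_mem hx i

/-- `(x ^ n - 1) / (x - 1) ∈ A` for `x ∈ A`. -/
theorem cyc_div_mem {x : L} (hx : x ∈ A) (hx1 : x ≠ 1) (n : ℕ) : (x ^ n - 1) / (x - 1) ∈ A := by
  have h : (x ^ n - 1) / (x - 1) = ∑ i ∈ range n, x ^ i := by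
    rw [div_eq_iff (sub_ne_zero.mpr hx1)]
    exact (geom_sum_mul x n).symm
  rw [h]
  exact cyc_geom_mem A hx n

variable {A}

theorem cyc_pow_ne_one (_hp : p.Prime) (hζ : IsPrimitiveRoot ζ p) {i : ℕ} (hi : ¬ p ∣ i) :
    ζ ^ i ≠ 1 := fun h => hi ((hζ.pow_eq_one_iff_dvd i).mp h)

theorem cyc_ne_one (hp : p.Prime) (hζ : IsPrimitiveRoot ζ p) : ζ ≠ 1 := by
  have := cyc_pow_ne_one (i := 1) hp hζ (fun h => hp.one_lt.ne' (Nat.dvd_one.mp h))
  rwa [pow_one] at this

variable (A)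

/-- `(ζ - 1) / (ζ ^ i - 1) ∈ A` for `p ∤ i`. -/
theorem cyc_inv_div_mem (hp : p.Prime) (hζ : IsPrimitiveRoot ζ p) {i : ℕ} (hi : ¬ p ∣ i) :
    (ζ - 1) / (ζ ^ i - 1) ∈ A := by
  have hζA : ζ ∈ A := cyc_zeta_mem A hp.ne_zero hζ.pow_eq_one
  have hcop : Nat.Coprime i p := ((Nat.Prime.coprime_iff_not_dvd hp).mpr hi).symm
  obtain ⟨m, -, hm⟩ := Nat.exists_mul_mod_eq_one_of_coprime hcop hp.one_lt
  have h1 : (ζ ^ i) ^ m = ζ := by
    rw [← pow_mul]
    have h2 : i * m = p * (i * m / p) + 1 := by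
      have := Nat.div_add_mod (i * m) p
      omega
    rw [h2, pow_succ, pow_mul, hζ.pow_eq_one, one_pow, one_mul]
  have h3 := cyc_div_mem A (pow_mem hζA i) (cyc_pow_ne_one hp hζ hi) m
  rwa [h1] at h3

/-- `p = (1 - ζ) ^ (p - 1) * ∏ (1 + ζ + ⋯ + ζ ^ k)`. -/
theorem cyc_p_eq (hp : p.Prime) (hζ : IsPrimitiveRoot ζ p) :
    (p : L) = (1 - ζ) ^ (p - 1) * ∏ k ∈ range (p - 1), ∑ j ∈ range (k + 1), ζ ^ j := by
  have hp1 : p - 1 + 1 = p := Nat.sub_add_cancel hp.pos
  have hζ' : IsPrimitiveRoot ζ (p - 1 + 1) := by rwa [hp1]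
  have h := hζ'.prod_one_sub_pow_eq_order
  have h2 : ((p - 1 : ℕ) : L) + 1 = (p : L) := by
    rw [← Nat.cast_succ, Nat.succ_eq_add_one, hp1]
  rw [h2] at h
  rw [← h]
  have h3 : ∀ k ∈ range (p - 1), (1 - ζ ^ (k + 1)) = (1 - ζ) * ∑ j ∈ range (k + 1), ζ ^ j :=
    fun k _ => by
      have := mul_neg_geom_sum ζ (k + 1)
      rw [← this]
  rw [prod_congr rfl h3, prod_mul_distrib, prod_const, card_range]

theorem cyc_kappa_eq (hp : p.Prime) (hζ : IsPrimitiveRoot ζ p) :
    (p : L) / (ζ - 1) ^ (p - 1) =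
      (-1) ^ (p - 1) * ∏ k ∈ range (p - 1), ∑ j ∈ range (k + 1), ζ ^ j := by
  have h0 : (ζ - 1) ^ (p - 1) ≠ 0 := pow_ne_zero _ (sub_ne_zero.mpr (cyc_ne_one hp hζ))
  rw [div_eq_iff h0, cyc_p_eq hp hζ]
  have e : (1 - ζ) = (-1) * (ζ - 1) := by ring
  rw [e, mul_pow]
  ring

/-- `p / lam ^ (p - 1) ∈ A`. -/
theorem cyc_kappa_mem (hp : p.Prime) (hζ : IsPrimitiveRoot ζ p) :
    (p : L) / (ζ - 1) ^ (p - 1) ∈ A := by
  have hζA : ζ ∈ A := cyc_zeta_mem A hp.ne_zero hζ.pow_eq_one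
  rw [cyc_kappa_eq hp hζ]
  refine mul_mem (pow_mem (neg_mem (one_mem _)) _) (prod_mem fun k _ => cyc_geom_mem A hζA _)

/-- `lam ^ (p - 1) / p ∈ A`. -/
theorem cyc_kappa_inv_mem (hp : p.Prime) (hζ : IsPrimitiveRoot ζ p) :
    (ζ - 1) ^ (p - 1) / (p : L) ∈ A := by
  have hζ1 := cyc_ne_one hp hζ
  have h1 : (ζ - 1) ^ (p - 1) / (p : L) = ((p : L) / (ζ - 1) ^ (p - 1))⁻¹ := by
    rw [inv_div]
  rw [h1, cyc_kappa_eq hp hζ, mul_inv, ← inv_pow, ← prod_inv_distrib]
  refine mul_mem (pow_mem ?_ _) (prod_mem fun k hk => ?_)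
  · have : (-1 : L)⁻¹ = -1 := by norm_num
    rw [this]
    exact neg_mem (one_mem _)
  · have hk' : ¬ p ∣ k + 1 := by
      have := mem_range.mp hk
      intro hd
      have := Nat.le_of_dvd (Nat.succ_pos k) hd
      omega
    have h2 := cyc_inv_div_mem A hp hζ hk'
    have h3 : (∑ j ∈ range (k + 1), ζ ^ j)⁻¹ = (ζ - 1) / (ζ ^ (k + 1) - 1) := by
      rw [← geom_sum_mul ζ (k + 1), div_mul_cancel_right₀ (sub_ne_zero.mpr hζ1)]
    rw [h3]
    exact h2

theorem cyc_lam_mem (hp : p.Prime) (hζ : IsPrimitiveRoot ζ p) : ζ - 1 ∈ A :=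
  sub_mem (cyc_zeta_mem A hp.ne_zero hζ.pow_eq_one) (one_mem _)

/-- `lam` is not a unit of `A` when `p` is not. -/
theorem cyc_lam_inv_not_mem (hp : p.Prime) (hζ : IsPrimitiveRoot ζ p)
    (hpA : ((p : L))⁻¹ ∉ A) : (ζ - 1)⁻¹ ∉ A := by
  intro h
  apply hpA
  have h0 : (ζ - 1) ^ (p - 1) ≠ 0 := pow_ne_zero _ (sub_ne_zero.mpr (cyc_ne_one hp hζ))
  have hp0 : (p : L) ≠ 0 := by
    intro h1
    have := cyc_p_eq hp hζ
    rw [h1] at this
    have h2 := cyc_kappa_inv_mem A hp hζ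
    have h3 := cyc_kappa_eq hp hζ
    rw [h1, zero_div] at h3
    have h4 : (-1 : L) ^ (p - 1) ≠ 0 := pow_ne_zero _ (by norm_num)
    have h5 : ∏ k ∈ range (p - 1), ∑ j ∈ range (k + 1), ζ ^ j = 0 := by
      rcases mul_eq_zero.mp h3.symm with h6 | h6
      · exact absurd h6 h4
      · exact h6
    obtain ⟨k, hk, hk0⟩ := prod_eq_zero_iff.mp h5
    have hk' : ¬ p ∣ k + 1 := by
      have := mem_range.mp hk
      intro hd
      have := Nat.le_of_dvd (Nat.succ_pos k) hd
      omega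
    have h7 := geom_sum_mul ζ (k + 1)
    rw [hk0, zero_mul] at h7
    exact cyc_pow_ne_one hp hζ hk' (sub_eq_zero.mp h7.symm)
  have e : ((p : L))⁻¹ = ((ζ - 1) ^ (p - 1) / (p : L)) * ((ζ - 1)⁻¹) ^ (p - 1) := by
    rw [inv_pow]
    field_simp
  rw [e]
  exact mul_mem (cyc_kappa_inv_mem A hp hζ) (pow_mem h _)

/-- `p / lam ∈ A`. -/
theorem cyc_p_div_lam_mem (hp : p.Prime) (hζ : IsPrimitiveRoot ζ p) : (p : L) / (ζ - 1) ∈ A := by
  have hζ1 := cyc_ne_one hp hζ
  have h0 : ζ - 1 ≠ 0 := sub_ne_zero.mpr hζ1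
  have hp2 : p - 1 = (p - 2) + 1 := by
    have := hp.two_le
    omega
  have e : (p : L) / (ζ - 1) = ((p : L) / (ζ - 1) ^ (p - 1)) * (ζ - 1) ^ (p - 2) := by
    rw [hp2, pow_succ]
    field_simp
  rw [e]
  exact mul_mem (cyc_kappa_mem A hp hζ) (pow_mem (cyc_lam_mem A hp hζ) _)

/-- `(x + y) ^ n - x ^ n ∈ y A` for `x, y ∈ A`. -/
theorem cyc_add_pow_sub_div_mem {x y : L} (hx : x ∈ A) (hy : y ∈ A) (hy0 : y ≠ 0) (n : ℕ) :
    ((x + y) ^ n - x ^ n) / y ∈ A := by
  have h := sub_dvd_pow_sub_pow (⟨x + y, add_mem hx hy⟩ : A) ⟨x, hx⟩ n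
  obtain ⟨c, hc⟩ := h
  have h1 := congrArg (Subtype.val : A → L) hc
  have h2 : (x + y) ^ n - x ^ n = (x + y - x) * (c : L) := by
    simpa using h1
  rw [h2, add_sub_cancel_left, mul_div_cancel_left₀ _ hy0]
  exact c.2

/-- `s = (ζ ^ e - 1) / (ζ - 1) ≡ e mod lam`. -/
theorem cyc_geom_sub_div_mem (hp : p.Prime) (hζ : IsPrimitiveRoot ζ p) (e : ℕ) :
    ((ζ ^ e - 1) / (ζ - 1) - (e : L)) / (ζ - 1) ∈ A := by
  have hζ1 := cyc_ne_one hp hζ
  have h0 : ζ - 1 ≠ 0 := sub_ne_zero.mpr hζ1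
  have hζA : ζ ∈ A := cyc_zeta_mem A hp.ne_zero hζ.pow_eq_one
  have h1 : (ζ ^ e - 1) / (ζ - 1) = ∑ i ∈ range e, ζ ^ i := by
    rw [div_eq_iff h0]
    exact (geom_sum_mul ζ e).symm
  have h2 : (∑ i ∈ range e, ζ ^ i) - (e : L) = ∑ i ∈ range e, (ζ ^ i - 1) := by
    rw [sum_sub_distrib, sum_const, card_range, nsmul_eq_mul, mul_one]
  rw [h1, h2, sum_div]
  exact sum_mem fun i _ => cyc_div_mem A hζA hζ1 i

/-- Fermat: `(e ^ p - e) / lam ∈ A`. -/
theorem cyc_fermat_div_mem (hp : p.Prime) (hζ : IsPrimitiveRoot ζ p) (e : ℕ) :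
    (((e : L)) ^ p - (e : L)) / (ζ - 1) ∈ A := by
  have : Fact p.Prime := ⟨hp⟩
  have h1 : (p : ℤ) ∣ (e : ℤ) ^ p - (e : ℤ) := by
    have h2 : (((e : ℤ) ^ p - (e : ℤ) : ℤ) : ZMod p) = 0 := by
      push_cast
      rw [ZMod.pow_card, sub_self]
    exact (ZMod.intCast_zmod_eq_zero_iff_dvd _ p).mp h2
  obtain ⟨m, hm⟩ := h1
  have h3 : ((e : L)) ^ p - (e : L) = (p : L) * (m : L) := by
    have := congrArg (Int.cast : ℤ → L) hm
    push_cast at this
    exact this
  rw [h3, mul_div_right_comm]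
  exact mul_mem (cyc_p_div_lam_mem A hp hζ) (intCast_mem _ m)

/-- **the twist**: `((ζ ^ e - 1) / (ζ - 1)) ^ p ≡ e mod lam`. -/
theorem cyc_twist_mem (hp : p.Prime) (hζ : IsPrimitiveRoot ζ p) (e : ℕ) :
    (((ζ ^ e - 1) / (ζ - 1)) ^ p - (e : L)) / (ζ - 1) ∈ A := by
  have hζ1 := cyc_ne_one hp hζ
  have h0 : ζ - 1 ≠ 0 := sub_ne_zero.mpr hζ1
  have hζA : ζ ∈ A := cyc_zeta_mem A hp.ne_zero hζ.pow_eq_one
  set s : L := (ζ ^ e - 1) / (ζ - 1) with hs
  have hsA : s ∈ A := cyc_div_mem A hζA hζ1 e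
  have ha := cyc_geom_sub_div_mem A hp hζ e
  rw [← hs] at ha
  have heA : (e : L) ∈ A := natCast_mem _ e
  by_cases hse : s - (e : L) = 0
  · have : s = (e : L) := sub_eq_zero.mp hse
    rw [this]
    exact cyc_fermat_div_mem A hp hζ e
  · have h1 := cyc_add_pow_sub_div_mem A heA (sub_mem hsA heA) hse p
    rw [add_sub_cancel] at h1
    have h2 : (s ^ p - (e : L)) / (ζ - 1) =
        ((s ^ p - (e : L) ^ p) / (s - (e : L))) * ((s - (e : L)) / (ζ - 1)) +
          (((e : L)) ^ p - (e : L)) / (ζ - 1) := by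
      field_simp
      ring
    rw [h2]
    exact add_mem (mul_mem h1 ha) (cyc_fermat_div_mem A hp hζ e)

/-- for `σ ζ = ζ ^ e`: `σ (lam ^ p) / lam ^ p ≡ e mod lam`. -/
theorem cyc_twist_mem_of_map (hp : p.Prime) (hζ : IsPrimitiveRoot ζ p) (σ : L ≃+* L) (e : ℕ)
    (hσ : σ ζ = ζ ^ e) :
    (σ ((ζ - 1) ^ p) / (ζ - 1) ^ p - (e : L)) / (ζ - 1) ∈ A := by
  have h : σ ((ζ - 1) ^ p) / (ζ - 1) ^ p = ((ζ ^ e - 1) / (ζ - 1)) ^ p := by
    rw [map_pow, map_sub, map_one, hσ, div_pow]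
  rw [h]
  exact cyc_twist_mem A hp hζ e

end Fermat.Agent.BadRed.PNew
end MergeWrap_Lib_BadRed_PNew_Cyclo

section MergeWrap_Lib_BadRed_PNew_Bridge -- from Lib/BadRed/PNew/Bridge.lean

set_option autoImplicit false
set_option linter.style.haveILetI false
set_option linter.unusedSectionVars false
set_option linter.unusedVariables false
set_option synthInstance.maxHeartbeats 400000
set_option maxHeartbeats 1000000

/-!
# S33-new, seat P-BR (e) (helper46): the bridge `(W1) + (COV) ⟹ (G1) ∧ (G2)` for `Sp`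

Level `N₀ p` (`p ∤ N₀`), `D` the Atkin–Lehner datum with `D.Q = p`, `A` a place of `ℚ̄` over `p`,
`Sp = spSub N₀ p D hM A` (`SpDef.lean`): the `p`-new classes with a Kummer generator of `p`-power
exponent reducing to `1` for both Gauss valuations.

* `W1Statement N₀ p D hM A` : the function statement (W1) (`w1_split` of `PNew/WMain.lean`):
  a new function which reduces to `1` is a constant times a `p`-th power times a unit `≡ 1 mod p²`
  of the Gauss ring.
* `CovInstStatement D A p lam` : the modular instance of (COV) (`PNew/CovModular.lean`).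
* `smul_eq_nsmul_of_gaussSplit` : the class statement at a level `M = D.Q D.R`.
* `splitG2_spSub` : (G2) for `Sp`.
* `pbr_of_parts` : `∃ Sp, SplitG1 ∧ SplitG2`, the body of `S33.PBRTarget`.
-/

noncomputable section

namespace Fermat.Agent.BadRed.PNew

open ModularCurve AlgebraicCurve Fermat.Agent.F3 Fermat.Agent.F3G Fermat.Agent.GaussInt
  Fermat.Agent.AtkinLehner Fermat.Agent.F3I2 Fermat.Agent.F3Deg Fermat.Agent.F3DegW
  Fermat.Agent.F3DegP Fermat.Agent.BadRed Fermat.Agent.BadRed.PullAux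

local notation "Qb" => AlgebraicClosure ℚ

/-- **split, Gauss form**: `g` is a constant times a `p`-th power times a unit `≡ 1 mod p²` of the
Gauss ring of `F_M` at `A`. -/
def GaussSplit {M : ℕ} (A : ValuationSubring Qb) (p : ℕ) (g : FBar M) : Prop :=
  ∃ (H : FBar M) (c : Qb), H ≠ 0 ∧ c ≠ 0 ∧
    (((g / (algebraMap Qb (FBar M) c * H ^ p) - 1) / algebraMap Qb (FBar M) ((p : Qb) ^ 2) :
        FBar M) : LaurentSeries Qb) ∈ gaussSub A (modularFunctionFieldBar M)

/-- **(W1)**, the function statement consumed by the bridge: a new function with `p ∣ div g`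
which reduces to `1` for both Gauss valuations is split for `v_∞`. -/
def W1Statement (N₀ p : ℕ) [NeZero N₀] [NeZero p] (D : ALData) (hM : N₀ * p = D.Q * D.R)
    (A : ValuationSubring Qb) : Prop :=
  ∀ g : FBar (N₀ * p), g ≠ 0 → (∀ P : Place Qb (FBar (N₀ * p)), (p : ℤ) ∣ P.ord g) →
    IsNewFn D hM g →
    RedAt A (AlgEquiv.refl : FBar (N₀ * p) ≃ₐ[Qb] FBar (N₀ * p)) g 1 →
    RedAt A (wAt D hM) g 1 →
      GaussSplit A p g

/-- **(COV), modular instance**: a modular nodal package at `A` with the covering statement for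
the exponent `p` and the cyclotomic uniformiser `lam`. -/
def CovInstStatement (D : ALData) (A : ValuationSubring Qb) (p : ℕ) (lam : Qb) : Prop :=
  ∃ MN : ModularNodal D A, PTor.PCovStatement MN.N p lam

section Core

variable {M : ℕ} [NeZero M] (D : ALData) (hM : M = D.Q * D.R) (A : ValuationSubring Qb)

/-- the class statement: inertia acts by `e` on the class of a divisor `E` with `p E = div g`,
`g` split for both Gauss valuations. -/
theorem smul_eq_nsmul_of_gaussSplit {p : ℕ} (hp : p ≠ 0) {lam : Qb}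
    (hC : CovInstStatement D A p lam)
    {σ : Qb ≃ₐ[ℚ] Qb} (hσ : σ ∈ A.inertiaSubgroupIn ℚ) (e : ℕ)
    (hlam : (σ (lam ^ p) / lam ^ p - (e : Qb)) / lam ∈ A)
    {E : Divisor.degZero (K := Qb) (F := FBar M)} {g : FBar M} (hE : IsRootDiv p g E)
    (hs₁ : GaussSplit A p g) (hs₂ : GaussSplit A p (wAt D hM g)) :
    σ • (Pic0.mk E : JZero M) = e • (Pic0.mk E : JZero M) := by
  subst hM
  rw [wAt_eq_rfl] at hs₂
  obtain ⟨MN, hcov⟩ := hC
  set t := arithmeticGalois (modularFunctionFieldFull (D.Q * D.R)) σ with ht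
  have hg0 : g ≠ 0 := hE.1
  have hdiv : ∀ P : Place Qb (FBar (D.Q * D.R)), (p : ℤ) ∣ P.ord g :=
    fun P => ⟨_, (hE.2 P).symm⟩
  -- the split condition of the nodal package
  have hsplit : PTor.IsSplitFn MN.N p g := by
    refine ⟨?_, ?_⟩
    · obtain ⟨H, c, hH, hc, h⟩ := hs₁
      exact ⟨H, c, hH, hc, (MN.mem₁_iff _).mpr h⟩
    · obtain ⟨H, c, hH, hc, h⟩ := hs₂
      refine ⟨atkinLehner D H, c, ?_, hc, ?_⟩
      · exact (map_ne_zero_iff _ (atkinLehner D).injective).mpr hH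
      · rw [MN.mem₂_iff, MN.mem₁_iff]
        have e1 : atkinLehner D ((g / (algebraMap Qb (FBar (D.Q * D.R)) c *
            atkinLehner D H ^ p) - 1) / algebraMap Qb (FBar (D.Q * D.R)) ((p : Qb) ^ 2)) =
            (atkinLehner D g / (algebraMap Qb (FBar (D.Q * D.R)) c * H ^ p) - 1) /
              algebraMap Qb (FBar (D.Q * D.R)) ((p : Qb) ^ 2) := by
          rw [map_div₀, map_sub, map_div₀, map_mul, map_pow, atkinLehner_atkinLehner, map_one,
            AlgEquiv.commutes, AlgEquiv.commutes]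
        rw [e1]
        exact h
  have hlam' : (SemilinearAut.baseAut t (lam ^ p) / lam ^ p - (e : Qb)) / lam ∈ MN.N.S₁.A := by
    rw [MN.A_eq]
    exact hlam
  obtain ⟨u, c, hc, hu⟩ := hcov t (MN.inertial σ hσ) e hlam' g hg0 hdiv hsplit
  -- the class statement
  have htg : t • g ≠ 0 := by simpa using hg0
  have hcF : algebraMap Qb (FBar (D.Q * D.R)) c ≠ 0 := by simpa using hc
  have hu0 : u ≠ 0 := by
    rintro rfl
    rw [zero_pow hp, zero_mul] at hu
    exact mul_ne_zero hcF htg hu.symm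
  have hE₁ : ∀ v, ((p : ℕ) : ℤ) *
      (SemilinearAut.degZeroSMulHom t E : Divisor Qb (FBar (D.Q * D.R))) v = v.ord (t • g) :=
    fun v => mul_smul_divisor_apply_eq_ord t _ hE.2 v
  have e1 : σ • (Pic0.mk E : JZero (D.Q * D.R)) =
      Pic0.mk (SemilinearAut.degZeroSMulHom t E) :=
    SemilinearAut.pic0_smul_mk t E
  have hcinv : algebraMap Qb (FBar (D.Q * D.R)) c⁻¹ ≠ 0 := by
    simpa using hc
  have h0 : ∀ v : Place Qb (FBar (D.Q * D.R)),
      ((p : ℕ) : ℤ) * ((0 : Divisor.degZero (K := Qb) (F := FBar (D.Q * D.R))) :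
        Divisor Qb (FBar (D.Q * D.R))) v = v.ord (algebraMap Qb (FBar (D.Q * D.R)) c⁻¹) := by
    intro v
    rw [rootClass_ord_algebraMap v (inv_ne_zero hc)]
    simp
  have hrel : (u⁻¹) ^ p * (t • g) = algebraMap Qb (FBar (D.Q * D.R)) c⁻¹ * g ^ e := by
    have hup : u ^ p ≠ 0 := pow_ne_zero _ hu0
    rw [map_inv₀, inv_pow]
    field_simp
    rw [hu]
    ring
  have key := mk_sub_add_nsmul_eq_zero_of_pow p hp e 0
    (SemilinearAut.degZeroSMulHom t E) E hcinv htg hg0 h0 hE₁ hE.2 hrel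
  rw [e1]
  have h3 : (Pic0.mk (0 : Divisor.degZero (K := Qb) (F := FBar (D.Q * D.R))) :
      Pic0 Qb (FBar (D.Q * D.R))) = 0 := rfl
  rw [h3, zero_sub] at key
  have h4 : e • (Pic0.mk E : Pic0 Qb (FBar (D.Q * D.R))) -
      Pic0.mk (SemilinearAut.degZeroSMulHom t E) = 0 := by
    rw [← key]
    abel
  exact (sub_eq_zero.mp h4).symm

end Core

section G2

variable {N₀ p : ℕ} [NeZero N₀] [NeZero p] (D : ALData) (hM : N₀ * p = D.Q * D.R)
  (A : ValuationSubring Qb)

/-- a `p`-new class with a Kummer generator `g` of exponent `p`: `g` is a new function. -/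
theorem isNewFn_of_isRootDiv {E : Divisor.degZero (K := Qb) (F := FBar (N₀ * p))}
    {g : FBar (N₀ * p)} (hp : p ≠ 0) (hE : IsRootDiv p g E)
    (h1 : pushAlpha N₀ p (Pic0.mk E) = 0)
    (h2 : pushAlpha N₀ p (pushWAt D hM (Pic0.mk E)) = 0) : IsNewFn D hM g := by
  refine ⟨exists_norm_eq_of_pushAlpha_eq_zero hp hE h1, ?_⟩
  obtain ⟨E', hE', hR'⟩ := isRootDiv_pushWAt D hM hE
  rw [hE'] at h2
  exact exists_norm_eq_of_pushAlpha_eq_zero hp hR' h2

/-- **(G2)** for `Sp`, from (W1) and the modular instance of (COV) for a primitive `p`-th root of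
unity `ζ`, `lam = ζ - 1`. -/
theorem splitG2_spSub (hp : p.Prime) (hA : A.LiesOverPrime p)
    (hW : W1Statement N₀ p D hM A)
    {ζ : Qb} (hζ : IsPrimitiveRoot ζ p) (hC : CovInstStatement D A p (ζ - 1)) :
    haveI : NeZero (N₀ * p) := ⟨Nat.mul_ne_zero (NeZero.ne N₀) (NeZero.ne p)⟩
    SplitG2 p (N₀ * p) A (spSub N₀ p D hM A) := by
  haveI : NeZero (N₀ * p) := ⟨Nat.mul_ne_zero (NeZero.ne N₀) (NeZero.ne p)⟩
  intro x hxS hx σ hσ e he
  rw [mem_spSub_iff] at hxS
  obtain ⟨h1, h2, n, hn⟩ := hxS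
  obtain ⟨E, g, hR, rfl, hr1, hr2⟩ := hasRedOneGen_one D hM A hp hA hn hx
  rw [pow_one] at hR
  have hdiv : ∀ P : Place Qb (FBar (N₀ * p)), (p : ℤ) ∣ P.ord g :=
    fun P => ⟨_, (hR.2 P).symm⟩
  have hnew : IsNewFn D hM g := isNewFn_of_isRootDiv D hM hp.ne_zero hR h1 h2
  have hnew' : IsNewFn D hM (wAt D hM g) := ⟨hnew.2, by rw [wAt_wAt]; exact hnew.1⟩
  have hs₁ : GaussSplit A p g := hW g hR.1 hdiv hnew hr1 hr2
  have hwg0 : wAt D hM g ≠ 0 := (map_ne_zero_iff _ (wAt D hM).injective).mpr hR.1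
  have hdiv' : ∀ P : Place Qb (FBar (N₀ * p)), (p : ℤ) ∣ P.ord (wAt D hM g) := by
    obtain ⟨E', -, hR'⟩ := isRootDiv_pushWAt D hM hR
    exact fun P => ⟨_, (hR'.2 P).symm⟩
  have hr1' : RedAt A (AlgEquiv.refl : FBar (N₀ * p) ≃ₐ[Qb] FBar (N₀ * p)) (wAt D hM g) 1 := hr2
  have hr2' : RedAt A (wAt D hM) (wAt D hM g) 1 := by
    unfold RedAt
    rw [wAt_wAt]
    exact hr1
  have hs₂ : GaussSplit A p (wAt D hM g) := hW _ hwg0 hdiv' hnew' hr1' hr2'
  have hlam : (σ ((ζ - 1) ^ p) / (ζ - 1) ^ p - (e : Qb)) / (ζ - 1) ∈ A :=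
    cyc_twist_mem_of_map A hp hζ σ.toRingEquiv e (he ζ (hζ.pow_eq_one))
  exact smul_eq_nsmul_of_gaussSplit D hM A hp.ne_zero hC hσ e hlam hR hs₁ hs₂

/-- **P-BR**: the body of `S33.PBRTarget` from (W1) and the modular instance of (COV). -/
theorem pbr_of_parts (hp : p.Prime) (hQ : D.Q = p) (hA : A.LiesOverPrime p)
    (hW : W1Statement N₀ p D hM A)
    (hC : ∀ ζ : Qb, IsPrimitiveRoot ζ p → CovInstStatement D A p (ζ - 1)) :
    ∃ Sp : AddSubgroup (JZero (N₀ * p)), SplitG1 p N₀ D hM A Sp ∧ SplitG2 p (N₀ * p) A Sp := by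
  haveI : NeZero (N₀ * p) := ⟨Nat.mul_ne_zero (NeZero.ne N₀) (NeZero.ne p)⟩
  have hQp : D.Q.Prime := hQ ▸ hp
  have hAQ : A.LiesOverPrime D.Q := hQ ▸ hA
  obtain ⟨ζ, hζ⟩ : ∃ ζ : Qb, IsPrimitiveRoot ζ p := by
    haveI : NeZero ((p : ℕ) : Qb) := ⟨by exact_mod_cast hp.ne_zero⟩
    exact HasEnoughRootsOfUnity.exists_primitiveRoot Qb p
  refine ⟨spSub N₀ p D hM A, ?_, splitG2_spSub D hM A hp hA hW hζ (hC ζ hζ)⟩
  intro n x hx h1 h2 τ hτ
  exact smul_sub_mem_spSub hQp hAQ hx h1 h2 hτ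

end G2

end Fermat.Agent.BadRed.PNew
end
end MergeWrap_Lib_BadRed_PNew_Bridge

section MergeWrap_Lib_BadRed_PNew_CovModular -- from Lib/BadRed/PNew/CovModular.lean

set_option autoImplicit false
set_option linter.style.haveILetI false
set_option linter.unusedSectionVars false
set_option linter.unusedVariables false
set_option synthInstance.maxHeartbeats 400000
set_option maxHeartbeats 1000000

/-!
# S33-new: `(COV)` for the MODULAR nodal package at the residue characteristic `p = D.Q`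

* `fw_nonempty_nodalNS` : the modular nodal package `fwModularNodal` has a `NodalNS` package;
* `fw_pCov` : `PCovStatement (fwModularNodal ..).N D.Q lam` for every cyclotomic uniformiser `lam`
  (`PTor.IsCycloUnif`);
* `exists_modularNodal_pCov` : for every Atkin-Lehner datum `D` with `D.Q` prime and `AuxOK D`, and
  every place `A` of `ℚ̄` over `D.Q`: the modular nodal package with its toric key statement AND
  its `(COV)` statement at `p = D.Q`.
-/

noncomputable section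

namespace Fermat.Agent.BadRed

open IntermediateField ModularCurve AlgebraicCurve Fermat.Agent.F3 Fermat.Agent.F3G
  Fermat.Agent.GaussInt
  Fermat.Agent.AtkinLehner Fermat.Agent.Deuring Fermat.Agent.RR Fermat.Agent.BadRed.SeedNode
  Fermat.Agent.BadRed.SeedPoles

local notation "Qb" => AlgebraicClosure ℚ

attribute [local instance] fwFintype

section

variable (D : ALData) [NeZero D.Q] [NeZero D.R] [NeZero (D.Q * D.R)]
  (A : ValuationSubring Qb) (hq : D.Q.Prime) (hA : A.LiesOverPrime D.Q) (hqR : ¬ D.Q ∣ D.R)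
  (S : ValSetup Qb (modularFunctionFieldBar (D.Q * D.R)) (IsLocalRing.ResidueField A)
    (modularFunctionFieldFullC (IsLocalRing.ResidueField A) D.R))
  (hS : IsGaussSetup (D.Q * D.R) D.R A S) (hL : HasLattice S)
  [Fact D.Q.Prime] [CharP (IsLocalRing.ResidueField A) D.Q]
  [PerfectRing (IsLocalRing.ResidueField A) D.Q]

/-- the modular nodal package has a `NodalNS` package. -/
theorem fw_nonempty_nodalNS (haux : AuxLevelOK D.Q D.R) (hsep : FwSep D A S) :
    Nonempty (NodalNS (fwModularNodal D A hq hA hqR S hS hL haux hsep).N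
      (genusFF Qb (modularFunctionFieldBar (D.Q * D.R)))) := by
  haveI := infinite_residue A
  haveI := Fermat.Agent.GaussInt.isAlgClosed_residue A
  haveI := fw_nonempty D A hq hA S hS
  exact NodalSetup.nonempty_nodalNS_of_lift
    (N := (fwSeed D A hq hA hqR S hS hL haux hsep).nodalSetup)
    (fwSeed D A hq hA hqR S hS hL haux hsep).nodalSetup_genusRel
    (fwSeed D A hq hA hqR S hS hL haux hsep).D₀ (fwSeed D A hq hA hqR S hS hL haux hsep).R₁
    (fwSeed D A hq hA hqR S hS hL haux hsep).R₂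
    (fwSeed D A hq hA hqR S hS hL haux hsep).R₁_pos
    (fwSeed D A hq hA hqR S hS hL haux hsep).R₂_pos
    (fwSeed D A hq hA hqR S hS hL haux hsep).R₁_node
    (fwSeed D A hq hA hqR S hS hL haux hsep).R₂_node
    (fwSeed D A hq hA hqR S hS hL haux hsep).nodalSetup_hasLift

/-- **(COV) for the modular nodal package** at the residue characteristic `p = D.Q`. -/
theorem fw_pCov (haux : AuxLevelOK D.Q D.R) (hsep : FwSep D A S) (lam : Qb)
    (h : PTor.IsCycloUnif (fwModularNodal D A hq hA hqR S hS hL haux hsep).N D.Q lam) :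
    PTor.PCovStatement (fwModularNodal D A hq hA hqR S hS hL haux hsep).N D.Q lam := by
  haveI := infinite_residue A
  exact PCov.pCovMain_of_nonempty _ (fw_nonempty_nodalNS D A hq hA hqR S hS hL haux hsep) D.Q lam h
    (fun c => IsAlgClosed.exists_pow_nat_eq c hq.pos)
    (fwModularNodal D A hq hA hqR S hS hL haux hsep).genusRel

end

/-- **the modular nodal package exists**, with its toric key statement and its `(COV)` statement
at the residue characteristic. -/
theorem exists_modularNodal_pCov (D : ALData) (hQ : D.Q.Prime) (haux : AuxLevel.AuxOK D)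
    (A : ValuationSubring Qb) (hA : A.LiesOverPrime D.Q) :
    ∃ M : ModularNodal D A, AbstractToricKeyStatement M.N ∧
      ∀ lam : Qb, PTor.IsCycloUnif M.N D.Q lam → PTor.PCovStatement M.N D.Q lam := by
  haveI : NeZero D.Q := ⟨hQ.ne_zero⟩
  haveI : NeZero D.R := ⟨D.hR.ne'⟩
  haveI : NeZero (D.Q * D.R) := ⟨mul_ne_zero hQ.ne_zero D.hR.ne'⟩
  haveI : Fact D.Q.Prime := ⟨hQ⟩
  haveI : CharP (IsLocalRing.ResidueField A) D.Q :=
    Fermat.Agent.FrobTrace.charP_residueField A hA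
  haveI : IsAlgClosed (IsLocalRing.ResidueField A) := Fermat.Agent.GaussInt.isAlgClosed_residue A
  haveI : PerfectRing (IsLocalRing.ResidueField A) D.Q := inferInstance
  have hqR := ALData_not_dvd D hQ
  have hS := isGaussSetup_gaussSetupBad D hQ hqR A hA
  have hL := hasLattice_gaussSetupBad D hQ hqR A hA
  have haux' : AuxLevelOK D.Q D.R := haux
  have hsep := fw_sep D A hQ hA hqR _ hS haux'
  exact ⟨fwModularNodal D A hQ hA hqR _ hS hL haux' hsep,
    fw_abstractToricKey D A hQ hA hqR _ hS hL haux' hsep,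
    fun lam h => fw_pCov D A hQ hA hqR _ hS hL haux' hsep lam h⟩

end Fermat.Agent.BadRed
end
end MergeWrap_Lib_BadRed_PNew_CovModular

section MergeWrap_Lib_BadRed_PNew_CycloUnif -- from Lib/BadRed/PNew/CycloUnif.lean

set_option autoImplicit false

/-!
# S33-new, seat P-BR (helper46): `IsCycloUnif` for `lam = ζ - 1`

For a nodal setup `N` over `K`, a prime `p` which is not a unit of the valuation ring `N.S₁.A`
and a primitive `p`-th root of unity `ζ ∈ K`: `PTor.IsCycloUnif N p (ζ - 1)`.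
-/

namespace Fermat.Agent.BadRed.PNew

variable {K F k Fk₁ Fk₂ : Type*} [Field K] [Field F] [Algebra K F]
  [Field k] [Field Fk₁] [Algebra k Fk₁] [Field Fk₂] [Algebra k Fk₂] {ι : Type*}

/-- `lam = ζ - 1` is a cyclotomic uniformiser. -/
theorem isCycloUnif_sub_one (N : NodalSetup K F k Fk₁ Fk₂ ι) {p : ℕ} (hp : p.Prime) {ζ : K}
    (hζ : IsPrimitiveRoot ζ p) (hp0 : (p : K) ≠ 0) (hpA : ((p : K))⁻¹ ∉ N.S₁.A) :
    PTor.IsCycloUnif N p (ζ - 1) where
  prime := hp
  ne_zero := sub_ne_zero.mpr (cyc_ne_one hp hζ)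
  mem := cyc_lam_mem N.S₁.A hp hζ
  inv_not_mem := cyc_lam_inv_not_mem N.S₁.A hp hζ hpA
  kappa_mem := cyc_kappa_mem N.S₁.A hp hζ
  kappa_inv_mem := cyc_kappa_inv_mem N.S₁.A hp hζ
  p_ne_zero := hp0

end Fermat.Agent.BadRed.PNew
end MergeWrap_Lib_BadRed_PNew_CycloUnif

section MergeWrap_Lib_BadRed_PNew_CovInst -- from Lib/BadRed/PNew/CovInst.lean

set_option autoImplicit false
set_option linter.style.haveILetI false
set_option linter.unusedSectionVars false
set_option linter.unusedVariables false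
set_option synthInstance.maxHeartbeats 400000
set_option maxHeartbeats 1000000

/-!
# S33-new: the modular instance of `(COV)` for the cyclotomic uniformiser `ζ - 1`

`covInst_all` : for an Atkin-Lehner datum `D` with `D.Q = p` prime and `AuxOK D`, a place `A` of
`ℚ̄` over `p` and a primitive `p`-th root of unity `ζ`: a modular nodal package `MN` at `A` with
`PTor.PCovStatement MN.N p (ζ - 1)`  (this is `PNew.CovInstStatement D A p (ζ - 1)` unfolded).
-/

noncomputable section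

namespace Fermat.Agent.BadRed

open ModularCurve AlgebraicCurve Fermat.Agent.AtkinLehner Fermat.Agent.Deuring Fermat.Agent.RR

local notation "Qb" => AlgebraicClosure ℚ

/-- **the modular instance of (COV)** at the cyclotomic uniformiser `ζ - 1`. -/
theorem covInst_all (p : ℕ) (D : ALData) (hp : p.Prime) (hQ : D.Q = p)
    (haux : AuxLevel.AuxOK D) (A : ValuationSubring Qb) (hA : A.LiesOverPrime p)
    (ζ : Qb) (hζ : IsPrimitiveRoot ζ p) :
    ∃ MN : ModularNodal D A, PTor.PCovStatement MN.N p (ζ - 1) := by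
  subst hQ
  obtain ⟨M, -, hcov⟩ := exists_modularNodal_pCov D hp haux A hA
  have hp0 : ((D.Q : ℕ) : Qb) ≠ 0 := Nat.cast_ne_zero.mpr hp.ne_zero
  refine ⟨M, hcov (ζ - 1) (PNew.isCycloUnif_sub_one M.N hp hζ hp0 ?_)⟩
  rw [M.A_eq]
  exact (A.mem_nonunits_iff_or.mp hA).resolve_left hp0

end Fermat.Agent.BadRed
end
end MergeWrap_Lib_BadRed_PNew_CovInst

section MergeWrap_Lib_BadRed_PNew_WAux -- from Lib/BadRed/PNew/WAux.lean

set_option autoImplicit false
set_option linter.unusedSectionVars false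
set_option linter.unusedVariables false
set_option linter.style.haveILetI false

noncomputable section

namespace Fermat.Agent.BadRed.PNew

open ModularCurve AlgebraicCurve Fermat.Agent.F3 Fermat.Agent.F3G Fermat.Agent.GaussInt
  Fermat.Agent.BadRed

local notation "Qb" => AlgebraicClosure ℚ

variable {p : ℕ} (hp : p.Prime) {A : ValuationSubring Qb} (hA : A.LiesOverPrime p)

include hp hA in
/-- **(iii)** a primitive `p`-th root of unity as a unit of `A`; `ζ - 1` divides `p`, is nonzero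
and not a unit. -/
theorem exists_zetaA (ζ : Qbˣ) (hζ : IsPrimitiveRoot ζ p) :
    ∃ ζA : Aˣ, Units.map (A.subtype : A →* Qb) ζA = ζ ∧ IsPrimitiveRoot ζA p ∧
      ((ζA : A) - 1) ∣ (p : A) ∧ (ζA : A) - 1 ≠ 0 ∧ ¬ IsUnit ((ζA : A) - 1) := by
  haveI : Fact p.Prime := ⟨hp⟩
  haveI : CharP (IsLocalRing.ResidueField A) p := Fermat.Agent.FrobTrace.charP_residueField A hA
  have hζpow : (ζ : Qb) ^ p = 1 := by
    rw [← Units.val_pow_eq_pow_val, hζ.pow_eq_one, Units.val_one]
  have hζinvpow : ((ζ⁻¹ : Qbˣ) : Qb) ^ p = 1 := by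
    rw [← Units.val_pow_eq_pow_val, inv_pow, hζ.pow_eq_one, inv_one, Units.val_one]
  have hζA : (ζ : Qb) ∈ A := nr_mem_of_pow_eq_one A hp.pos hζpow
  have hζinvA : ((ζ⁻¹ : Qbˣ) : Qb) ∈ A := nr_mem_of_pow_eq_one A hp.pos hζinvpow
  let ζA : Aˣ := ⟨⟨ζ, hζA⟩, ⟨((ζ⁻¹ : Qbˣ) : Qb), hζinvA⟩,
    Subtype.ext (by simp), Subtype.ext (by simp)⟩
  have hmap : Units.map (A.subtype : A →* Qb) ζA = ζ := Units.ext rfl
  have hinj : Function.Injective (Units.map (A.subtype : A →* Qb)) :=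
    Units.map_injective Subtype.val_injective
  have hprim : IsPrimitiveRoot ζA p := by
    refine IsPrimitiveRoot.of_map_of_injective (f := Units.map (A.subtype : A →* Qb)) ?_ hinj
    rw [hmap]
    exact hζ
  have hprim' : IsPrimitiveRoot (ζA : A) p := IsPrimitiveRoot.coe_units_iff.mpr hprim
  refine ⟨ζA, hmap, hprim, hprim'.sub_one_dvd_natCast hp.one_lt, ?_, ?_⟩
  · exact sub_ne_zero.mpr (hprim'.ne_one hp.one_lt)
  · -- the residue of `ζ` is `1`
    have h1 : Units.map (IsLocalRing.residue A : A →* IsLocalRing.ResidueField A) ζA = 1 :=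
      Fermat.Agent.Kronecker.units_eq_one_of_pow_char_eq_one p _
        (by rw [← map_pow, hprim.pow_eq_one, map_one])
    have h2 : IsLocalRing.residue A (ζA : A) = 1 := by
      have := congrArg Units.val h1
      simpa using this
    have h3 : IsLocalRing.residue A ((ζA : A) - 1) = 0 := by
      rw [map_sub, h2, map_one, sub_self]
    exact (IsLocalRing.mem_maximalIdeal _).mp ((IsLocalRing.residue_eq_zero_iff _).mp h3)

include hp hA in
/-- **(ii)** archimedean: a nonzero non-unit has a power divisible by `p ^ 2`. -/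
theorem exists_sq_dvd_pow {μ : A} (hμ0 : μ ≠ 0) (hμ : ¬ IsUnit μ) :
    ∃ m : ℕ, (p : A) ^ 2 ∣ μ ^ m := by
  have hμ0' : (μ : Qb) ≠ 0 := fun h => hμ0 (Subtype.ext h)
  have hv : A.valuation (μ : Qb) < 1 := by
    refine lt_of_le_of_ne ((A.valuation_le_one_iff _).mpr μ.2) ?_
    intro h1
    exact hμ ((A.valuation_eq_one_iff μ).mpr h1)
  have halgQ : Algebra.IsAlgebraic ℚ (AlgebraicClosure ℚ) := AlgebraicClosure.isAlgebraic ℚ
  have halg : IsAlgebraic ℚ (μ : Qb) := halgQ.isAlgebraic _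
  obtain ⟨m, -, hm⟩ := exists_pow_valuation_le_prime hp hA hv hμ0' halg
  have hp0 : (p : Qb) ≠ 0 := by exact_mod_cast hp.ne_zero
  -- `p ∣ μ ^ m` in `A`
  have hmem : (μ : Qb) ^ m / (p : Qb) ∈ A := by
    rw [← A.valuation_le_one_iff, map_div₀, map_pow]
    exact (div_le_one₀ (zero_lt_iff.mpr ((Valuation.ne_zero_iff _).mpr hp0))).mpr hm
  have hdvd : (p : A) ∣ μ ^ m := by
    refine ⟨⟨(μ : Qb) ^ m / (p : Qb), hmem⟩, ?_⟩
    apply Subtype.ext
    push_cast
    field_simp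
  refine ⟨m * 2, ?_⟩
  rw [pow_mul]
  exact pow_dvd_pow_of_dvd hdvd 2

include hp hA in
/-- **(i)** initial level: a function `≡ 1` modulo the maximal ideal of the Gauss ring is `≡ 1`
modulo some nonzero non-unit `π` of `A`. -/
theorem exists_level_of_redAt {M : ℕ} [NeZero M] {g : FBar M}
    (hred : RedAt A (AlgEquiv.refl : FBar M ≃ₐ[Qb] FBar M) g 1) (hg1 : g ≠ 1) :
    ∃ π : A, π ≠ 0 ∧ ¬ IsUnit π ∧
      ((g : LaurentSeries Qb) - 1) / algebraMap Qb (LaurentSeries Qb) (π : Qb) ∈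
        gaussSub A (modularFunctionFieldBar M) := by
  obtain ⟨hgmem, hgres⟩ := hred
  have hgmem' : (g : LaurentSeries Qb) ∈ gaussSub A (modularFunctionFieldBar M) := hgmem
  have hgres' : gaussResFun A (modularFunctionFieldBar M) (g : LaurentSeries Qb) = 1 := hgres
  have hne : g - 1 ≠ 0 := sub_ne_zero.mpr hg1
  obtain ⟨c, hc0, hcmem, hcres⟩ := valueGroupAt M p hp A hA (g - 1) hne
  have hcoe : ((g - 1 : FBar M) : LaurentSeries Qb) = (g : LaurentSeries Qb) - 1 := by
    push_cast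
    rfl
  rw [hcoe] at hcmem hcres
  have hsubmem : (g : LaurentSeries Qb) - 1 ∈ gaussSub A (modularFunctionFieldBar M) :=
    sub_mem hgmem' (one_mem _)
  have hsubres : gaussResFun A (modularFunctionFieldBar M) ((g : LaurentSeries Qb) - 1) = 0 := by
    have h1 : gaussRes A (modularFunctionFieldBar M) (⟨_, hgmem'⟩ - 1) =
        gaussRes A (modularFunctionFieldBar M) ⟨_, hgmem'⟩ - 1 := by
      rw [map_sub, map_one]
    have h2 : gaussRes A (modularFunctionFieldBar M) ⟨_, hgmem'⟩ = 1 := hgres'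
    rw [h2, sub_self] at h1
    exact h1
  -- `c ∉ A`
  have hcA : c ∉ A := by
    intro hc
    apply hcres
    rw [gaussResFun_mul_of_mem (algebraMap_mem_gaussSub hc) hsubmem, hsubres, mul_zero]
  have hci : c⁻¹ ∈ A := (A.mem_or_inv_mem c).resolve_left hcA
  refine ⟨⟨c⁻¹, hci⟩, ?_, ?_, ?_⟩
  · intro h0
    have := congrArg Subtype.val h0
    exact inv_ne_zero hc0 this
  · intro hu
    apply hcA
    have h1 : A.valuation (c⁻¹) = 1 := (A.valuation_eq_one_iff ⟨c⁻¹, hci⟩).mp hu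
    rw [map_inv₀, inv_eq_one] at h1
    exact (A.valuation_le_one_iff c).mp h1.le
  · have e : ((g : LaurentSeries Qb) - 1) / algebraMap Qb (LaurentSeries Qb) c⁻¹ =
        algebraMap Qb (LaurentSeries Qb) c * ((g : LaurentSeries Qb) - 1) := by
      rw [map_inv₀, div_inv_eq_mul, mul_comm]
    show ((g : LaurentSeries Qb) - 1) / algebraMap Qb (LaurentSeries Qb) c⁻¹ ∈ _
    rw [e]
    exact hcmem

end Fermat.Agent.BadRed.PNew
end
end MergeWrap_Lib_BadRed_PNew_WAux

section MergeWrap_Lib_BadRed_PNew_WNew -- from Lib/BadRed/PNew/WNew.lean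

set_option autoImplicit false
set_option linter.style.haveILetI false
set_option linter.unusedSectionVars false
set_option linter.unusedVariables false
set_option synthInstance.maxHeartbeats 400000
set_option maxHeartbeats 1000000

/-!
# S33-new, seat W-new (helper94; architect helper66): stability of `IsNewFn`

* `IsNewFn.wAt`    : `g` new ⟹ `w g` new;
* `IsNewFn.of_mul` : `g = c₀ H ^ p x` new ⟹ `x` new.
-/

noncomputable section

namespace Fermat.Agent.BadRed.PNew

open ModularCurve AlgebraicCurve Fermat.Agent.F3 Fermat.Agent.F3G Fermat.Agent.GaussInt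
  Fermat.Agent.AtkinLehner Fermat.Agent.Kronecker

local notation "Qb" => AlgebraicClosure ℚ

variable {N₀ p : ℕ} [NeZero N₀] [NeZero p]

section New

variable (D : ALData) (hM : N₀ * p = D.Q * D.R)

/-- `g` new ⟹ `w g` new (`D`, `hM` explicit, as in `WSplit.lean`). -/
theorem IsNewFn.wAt {g : FBar (N₀ * p)} (h : IsNewFn D hM g) :
    IsNewFn D hM (Fermat.Agent.BadRed.wAt D hM g) := by
  refine ⟨h.2, ?_⟩
  rw [wAt_wAt]
  exact h.1

variable {D hM} in
/-- `IsNewFn.wAt` with implicit `D`, `hM`. -/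
theorem IsNewFn.wAt' {g : FBar (N₀ * p)} (h : IsNewFn D hM g) :
    IsNewFn D hM (Fermat.Agent.BadRed.wAt D hM g) :=
  IsNewFn.wAt D hM h

/-- the norm form of a quotient: if `Norm (c₀ H ^ p x) = c a ^ p` then `Norm x` is a constant
times a `p`-th power. -/
theorem exists_norm_eq_of_mul (hp : p.Prime) (hpN : ¬ p ∣ N₀) {y x H : FBar (N₀ * p)} {c₀ : Qb}
    (hc₀ : c₀ ≠ 0) (hH : H ≠ 0)
    (hy : ∃ (a : FBar N₀) (c : Qb), c ≠ 0 ∧
      normAlong (heckeAlphaBar Qb N₀ p) y = algebraMap Qb (FBar N₀) c * a ^ p)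
    (hyx : y = algebraMap Qb (FBar (N₀ * p)) c₀ * H ^ p * x) :
    ∃ (a : FBar N₀) (c : Qb), c ≠ 0 ∧
      normAlong (heckeAlphaBar Qb N₀ p) x = algebraMap Qb (FBar N₀) c * a ^ p := by
  obtain ⟨a, c, hc, hn⟩ := hy
  have hNH : normAlong (heckeAlphaBar Qb N₀ p) H ≠ 0 := normAlong_ne_zero' hp hpN hH
  have hc₀p : c₀ ^ (p + 1) ≠ 0 := pow_ne_zero _ hc₀
  have hcF : algebraMap Qb (FBar N₀) (c₀ ^ (p + 1)) ≠ 0 :=
    (map_ne_zero_iff _ (algebraMap Qb (FBar N₀)).injective).mpr hc₀p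
  have e : algebraMap Qb (FBar N₀) (c₀ ^ (p + 1)) *
      (normAlong (heckeAlphaBar Qb N₀ p) H) ^ p * normAlong (heckeAlphaBar Qb N₀ p) x =
        algebraMap Qb (FBar N₀) c * a ^ p := by
    have e1 : normAlong (heckeAlphaBar Qb N₀ p) y =
        algebraMap Qb (FBar N₀) (c₀ ^ (p + 1)) *
          (normAlong (heckeAlphaBar Qb N₀ p) H) ^ p * normAlong (heckeAlphaBar Qb N₀ p) x := by
      rw [hyx, map_mul, map_mul, normAlong_const hp hpN,
        map_pow (normAlong (heckeAlphaBar Qb N₀ p)) H p]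
    rw [← e1, hn]
  refine ⟨a / normAlong (heckeAlphaBar Qb N₀ p) H, c / c₀ ^ (p + 1), div_ne_zero hc hc₀p, ?_⟩
  rw [map_div₀, div_pow, div_mul_div_comm, eq_div_iff (mul_ne_zero hcF (pow_ne_zero _ hNH)), ← e]
  ring

/-- `g = c₀ H ^ p x` new ⟹ `x` new (`D`, `hM` explicit, as in `WSplit.lean`). -/
theorem IsNewFn.of_mul (hp : p.Prime) (hpN : ¬ p ∣ N₀) {g x H : FBar (N₀ * p)} {c₀ : Qb}
    (hc₀ : c₀ ≠ 0) (hH : H ≠ 0) (hg : IsNewFn D hM g)
    (hgx : g = algebraMap Qb (FBar (N₀ * p)) c₀ * H ^ p * x) : IsNewFn D hM x := by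
  refine ⟨exists_norm_eq_of_mul hp hpN hc₀ hH hg.1 hgx, ?_⟩
  have hwH : Fermat.Agent.BadRed.wAt D hM H ≠ 0 := wAt_ne_zero D hM hH
  refine exists_norm_eq_of_mul hp hpN hc₀ hwH hg.2 ?_
  rw [hgx, map_mul, map_mul, map_pow, AlgEquiv.commutes]

variable {D hM} in
/-- `IsNewFn.of_mul` with implicit `D`, `hM`. -/
theorem IsNewFn.of_mul' (hp : p.Prime) (hpN : ¬ p ∣ N₀) {g x H : FBar (N₀ * p)} {c₀ : Qb}
    (hc₀ : c₀ ≠ 0) (hH : H ≠ 0) (hg : IsNewFn D hM g)
    (hgx : g = algebraMap Qb (FBar (N₀ * p)) c₀ * H ^ p * x) : IsNewFn D hM x :=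
  IsNewFn.of_mul D hM hp hpN hc₀ hH hg hgx

end New

end Fermat.Agent.BadRed.PNew
end
end MergeWrap_Lib_BadRed_PNew_WNew

section MergeWrap_Lib_BadRed_PNew_WMain -- from Lib/BadRed/PNew/WMain.lean

set_option autoImplicit false
set_option linter.style.haveILetI false
set_option linter.unusedSectionVars false
set_option linter.unusedVariables false
set_option synthInstance.maxHeartbeats 400000
set_option maxHeartbeats 1000000

/-!
# S33-new, (W1): the main theorem `w1_split`  (helper66)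

`g ∈ F_{N₀ p}` NEW (`IsNewFn`), `g ≡ 1` modulo the maximal ideal of the Gauss ring at a place
`A | p` ⟹ `g = c H ^ p G` with `G ≡ 1 mod p ^ 2` in the Gauss ring.

Iteration of the double step `g = c H^p Nφ (Nφ g)` (`exists_eq_mul_nphi_nphi`) with the
contraction `LevP.contract`: each `Nφ` multiplies the level by `μ`, where `μ ∣ ζ - 1` and
`μ ∣ π ^ (p - 1)` (`π` the initial level).
-/

noncomputable section

namespace Fermat.Agent.BadRed.PNew

open ModularCurve AlgebraicCurve Fermat.Agent.F3 Fermat.Agent.F3G Fermat.Agent.GaussInt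
  Fermat.Agent.AtkinLehner Fermat.Agent.Kronecker

local notation "Qb" => AlgebraicClosure ℚ

variable {N₀ p : ℕ} [NeZero N₀] [NeZero p]

section Step

variable (D : ALData) (hM : N₀ * p = D.Q * D.R) (hp : p.Prime) (hpN : ¬ p ∣ N₀)
  (A : ValuationSubring Qb) (hA : A.LiesOverPrime p)
  (ζA : Aˣ) (hζA : IsPrimitiveRoot ζA p) (hpl : ((ζA : A) - 1) ∣ (p : A))
  (hE : ∀ x : FBar (N₀ * p),
      qExpand Qb p ((normAlong (heckeAlphaBar Qb N₀ p) x : FBar N₀) : LaurentSeries Qb) =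
        qExpand Qb p (x : LaurentSeries Qb) *
          ∏ i ∈ Finset.range p,
            scaleL ((Units.map (A.subtype : A →* Qb) ζA) ^ i)
              ((wAt D hM x : FBar (N₀ * p)) : LaurentSeries Qb))

include hp hE in
/-- the modular function field is stable under the multiplicative `U_p`. -/
theorem exists_nphi_mem (z : LaurentSeries Qb) (hz : z ∈ modularFunctionFieldBar (N₀ * p)) :
    ∃ n ∈ modularFunctionFieldBar (N₀ * p), qExpand Qb p n =
      ∏ b ∈ Finset.range p, scaleL ((Units.map (A.subtype : A →* Qb) ζA) ^ b) z :=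
  ⟨((nphi D hM ⟨z, hz⟩ : FBar (N₀ * p)) : LaurentSeries Qb), (nphi D hM ⟨z, hz⟩).2,
    qExpand_nphi D hM hp _ hE ⟨z, hz⟩⟩

include hp hA hζA hpl hE in
/-- one application of `Nφ` raises the level. -/
theorem levP_nphi {π π' : A} (hπ' : π' ≠ 0) (h1 : π' ∣ π * ((ζA : A) - 1)) (h2 : π' ∣ π ^ p)
    {x : FBar (N₀ * p)}
    (hx : LevP A (modularFunctionFieldBar (N₀ * p)) π (x : LaurentSeries Qb)) :
    LevP A (modularFunctionFieldBar (N₀ * p)) π'
      ((nphi D hM x : FBar (N₀ * p)) : LaurentSeries Qb) := by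
  haveI : Fact p.Prime := ⟨hp⟩
  haveI : CharP (IsLocalRing.ResidueField A) p := FrobTrace.charP_residueField A hA
  exact LevP.contract p ζA hζA hpl (exists_nphi_mem D hM hp A ζA hE) hπ' h1 h2
    (nphi D hM x).2 (qExpand_nphi D hM hp _ hE x) hx

include hp hpN hA hζA hpl hE in
/-- **the double step raises the level by `μ ^ 2`.** -/
theorem exists_levP_step {g : FBar (N₀ * p)} (hg : g ≠ 0) (hnew : IsNewFn D hM g) {π μ : A}
    (hπ : π ≠ 0) (hμ : μ ≠ 0) (hμl : μ ∣ (ζA : A) - 1) (hμπ : μ ∣ π ^ (p - 1))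
    (hx : LevP A (modularFunctionFieldBar (N₀ * p)) π (g : LaurentSeries Qb)) :
    ∃ (H : FBar (N₀ * p)) (c₀ : Qb), c₀ ≠ 0 ∧ H ≠ 0 ∧
      LevP A (modularFunctionFieldBar (N₀ * p)) (π * μ * μ)
        ((g / (algebraMap Qb (FBar (N₀ * p)) c₀ * H ^ p) : FBar (N₀ * p)) :
          LaurentSeries Qb) := by
  obtain ⟨H, c₀, hc₀, hH, hgeq⟩ := exists_eq_mul_nphi_nphi D hM hp hpN hg hnew
  refine ⟨H, c₀, hc₀, hH, ?_⟩
  have hcF : algebraMap Qb (FBar (N₀ * p)) c₀ ≠ 0 :=
    (map_ne_zero_iff _ (algebraMap Qb (FBar (N₀ * p))).injective).mpr hc₀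
  have hne : algebraMap Qb (FBar (N₀ * p)) c₀ * H ^ p ≠ 0 :=
    mul_ne_zero hcF (pow_ne_zero _ hH)
  have hquot : g / (algebraMap Qb (FBar (N₀ * p)) c₀ * H ^ p) =
      nphi D hM (nphi D hM g) := by
    rw [div_eq_iff hne]
    exact hgeq.trans (mul_comm _ _)
  rw [hquot]
  have hp1 : p = (p - 1) + 1 := (Nat.sub_add_cancel hp.one_le).symm
  have hp2 : p - 1 ≠ 0 := Nat.sub_ne_zero_of_lt hp.one_lt
  have l1 : LevP A (modularFunctionFieldBar (N₀ * p)) (π * μ)
      ((nphi D hM g : FBar (N₀ * p)) : LaurentSeries Qb) := by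
    refine levP_nphi D hM hp A hA ζA hζA hpl hE (mul_ne_zero hπ hμ) (mul_dvd_mul_left π hμl) ?_ hx
    have : π ^ p = π * π ^ (p - 1) := by
      conv_lhs => rw [hp1]
      rw [pow_succ']
    rw [this]
    exact mul_dvd_mul_left π hμπ
  refine levP_nphi D hM hp A hA ζA hζA hpl hE (mul_ne_zero (mul_ne_zero hπ hμ) hμ)
    (mul_dvd_mul_left (π * μ) hμl) ?_ l1
  have : (π * μ) ^ p = (π * μ) * (π * μ) ^ (p - 1) := by
    conv_lhs => rw [hp1]
    rw [pow_succ']
  rw [this]
  exact mul_dvd_mul_left (π * μ) (dvd_pow (Dvd.intro_left π rfl) hp2)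

include hp hpN hA hζA hpl hE in
/-- **iteration.** -/
theorem exists_levP_iter {π μ : A} (hπ : π ≠ 0) (hμ : μ ≠ 0) (hμl : μ ∣ (ζA : A) - 1)
    (hμπ : μ ∣ π ^ (p - 1)) (j : ℕ) :
    ∀ {g : FBar (N₀ * p)}, g ≠ 0 → IsNewFn D hM g →
      LevP A (modularFunctionFieldBar (N₀ * p)) π (g : LaurentSeries Qb) →
      ∃ (H : FBar (N₀ * p)) (c₀ : Qb), c₀ ≠ 0 ∧ H ≠ 0 ∧
        LevP A (modularFunctionFieldBar (N₀ * p)) (π * μ ^ (2 * j))
          ((g / (algebraMap Qb (FBar (N₀ * p)) c₀ * H ^ p) : FBar (N₀ * p)) :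
            LaurentSeries Qb) := by
  induction j with
  | zero =>
    intro g hg hnew hx
    refine ⟨1, 1, one_ne_zero, one_ne_zero, ?_⟩
    have e : g / (algebraMap Qb (FBar (N₀ * p)) 1 * 1 ^ p) = g := by
      rw [map_one, one_pow, mul_one, div_one]
    rw [e, Nat.mul_zero, pow_zero, mul_one]
    exact hx
  | succ j ih =>
    intro g hg hnew hx
    obtain ⟨H, c₀, hc₀, hH, hL⟩ := ih hg hnew hx
    have hcF : algebraMap Qb (FBar (N₀ * p)) c₀ ≠ 0 :=
      (map_ne_zero_iff _ (algebraMap Qb (FBar (N₀ * p))).injective).mpr hc₀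
    have hne : algebraMap Qb (FBar (N₀ * p)) c₀ * H ^ p ≠ 0 :=
      mul_ne_zero hcF (pow_ne_zero _ hH)
    set G : FBar (N₀ * p) := g / (algebraMap Qb (FBar (N₀ * p)) c₀ * H ^ p) with hG
    have hG0 : G ≠ 0 := div_ne_zero hg hne
    have hgG : g = algebraMap Qb (FBar (N₀ * p)) c₀ * H ^ p * G := by
      rw [hG, mul_div_cancel₀ _ hne]
    have hGnew : IsNewFn D hM G := IsNewFn.of_mul D hM hp hpN hc₀ hH hnew hgG
    have hπj : π * μ ^ (2 * j) ≠ 0 := mul_ne_zero hπ (pow_ne_zero _ hμ)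
    have hμπj : μ ∣ (π * μ ^ (2 * j)) ^ (p - 1) :=
      hμπ.trans (pow_dvd_pow_of_dvd (Dvd.intro _ rfl) _)
    obtain ⟨H', c', hc', hH', hL'⟩ :=
      exists_levP_step D hM hp hpN A hA ζA hζA hpl hE hG0 hGnew hπj hμ hμl hμπj hL
    refine ⟨H * H', c₀ * c', mul_ne_zero hc₀ hc', mul_ne_zero hH hH', ?_⟩
    have hcF' : algebraMap Qb (FBar (N₀ * p)) c' ≠ 0 :=
      (map_ne_zero_iff _ (algebraMap Qb (FBar (N₀ * p))).injective).mpr hc'
    have e1 : g / (algebraMap Qb (FBar (N₀ * p)) (c₀ * c') * (H * H') ^ p) =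
        G / (algebraMap Qb (FBar (N₀ * p)) c' * H' ^ p) := by
      rw [hG, map_mul, mul_pow, div_div]
      congr 1
      ring
    have e2 : π * μ ^ (2 * (j + 1)) = π * μ ^ (2 * j) * μ * μ := by
      ring
    rw [e1, e2]
    exact hL'

end Step

section Main

variable (D : ALData) (hM : N₀ * p = D.Q * D.R) (hp : p.Prime) (hpN : ¬ p ∣ N₀)
  (hQ : D.Q = p) (hR : D.R = N₀)
  (A : ValuationSubring Qb) (hA : A.LiesOverPrime p)

include hp in
/-- the step size `μ`. -/
theorem exists_step_size {l π : A} (hl0 : l ≠ 0) (hlu : ¬ IsUnit l) (hπ0 : π ≠ 0)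
    (hπu : ¬ IsUnit π) :
    ∃ μ : A, μ ≠ 0 ∧ ¬ IsUnit μ ∧ μ ∣ l ∧ μ ∣ π ^ (p - 1) := by
  have hp2 : p - 1 ≠ 0 := Nat.sub_ne_zero_of_lt hp.one_lt
  rcases ValuationRing.dvd_total l (π ^ (p - 1)) with h | h
  · exact ⟨l, hl0, hlu, dvd_rfl, h⟩
  · exact ⟨π ^ (p - 1), pow_ne_zero _ hπ0, fun hu => hπu ((isUnit_pow_iff hp2).mp hu), h,
      dvd_rfl⟩

include hp hpN hQ hR hA in
/-- **(W1)**: a NEW function which is `≡ 1` modulo the maximal ideal of the Gauss ring is a
constant times a `p`-th power times a function `≡ 1 mod p ^ 2`. -/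
theorem w1_split {g : FBar (N₀ * p)} (hg : g ≠ 0) (hnew : IsNewFn D hM g)
    (hred : RedAt A (AlgEquiv.refl : FBar (N₀ * p) ≃ₐ[Qb] FBar (N₀ * p)) g 1) :
    ∃ (H : FBar (N₀ * p)) (c : Qb), H ≠ 0 ∧ c ≠ 0 ∧
      (((g / (algebraMap Qb (FBar (N₀ * p)) c * H ^ p) - 1) /
          algebraMap Qb (FBar (N₀ * p)) ((p : Qb) ^ 2) : FBar (N₀ * p)) : LaurentSeries Qb) ∈
        gaussSub A (modularFunctionFieldBar (N₀ * p)) := by
  by_cases hg1 : g = 1
  · refine ⟨1, 1, one_ne_zero, one_ne_zero, ?_⟩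
    have e : (g / (algebraMap Qb (FBar (N₀ * p)) 1 * 1 ^ p) - 1) /
        algebraMap Qb (FBar (N₀ * p)) ((p : Qb) ^ 2) = 0 := by
      rw [hg1, map_one, one_pow, mul_one, div_one, sub_self, zero_div]
    rw [e]
    exact zero_mem (gaussSub A (modularFunctionFieldBar (N₀ * p)))
  obtain ⟨ζ, hζ, hE⟩ := norm_expansion_wAt hp hpN D hQ hR hM
  obtain ⟨ζA, hmap, hζA, hpl, hl0, hlu⟩ := exists_zetaA hp hA ζ hζ
  rw [← hmap] at hE
  obtain ⟨π, hπ0, hπu, hmem⟩ := exists_level_of_redAt hp hA hred hg1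
  have hπK : (π : Qb) ≠ 0 := fun h => hπ0 (Subtype.ext h)
  have hx : LevP A (modularFunctionFieldBar (N₀ * p)) π (g : LaurentSeries Qb) :=
    levP_of_mem hπK hmem
  obtain ⟨μ, hμ0, hμu, hμl, hμπ⟩ := exists_step_size hp A hl0 hlu hπ0 hπu
  obtain ⟨m, hm⟩ := exists_sq_dvd_pow hp hA hμ0 hμu
  obtain ⟨H, c₀, hc₀, hH, hL⟩ :=
    exists_levP_iter D hM hp hpN A hA ζA hζA hpl hE hπ0 hμ0 hμl hμπ m hg hnew hx
  refine ⟨H, c₀, hH, hc₀, ?_⟩
  have hdvd : (p : A) ^ 2 ∣ π * μ ^ (2 * m) :=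
    hm.trans (dvd_mul_of_dvd_right (pow_dvd_pow μ (by omega)) π)
  have hL' := hL.of_dvd hdvd
  have hp0 : (((p : A) ^ 2 : A) : Qb) ≠ 0 := by
    push_cast
    exact pow_ne_zero _ (Nat.cast_ne_zero.mpr hp.ne_zero)
  have h3 := hL'.sub_one_div_mem hp0
  have e : ((((g / (algebraMap Qb (FBar (N₀ * p)) c₀ * H ^ p) - 1) /
      algebraMap Qb (FBar (N₀ * p)) ((p : Qb) ^ 2) : FBar (N₀ * p)) : LaurentSeries Qb)) =
      (((g / (algebraMap Qb (FBar (N₀ * p)) c₀ * H ^ p) : FBar (N₀ * p)) :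
          LaurentSeries Qb) - 1) /
        algebraMap Qb (LaurentSeries Qb) (((p : A) ^ 2 : A) : Qb) := by
    have e_den : ((algebraMap Qb (FBar (N₀ * p)) ((p : Qb) ^ 2) : FBar (N₀ * p)) :
        LaurentSeries Qb) = algebraMap Qb (LaurentSeries Qb) (((p : A) ^ 2 : A) : Qb) := by
      push_cast
      rfl
    rw [IntermediateField.coe_div, e_den]
    rfl
  rw [e]
  exact h3

end Main

end Fermat.Agent.BadRed.PNew
end
end MergeWrap_Lib_BadRed_PNew_WMain

section MergeWrap_Lib_TateModule_Reduction -- from Lib/TateModule/Reduction.lean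

set_option autoImplicit false

/-!
# Reduction of a finite free module along a surjective ring homomorphism

`φ : O →+* R` surjective, `T` a finite free `O`-module, `V` an `R`-module and `π : T →+ V`
a `φ`-semilinear surjection whose kernel is `ker φ • T`.  Then a basis of `T` maps to a basis
of `V`, and traces, determinants and characteristic polynomials of compatible endomorphisms
correspond under `φ`.
-/

noncomputable section

namespace Fermat.Agent.TateModule

open Module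

variable {O R : Type*} [CommRing O] [CommRing R] (φ : O →+* R)
  {T V : Type*} [AddCommGroup T] [Module O T] [AddCommGroup V] [Module R V]
  (π : T →+ V)

/-- `π : T → V` is a reduction map along `φ : O → R`. -/
structure IsReduction : Prop where
  surj_ring : Function.Surjective φ
  surj : Function.Surjective π
  semilinear : ∀ (c : O) (x : T), π (c • x) = φ c • π x
  ker_le : ∀ x, π x = 0 → x ∈ (RingHom.ker φ) • (⊤ : Submodule O T)

variable {φ π}

theorem repr_mem_of_mem_smul_top {ι : Type*} (b : Basis ι O T) (I : Ideal O) {x : T}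
    (hx : x ∈ I • (⊤ : Submodule O T)) (i : ι) : b.repr x i ∈ I := by
  refine Submodule.smul_induction_on hx ?_ ?_
  · intro a ha y _
    rw [map_smul, Finsupp.smul_apply, smul_eq_mul]
    exact I.mul_mem_right _ ha
  · intro y z hy hz
    rw [map_add, Finsupp.add_apply]
    exact I.add_mem hy hz

namespace IsReduction

variable (h : IsReduction φ π)
include h

theorem map_sum_smul {ι : Type*} (s : Finset ι) (c : ι → O) (x : ι → T) :
    π (∑ i ∈ s, c i • x i) = ∑ i ∈ s, φ (c i) • π (x i) := by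
  rw [map_sum]
  exact Finset.sum_congr rfl fun i _ => h.semilinear _ _

theorem linearIndependent {ι : Type*} [Fintype ι] (b : Basis ι O T) :
    LinearIndependent R (fun i => π (b i)) := by
  rw [Fintype.linearIndependent_iff]
  intro g hg i
  choose c hc using fun i => h.surj_ring (g i)
  have h1 : π (∑ i, c i • b i) = 0 := by
    rw [h.map_sum_smul]
    simp only [hc]
    exact hg
  have h2 := repr_mem_of_mem_smul_top b _ (h.ker_le _ h1) i
  have h3 : b.repr (∑ i, c i • b i) i = c i := by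
    rw [Basis.repr_sum_self]
  rw [h3, RingHom.mem_ker, hc] at h2
  exact h2

theorem span_eq_top {ι : Type*} [Fintype ι] (b : Basis ι O T) :
    ⊤ ≤ Submodule.span R (Set.range fun i => π (b i)) := by
  intro v _
  obtain ⟨x, rfl⟩ := h.surj v
  have hx : x = ∑ i, b.repr x i • b i := (b.sum_repr x).symm
  rw [hx, h.map_sum_smul]
  exact Submodule.sum_mem _ fun i _ =>
    Submodule.smul_mem _ _ (Submodule.subset_span (Set.mem_range_self i))

/-- The image of a basis under a reduction map. -/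
def basis {ι : Type*} [Fintype ι] (b : Basis ι O T) : Basis ι R V :=
  Basis.mk (h.linearIndependent b) (h.span_eq_top b)

@[simp] theorem basis_apply {ι : Type*} [Fintype ι] (b : Basis ι O T) (i : ι) :
    h.basis b i = π (b i) := by
  simp [basis]

theorem basis_repr {ι : Type*} [Fintype ι] (b : Basis ι O T) (x : T) (i : ι) :
    (h.basis b).repr (π x) i = φ (b.repr x i) := by
  have hx : π x = ∑ j, φ (b.repr x j) • h.basis b j := by
    conv_lhs => rw [← b.sum_repr x]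
    rw [h.map_sum_smul]
    simp only [h.basis_apply]
  rw [hx, Basis.repr_sum_self]

theorem toMatrix_eq {ι : Type*} [Fintype ι] [DecidableEq ι] (b : Basis ι O T)
    (f : T →ₗ[O] T) (g : V →ₗ[R] V) (hfg : ∀ x, π (f x) = g (π x)) :
    LinearMap.toMatrix (h.basis b) (h.basis b) g = (LinearMap.toMatrix b b f).map φ := by
  ext i j
  rw [LinearMap.toMatrix_apply, Matrix.map_apply, LinearMap.toMatrix_apply, h.basis_apply,
    ← hfg, h.basis_repr]

theorem free [Module.Free O T] [Module.Finite O T] : Module.Free R V := by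
  classical
  exact Module.Free.of_basis (h.basis (Module.Free.chooseBasis O T))

theorem finite [Module.Finite O T] : Module.Finite R V := by
  classical
  obtain ⟨s, hs⟩ := (Module.Finite.fg_top : (⊤ : Submodule O T).FG)
  refine ⟨⟨s.image π, ?_⟩⟩
  rw [eq_top_iff]
  intro v _
  obtain ⟨x, rfl⟩ := h.surj v
  have hx : x ∈ Submodule.span O (s : Set T) := by rw [hs]; exact Submodule.mem_top
  refine Submodule.span_induction ?_ ?_ ?_ ?_ hx
  · intro y hy
    exact Submodule.subset_span (by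
      rw [Finset.coe_image]; exact Set.mem_image_of_mem _ hy)
  · rw [map_zero]; exact Submodule.zero_mem _
  · intro y z _ _ hy hz
    rw [map_add]; exact Submodule.add_mem _ hy hz
  · intro a y _ hy
    rw [h.semilinear]; exact Submodule.smul_mem _ _ hy

theorem trace_eq [Module.Free O T] [Module.Finite O T]
    (f : T →ₗ[O] T) (g : V →ₗ[R] V) (hfg : ∀ x, π (f x) = g (π x)) :
    φ (LinearMap.trace O T f) = LinearMap.trace R V g := by
  classical
  let b := Module.Free.chooseBasis O T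
  rw [LinearMap.trace_eq_matrix_trace O b, LinearMap.trace_eq_matrix_trace R (h.basis b),
    h.toMatrix_eq b f g hfg, Matrix.trace, Matrix.trace, map_sum]
  rfl

theorem det_eq [Module.Free O T] [Module.Finite O T]
    (f : T →ₗ[O] T) (g : V →ₗ[R] V) (hfg : ∀ x, π (f x) = g (π x)) :
    φ (LinearMap.det f) = LinearMap.det g := by
  classical
  let b := Module.Free.chooseBasis O T
  rw [← LinearMap.det_toMatrix b, ← LinearMap.det_toMatrix (h.basis b),
    h.toMatrix_eq b f g hfg, RingHom.map_det, RingHom.mapMatrix_apply]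

theorem charpoly_eq [Module.Free O T] [Module.Finite O T] [Module.Free R V] [Module.Finite R V]
    (f : T →ₗ[O] T) (g : V →ₗ[R] V) (hfg : ∀ x, π (f x) = g (π x)) :
    (LinearMap.charpoly f).map φ = LinearMap.charpoly g := by
  classical
  let b := Module.Free.chooseBasis O T
  rw [← LinearMap.charpoly_toMatrix f b, ← LinearMap.charpoly_toMatrix g (h.basis b),
    h.toMatrix_eq b f g hfg, Matrix.charpoly_map]

theorem finrank_eq [Nontrivial O] [Nontrivial R] [Module.Free O T] [Module.Finite O T] :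
    Module.finrank R V = Module.finrank O T := by
  classical
  let b := Module.Free.chooseBasis O T
  rw [Module.finrank_eq_card_basis b, Module.finrank_eq_card_basis (h.basis b)]

theorem card_eq [Nontrivial O] [Module.Free O T] [Module.Finite O T] [Finite R] :
    Nat.card V = Nat.card R ^ Module.finrank O T := by
  classical
  let b := Module.Free.chooseBasis O T
  rw [Module.finrank_eq_card_basis b]
  have e := (h.basis b).equivFun
  rw [Nat.card_congr e.toEquiv, Nat.card_fun, Nat.card_eq_fintype_card (α := Module.Free.ChooseBasisIndex O T)]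

end IsReduction

end Fermat.Agent.TateModule
end
end MergeWrap_Lib_TateModule_Reduction

section MergeWrap_Lib_TateModule_Seq -- from Lib/TateModule/Seq.lean

set_option autoImplicit false
set_option linter.unusedSectionVars false
set_option linter.style.haveILetI false
set_option linter.unusedSimpArgs false

/-!
# The `p`-adic Tate module of an abelian group

`J` an abelian group, `p` a prime.  `tateSeq p J` is the group of sequences `x : ℕ → J` with
`x 0 = 0` and `p • x (n+1) = x n`; it is a `ℤ_[p]`-module (`c` acts on the `n`-th entry through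
`c.appr n`), torsion-free and `p`-adically separated.  If `J[p]` is finite it is finite free.
-/

noncomputable section

namespace Fermat.Agent.TateModule

open IsLocalRing

variable (p : ℕ) [hp : Fact p.Prime] (J : Type*) [AddCommGroup J]

/-- Compatible sequences of `p`-power torsion elements. -/
def tateSeq : AddSubgroup (ℕ → J) where
  carrier := {x | x 0 = 0 ∧ ∀ n, p • x (n + 1) = x n}
  zero_mem' := ⟨rfl, fun n => by simp⟩
  add_mem' := by
    rintro x y ⟨hx0, hx⟩ ⟨hy0, hy⟩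
    refine ⟨by simp [hx0, hy0], fun n => ?_⟩
    simp only [Pi.add_apply, smul_add, hx n, hy n]
  neg_mem' := by
    rintro x ⟨hx0, hx⟩
    refine ⟨by simp [hx0], fun n => ?_⟩
    simp only [Pi.neg_apply, smul_neg, hx n]

variable {p J}

theorem tateSeq_zero (x : tateSeq p J) : x.1 0 = 0 := x.2.1

theorem tateSeq_succ (x : tateSeq p J) (n : ℕ) : p • x.1 (n + 1) = x.1 n := x.2.2 n

theorem tateSeq_pow_smul (x : tateSeq p J) (k n : ℕ) : p ^ k • x.1 (n + k) = x.1 n := by
  induction k generalizing n with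
  | zero => simp
  | succ k ih =>
    rw [pow_succ, mul_smul, ← add_assoc, tateSeq_succ, ih]

theorem tateSeq_pow_smul_self (x : tateSeq p J) (n : ℕ) : p ^ n • x.1 n = 0 := by
  have := tateSeq_pow_smul x n 0
  rw [zero_add] at this
  rw [this, tateSeq_zero]

@[simp] theorem tateSeq_add_apply (x y : tateSeq p J) (n : ℕ) : (x + y).1 n = x.1 n + y.1 n := rfl

@[simp] theorem tateSeq_zero_apply (n : ℕ) : (0 : tateSeq p J).1 n = 0 := rfl

@[simp] theorem tateSeq_neg_apply (x : tateSeq p J) (n : ℕ) : (-x).1 n = -x.1 n := rfl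

@[simp] theorem tateSeq_sub_apply (x y : tateSeq p J) (n : ℕ) : (x - y).1 n = x.1 n - y.1 n := rfl

theorem tateSeq_ext {x y : tateSeq p J} (h : ∀ n, x.1 n = y.1 n) : x = y :=
  Subtype.ext (funext h)

/-- Natural numbers congruent modulo `N` act in the same way on `N`-torsion elements. -/
theorem nsmul_eq_of_cast_eq {N k l : ℕ} (h : (k : ZMod N) = l) {y : J} (hy : N • y = 0) :
    k • y = l • y := by
  have h1 : (k : ℤ) ≡ (l : ℤ) [ZMOD (N : ℤ)] := by
    have := (ZMod.natCast_eq_natCast_iff k l N).mp h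
    exact Int.natCast_modEq_iff.mpr this
  obtain ⟨m, hm⟩ := h1.symm.dvd
  have h2 : (k : ℤ) • y - (l : ℤ) • y = 0 := by
    rw [← sub_smul, hm, mul_smul, natCast_zsmul, smul_comm, hy, smul_zero]
  rw [sub_eq_zero, natCast_zsmul, natCast_zsmul] at h2
  exact h2

theorem toZModPow_eq_appr (c : ℤ_[p]) (n : ℕ) :
    PadicInt.toZModPow n c = ((c.appr n : ℕ) : ZMod (p ^ n)) := rfl

theorem appr_succ_smul (c : ℤ_[p]) (n : ℕ) {y : J} (hy : p ^ n • y = 0) :
    c.appr (n + 1) • y = c.appr n • y := by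
  apply nsmul_eq_of_cast_eq (N := p ^ n) _ hy
  rw [← toZModPow_eq_appr, ← PadicInt.cast_toZModPow n (n + 1) (Nat.le_succ n) c,
    toZModPow_eq_appr c (n + 1)]
  rw [ZMod.cast_natCast (pow_dvd_pow p (Nat.le_succ n))]

instance tateSeqSMul : SMul ℤ_[p] (tateSeq p J) :=
  ⟨fun c x => ⟨fun n => c.appr n • x.1 n, by
    refine ⟨by simp [tateSeq_zero], fun n => ?_⟩
    show p • c.appr (n + 1) • x.1 (n + 1) = c.appr n • x.1 n
    rw [smul_comm, tateSeq_succ, appr_succ_smul c n (tateSeq_pow_smul_self x n)]⟩⟩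

theorem tateSeq_smul_apply (c : ℤ_[p]) (x : tateSeq p J) (n : ℕ) :
    (c • x).1 n = c.appr n • x.1 n := rfl

theorem tateSeq_smul_apply_of_cast (c : ℤ_[p]) (x : tateSeq p J) (n k : ℕ)
    (h : PadicInt.toZModPow n c = (k : ZMod (p ^ n))) : (c • x).1 n = k • x.1 n := by
  rw [tateSeq_smul_apply]
  exact nsmul_eq_of_cast_eq (by rw [← toZModPow_eq_appr, h]) (tateSeq_pow_smul_self x n)

instance tateSeqModule : Module ℤ_[p] (tateSeq p J) where
  one_smul x := tateSeq_ext fun n => by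
    rw [tateSeq_smul_apply_of_cast 1 x n 1 (by simp), one_smul]
  mul_smul c d x := tateSeq_ext fun n => by
    rw [tateSeq_smul_apply_of_cast (c * d) x n (c.appr n * d.appr n)
      (by rw [map_mul, toZModPow_eq_appr, toZModPow_eq_appr, Nat.cast_mul]), mul_smul]
    rfl
  smul_zero c := tateSeq_ext fun n => by
    rw [tateSeq_smul_apply]; simp
  smul_add c x y := tateSeq_ext fun n => by
    simp only [tateSeq_smul_apply, tateSeq_add_apply, smul_add]
  add_smul c d x := tateSeq_ext fun n => by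
    rw [tateSeq_smul_apply_of_cast (c + d) x n (c.appr n + d.appr n)
      (by rw [map_add, toZModPow_eq_appr, toZModPow_eq_appr, Nat.cast_add]), add_smul]
    rfl
  zero_smul x := tateSeq_ext fun n => by
    rw [tateSeq_smul_apply_of_cast 0 x n 0 (by simp), zero_smul]
    rfl

theorem tateSeq_natCast_smul_apply (k : ℕ) (x : tateSeq p J) (n : ℕ) :
    ((k : ℤ_[p]) • x).1 n = k • x.1 n :=
  tateSeq_smul_apply_of_cast _ x n k (by simp)

theorem tateSeq_p_pow_smul_apply (k : ℕ) (x : tateSeq p J) (n : ℕ) :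
    (((p : ℤ_[p]) ^ k) • x).1 n = p ^ k • x.1 n := by
  have := tateSeq_natCast_smul_apply (p ^ k) x n
  rwa [Nat.cast_pow] at this

/-- The kernel of the evaluation at `m` is `p ^ m • T`. -/
theorem tateSeq_exists_eq_pow_smul (x : tateSeq p J) {m : ℕ} (hm : x.1 m = 0) :
    ∃ y : tateSeq p J, x = ((p : ℤ_[p]) ^ m) • y := by
  refine ⟨⟨fun n => x.1 (n + m), by simpa using hm, fun n => ?_⟩, ?_⟩
  · have := tateSeq_succ x (n + m)
    show p • x.1 (n + 1 + m) = x.1 (n + m)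
    rw [show n + 1 + m = n + m + 1 by ring]
    exact this
  · refine tateSeq_ext fun n => ?_
    rw [tateSeq_p_pow_smul_apply]
    exact (tateSeq_pow_smul x m n).symm

theorem tateSeq_p_pow_smul_apply_self (y : tateSeq p J) (n : ℕ) :
    (((p : ℤ_[p]) ^ n) • y).1 n = 0 := by
  rw [tateSeq_p_pow_smul_apply, tateSeq_pow_smul_self]

theorem tateSeq_smul_eq_zero {a : ℤ_[p]} (ha : a ≠ 0) {x : tateSeq p J} (hax : a • x = 0) :
    x = 0 := by
  have hspec := PadicInt.unitCoeff_spec ha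
  set u := PadicInt.unitCoeff ha
  set k := a.valuation
  have h1 : ((p : ℤ_[p]) ^ k) • x = 0 := by
    have h2 : ((p : ℤ_[p]) ^ k) = (↑u⁻¹ : ℤ_[p]) * a := by
      rw [hspec, ← mul_assoc, Units.inv_mul, one_mul]
    rw [h2, mul_smul, hax, smul_zero]
  refine tateSeq_ext fun n => ?_
  have h3 := congrArg (fun z : tateSeq p J => z.1 (n + k)) h1
  simp only [tateSeq_p_pow_smul_apply, tateSeq_zero_apply] at h3
  rw [← tateSeq_pow_smul x k n, h3]
  rfl

instance tateSeq_isTorsionFree : Module.IsTorsionFree ℤ_[p] (tateSeq p J) := by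
  refine Module.IsTorsionFree.of_smul_eq_zero fun a x hax => ?_
  by_cases ha : a = 0
  · exact Or.inl ha
  · exact Or.inr (tateSeq_smul_eq_zero ha hax)

theorem maximalIdeal_pow_eq_span (n : ℕ) :
    maximalIdeal ℤ_[p] ^ n = Ideal.span {((p : ℤ_[p]) ^ n)} := by
  rw [PadicInt.maximalIdeal_eq_span_p, Ideal.span_singleton_pow]

theorem mem_maximalIdeal_pow_smul_top_iff {T : Type*} [AddCommGroup T] [Module ℤ_[p] T]
    (n : ℕ) (x : T) :
    x ∈ (maximalIdeal ℤ_[p] ^ n) • (⊤ : Submodule ℤ_[p] T) ↔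
      ∃ y : T, x = ((p : ℤ_[p]) ^ n) • y := by
  rw [maximalIdeal_pow_eq_span, Submodule.ideal_span_singleton_smul]
  constructor
  · intro h
    obtain ⟨y, -, hy⟩ := (Submodule.mem_smul_pointwise_iff_exists _ _ _).mp h
    exact ⟨y, hy.symm⟩
  · rintro ⟨y, rfl⟩
    exact Submodule.smul_mem_pointwise_smul _ _ _ Submodule.mem_top

instance tateSeq_isHausdorff : IsHausdorff (maximalIdeal ℤ_[p]) (tateSeq p J) := by
  refine ⟨fun x hx => ?_⟩
  refine tateSeq_ext fun n => ?_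
  have h1 := hx n
  rw [SModEq.zero, mem_maximalIdeal_pow_smul_top_iff] at h1
  obtain ⟨y, rfl⟩ := h1
  exact tateSeq_p_pow_smul_apply_self y n

/-! ### finiteness and freeness -/

theorem tateSeq_finite (hfin : {y : J | p • y = 0}.Finite) :
    Module.Finite ℤ_[p] (tateSeq p J) := by
  classical
  -- the finite set of first entries
  have hfin' : (Set.range fun x : tateSeq p J => x.1 1).Finite := by
    refine hfin.subset ?_
    rintro _ ⟨x, rfl⟩
    have := tateSeq_pow_smul_self x 1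
    rwa [pow_one] at this
  haveI : Fintype (Set.range fun x : tateSeq p J => x.1 1) := hfin'.fintype
  let ι := Set.range fun x : tateSeq p J => x.1 1
  have hex : ∀ i : ι, ∃ t : tateSeq p J, t.1 1 = i.1 := fun i => i.2
  choose t ht using hex
  let f : (ι → ℤ_[p]) →ₗ[ℤ_[p]] tateSeq p J := Fintype.linearCombination ℤ_[p] t
  haveI : IsAdicComplete (maximalIdeal ℤ_[p]) (ι → ℤ_[p]) :=
    IsAdicComplete.of_module_finite (maximalIdeal ℤ_[p]) (ι → ℤ_[p])
  have hf : Function.Surjective f := by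
    apply surjective_of_mkQ_comp_surjective (I := maximalIdeal ℤ_[p])
    intro y
    obtain ⟨y, rfl⟩ := Submodule.mkQ_surjective _ y
    let i : ι := ⟨y.1 1, y, rfl⟩
    refine ⟨Pi.single i 1, ?_⟩
    have h1 : f (Pi.single i 1) = t i := by
      simp only [f, Fintype.linearCombination_apply_single, one_smul]
    have h2 : (y - t i).1 1 = 0 := by
      rw [tateSeq_sub_apply, ht i, sub_self]
    obtain ⟨z, hz⟩ := tateSeq_exists_eq_pow_smul (y - t i) h2
    have h4 : y - t i ∈ maximalIdeal ℤ_[p] • (⊤ : Submodule ℤ_[p] (tateSeq p J)) := by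
      have := (mem_maximalIdeal_pow_smul_top_iff 1 (y - t i)).mpr ⟨z, hz⟩
      rwa [pow_one] at this
    simp only [LinearMap.coe_comp, Function.comp_apply, Submodule.mkQ_apply, h1]
    symm
    rw [Submodule.Quotient.eq]
    exact h4
  exact Module.Finite.of_surjective f hf

theorem tateSeq_free (hfin : {y : J | p • y = 0}.Finite) :
    Module.Free ℤ_[p] (tateSeq p J) := by
  haveI := tateSeq_finite hfin
  exact Module.free_of_finite_type_torsion_free'

/-! ### reduction maps -/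

variable (p J) in
/-- The `n`-th entry as a map to the `p ^ n`-torsion of `J`. -/
def tateRed (n : ℕ) : tateSeq p J →+ Submodule.torsionBy ℤ J ((p ^ n : ℕ) : ℤ) where
  toFun x := ⟨x.1 n, by
    rw [Submodule.mem_torsionBy_iff, natCast_zsmul]; exact tateSeq_pow_smul_self x n⟩
  map_zero' := rfl
  map_add' _ _ := rfl

@[simp] theorem tateRed_coe (n : ℕ) (x : tateSeq p J) : ((tateRed p J n x : _) : J) = x.1 n := rfl

theorem tateRed_eq_zero_iff (n : ℕ) (x : tateSeq p J) : tateRed p J n x = 0 ↔ x.1 n = 0 := by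
  rw [← Subtype.coe_inj]; rfl

theorem tateRed_smul (n : ℕ) [Module (ZMod (p ^ n)) (Submodule.torsionBy ℤ J ((p ^ n : ℕ) : ℤ))]
    (c : ℤ_[p]) (x : tateSeq p J) :
    tateRed p J n (c • x) = PadicInt.toZModPow n c • tateRed p J n x := by
  rw [toZModPow_eq_appr, Nat.cast_smul_eq_nsmul]
  rfl

theorem tateRed_succ (n : ℕ) (x : tateSeq p J) :
    p • (tateRed p J (n + 1) x : J) = (tateRed p J n x : J) := tateSeq_succ x n

theorem tateSeq_eq_zero_of_tateRed (x : tateSeq p J) (h : ∀ n, tateRed p J n x = 0) : x = 0 :=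
  tateSeq_ext fun n => (tateRed_eq_zero_iff n x).mp (h n)

/-- Existence of a compatible sequence through a given `p ^ n`-torsion element. -/
theorem tateRed_surjective (hdiv : ∀ y : J, ∃ z : J, p • z = y) (n : ℕ) :
    Function.Surjective (tateRed p J n) := by
  rintro ⟨a, ha⟩
  rw [Submodule.mem_torsionBy_iff, natCast_zsmul] at ha
  choose d hd using hdiv
  let b : ℕ → J := fun k => Nat.rec a (fun _ y => d y) k
  have hb0 : b 0 = a := rfl
  have hbs : ∀ k, p • b (k + 1) = b k := fun k => hd (b k)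
  refine ⟨⟨fun k => p ^ (n - k) • b (k - n), ?_, ?_⟩, ?_⟩
  · show p ^ (n - 0) • b (0 - n) = 0
    rw [Nat.sub_zero, Nat.zero_sub, hb0, ha]
  · intro k
    show p • p ^ (n - (k + 1)) • b (k + 1 - n) = p ^ (n - k) • b (k - n)
    rcases Nat.lt_or_ge k n with hk | hk
    · rw [show k + 1 - n = 0 by omega, show k - n = 0 by omega, ← mul_smul, ← pow_succ',
        show n - (k + 1) + 1 = n - k by omega]
    · rw [show n - (k + 1) = 0 by omega, show n - k = 0 by omega, pow_zero, one_smul, one_smul,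
        show k + 1 - n = (k - n) + 1 by omega, hbs]
  · apply Subtype.ext
    show p ^ (n - n) • b (n - n) = a
    rw [Nat.sub_self, pow_zero, one_smul, hb0]

theorem tateRed_isReduction (hdiv : ∀ y : J, ∃ z : J, p • z = y) (n : ℕ)
    [Module (ZMod (p ^ n)) (Submodule.torsionBy ℤ J ((p ^ n : ℕ) : ℤ))] :
    IsReduction (PadicInt.toZModPow (p := p) n) (tateRed p J n) where
  surj_ring := ZMod.ringHom_surjective _
  surj := tateRed_surjective hdiv n
  semilinear := tateRed_smul n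
  ker_le x hx := by
    obtain ⟨y, rfl⟩ := tateSeq_exists_eq_pow_smul x ((tateRed_eq_zero_iff n x).mp hx)
    refine Submodule.smul_mem_smul ?_ Submodule.mem_top
    rw [PadicInt.ker_toZModPow]
    exact Ideal.subset_span rfl

/-- If `#J[p] = p ^ r` then the Tate module has rank `r`. -/
theorem tateSeq_finrank (hdiv : ∀ y : J, ∃ z : J, p • z = y) {r : ℕ}
    (hcard : Nat.card (Submodule.torsionBy ℤ J ((p ^ 1 : ℕ) : ℤ)) = p ^ r) :
    haveI := tateSeq_finite (p := p) (J := J) (by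
      have hfin : Finite (Submodule.torsionBy ℤ J ((p ^ 1 : ℕ) : ℤ)) :=
        Nat.finite_of_card_ne_zero (by rw [hcard]; exact pow_ne_zero _ hp.out.ne_zero)
      have : {y : J | p • y = 0} = (Submodule.torsionBy ℤ J ((p ^ 1 : ℕ) : ℤ) : Set J) := by
        ext y; simp [Submodule.mem_torsionBy_iff]
      rw [this]
      exact hfin)
    Module.finrank ℤ_[p] (tateSeq p J) = r := by
  have hfin : Finite (Submodule.torsionBy ℤ J ((p ^ 1 : ℕ) : ℤ)) :=
    Nat.finite_of_card_ne_zero (by rw [hcard]; exact pow_ne_zero _ hp.out.ne_zero)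
  have hfin' : {y : J | p • y = 0}.Finite := by
    have : {y : J | p • y = 0} = (Submodule.torsionBy ℤ J ((p ^ 1 : ℕ) : ℤ) : Set J) := by
      ext y; simp [Submodule.mem_torsionBy_iff]
    rw [this]
    exact hfin
  haveI := tateSeq_finite hfin'
  haveI := tateSeq_free hfin'
  letI : Module (ZMod (p ^ 1)) (Submodule.torsionBy ℤ J ((p ^ 1 : ℕ) : ℤ)) :=
    AddCommGroup.zmodModule fun x => by
      rw [← Nat.cast_smul_eq_nsmul ℤ (p ^ 1) x]
      exact Submodule.smul_torsionBy _ x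
  have h1 := (tateRed_isReduction hdiv 1).card_eq
  rw [hcard, Nat.card_zmod, pow_one] at h1
  exact (Nat.pow_right_injective hp.out.two_le h1).symm

/-! ### group actions -/

section Action

variable {G : Type*} [Group G] [DistribMulAction G J]

variable (p J) in
/-- The action of a group on the Tate module, entry by entry. -/
def tateSeqRep : G →* Module.End ℤ_[p] (tateSeq p J) where
  toFun σ :=
    { toFun := fun x => ⟨fun n => σ • x.1 n, by
        refine ⟨by show σ • x.1 0 = 0; rw [tateSeq_zero, smul_zero], fun n => ?_⟩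
        show p • σ • x.1 (n + 1) = σ • x.1 n
        rw [← tateSeq_succ x n, smul_comm]⟩
      map_add' := fun x y => tateSeq_ext fun n => smul_add σ (x.1 n) (y.1 n)
      map_smul' := fun c x => tateSeq_ext fun n => by
        show σ • (c.appr n • x.1 n) = c.appr n • σ • x.1 n
        rw [smul_comm] }
  map_one' := LinearMap.ext fun x => tateSeq_ext fun n => one_smul G (x.1 n)
  map_mul' σ τ := LinearMap.ext fun x => tateSeq_ext fun n => mul_smul σ τ (x.1 n)

@[simp] theorem tateSeqRep_apply (σ : G) (x : tateSeq p J) (n : ℕ) :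
    (tateSeqRep p J σ x).1 n = σ • x.1 n := rfl

/-- If `σ` fixes the `p ^ n`-torsion of `J` then `σ - 1` maps the Tate module into
`𝔪 ^ n • T`. -/
theorem tateSeqRep_sub_mem {σ : G} {n : ℕ} (hσ : ∀ y : J, p ^ n • y = 0 → σ • y = y)
    (x : tateSeq p J) :
    tateSeqRep p J σ x - x ∈ (maximalIdeal ℤ_[p] ^ n) • (⊤ : Submodule ℤ_[p] (tateSeq p J)) := by
  rw [mem_maximalIdeal_pow_smul_top_iff]
  apply tateSeq_exists_eq_pow_smul
  rw [tateSeq_sub_apply, tateSeqRep_apply, hσ _ (tateSeq_pow_smul_self x n), sub_self]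

/-- If `σ` fixes all `p`-power torsion of `J` then it acts trivially on the Tate module. -/
theorem tateSeqRep_eq_one {σ : G} (hσ : ∀ (n : ℕ) (y : J), p ^ n • y = 0 → σ • y = y) :
    tateSeqRep p J σ = 1 :=
  LinearMap.ext fun x => tateSeq_ext fun n => hσ n _ (tateSeq_pow_smul_self x n)

end Action

end Fermat.Agent.TateModule
end
end MergeWrap_Lib_TateModule_Seq

section MergeWrap_Lib_MultRed_TateSub -- from Lib/MultRed/TateSub.lean

/-!
# MultRed / TateSub (MR5, ASM part 1; owner: helper4)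

For a subgroup `H` of an abelian group `J`: the submodule `tateSub p H` of the Tate module
`tateSeq p J` of compatible sequences with all entries in `H`.  It is saturated, stable under
every automorphism preserving `H`, and `≠ ⊤` as soon as some `p ^ n`-torsion point is not in `H`.
-/

set_option autoImplicit false

namespace Fermat.Agent.MultRed

open Fermat.Agent.TateModule

variable (p : ℕ) [hp : Fact p.Prime] {J : Type*} [AddCommGroup J]

/-- compatible sequences with all entries in `H` -/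
def tateSub (H : AddSubgroup J) : Submodule ℤ_[p] (tateSeq p J) where
  carrier := {x | ∀ n, x.1 n ∈ H}
  zero_mem' := fun _ => H.zero_mem
  add_mem' := fun hx hy n => H.add_mem (hx n) (hy n)
  smul_mem' := fun c x hx n => by
    rw [tateSeq_smul_apply]
    exact H.nsmul_mem (hx n) _

variable {p}

theorem mem_tateSub {H : AddSubgroup J} {x : tateSeq p J} :
    x ∈ tateSub p H ↔ ∀ n, x.1 n ∈ H := Iff.rfl

/-- `tateSub p H` is saturated -/
theorem tateSub_saturated (H : AddSubgroup J) {x : tateSeq p J}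
    (hx : (p : ℤ_[p]) • x ∈ tateSub p H) : x ∈ tateSub p H := by
  intro n
  have h := hx (n + 1)
  rw [tateSeq_natCast_smul_apply, tateSeq_succ] at h
  exact h

theorem tateSub_ne_top (H : AddSubgroup J) (hdiv : ∀ y : J, ∃ z : J, p • z = y) {n : ℕ} {P : J}
    (hP : p ^ n • P = 0) (hPH : P ∉ H) : tateSub p H ≠ ⊤ := by
  intro htop
  have hmem : P ∈ Submodule.torsionBy ℤ J ((p ^ n : ℕ) : ℤ) := by
    rw [Submodule.mem_torsionBy_iff, natCast_zsmul]; exact hP
  obtain ⟨x, hx⟩ := tateRed_surjective hdiv n ⟨P, hmem⟩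
  have hxn : x.1 n = P := congrArg Subtype.val hx
  have : x ∈ tateSub p H := by rw [htop]; exact Submodule.mem_top
  exact hPH (hxn ▸ this n)

section Action

variable {G : Type*} [Group G] [DistribMulAction G J]

theorem tateSeqRep_mem_tateSub (H : AddSubgroup J) {σ : G} (hσ : ∀ y ∈ H, σ • y ∈ H)
    {x : tateSeq p J} (hx : x ∈ tateSub p H) : tateSeqRep p J σ x ∈ tateSub p H :=
  fun n => hσ _ (hx n)

/-- if `σ y - ε y ∈ H` for all `p`-power torsion `y`, then `σ x - ε x ∈ tateSub p H` -/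
theorem tateSeqRep_sub_mem_tateSub (H : AddSubgroup J) {σ : G}
    (hσ : ∀ (n : ℕ) (y : J), p ^ n • y = 0 → σ • y - y ∈ H) (x : tateSeq p J) :
    tateSeqRep p J σ x - x ∈ tateSub p H :=
  fun n => hσ n _ (tateSeq_pow_smul_self x n)

theorem tateSeqRep_add_mem_tateSub (H : AddSubgroup J) {σ : G}
    (hσ : ∀ (n : ℕ) (y : J), p ^ n • y = 0 → σ • y + y ∈ H) (x : tateSeq p J) :
    tateSeqRep p J σ x + x ∈ tateSub p H :=
  fun n => hσ n _ (tateSeq_pow_smul_self x n)

end Action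

end Fermat.Agent.MultRed
end MergeWrap_Lib_MultRed_TateSub

section MergeWrap_Lib_TateModule_Rep -- from Lib/TateModule/Rep.lean

set_option autoImplicit false
set_option linter.unusedSectionVars false
set_option linter.style.haveILetI false

/-!
# The `p`-adic Tate module of an elliptic curve over `ℚ` as a Prelude `GaloisRepAdic ℤ_[p]`

* `tateRep E p hΔ : GaloisRepAdic ℤ_[p]`, with `V = tateSeq p E(ℚ̄)` (compatible sequences of
  `p`-power torsion points) and `(ρ σ x) n = σ • x n`;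
* `tateRep_isReduction`: the `n`-th entry `T → E[p^n]` is a reduction map along
  `PadicInt.toZModPow n`, Galois equivariant (`tateRep_red_smul`);
* `tateRep_toZModPow_trace`, `tateRep_toZModPow_det`: trace and determinant of `ρ σ` reduce
  to those of `σ` on `E[p^n]` (Prelude `galoisTrace`, `galoisRepModuleEnd`).
-/

noncomputable section

namespace Fermat.Agent.TateModule

open WeierstrassCurve WeierstrassCurve.Affine WeierstrassCurve.Affine.Point
open scoped WeierstrassCurve.Affine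

local notation "Qbar" => AlgebraicClosure ℚ
local notation "GQ" => (AlgebraicClosure ℚ ≃ₐ[ℚ] AlgebraicClosure ℚ)

variable (E : WeierstrassCurve ℚ)

theorem baseChange_Δ_ne_zero {E : WeierstrassCurve ℚ} (hΔ : E.Δ ≠ 0) : (E⁄Qbar).Δ ≠ 0 := by
  change (E.map (algebraMap ℚ Qbar)).Δ ≠ 0
  rw [WeierstrassCurve.map_Δ]
  simpa using hΔ

variable [DecidableEq Qbar]

/-- A finite set of points of `E(ℚ̄)` is defined over a finite extension of `ℚ`. -/
theorem exists_finiteDimensional_fixing (S : Set (E⁄Qbar).Point) (hS : S.Finite) :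
    ∃ L : IntermediateField ℚ Qbar, FiniteDimensional ℚ L ∧
      ∀ σ : GQ, (∀ x ∈ L, σ x = x) → ∀ P ∈ S, σ • P = P := by
  induction S, hS using Set.Finite.induction_on with
  | empty => exact ⟨⊥, inferInstance, fun σ _ P hP => absurd hP (Set.notMem_empty P)⟩
  | @insert P S _ _ ih =>
    obtain ⟨L, hL, hLS⟩ := ih
    have hAlg : Algebra.IsAlgebraic ℚ Qbar := AlgebraicClosure.isAlgebraic ℚ
    rcases P with _ | ⟨x, y, h⟩
    · refine ⟨L, hL, fun σ hσ Q hQ => ?_⟩
      rcases Set.mem_insert_iff.mp hQ with rfl | hQ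
      · rfl
      · exact hLS σ hσ Q hQ
    · let F : IntermediateField ℚ Qbar := IntermediateField.adjoin ℚ {x, y}
      have hfd : FiniteDimensional ℚ F :=
        IntermediateField.finiteDimensional_adjoin fun z _ => (hAlg.isAlgebraic z).isIntegral
      refine ⟨L ⊔ F, IntermediateField.finiteDimensional_sup L F, fun σ hσ Q hQ => ?_⟩
      rcases Set.mem_insert_iff.mp hQ with rfl | hQ
      · have hx : σ x = x :=
          hσ x ((le_sup_right : F ≤ L ⊔ F) (IntermediateField.subset_adjoin ℚ _ (by simp)))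
        have hy : σ y = y :=
          hσ y ((le_sup_right : F ≤ L ⊔ F) (IntermediateField.subset_adjoin ℚ _ (by simp)))
        show Point.map σ.toAlgHom (Point.some x y h) = Point.some x y h
        rw [Point.map_some]
        simp only [Point.some.injEq]
        exact ⟨hx, hy⟩
      · exact hLS σ (fun z hz => hσ z ((le_sup_left : L ≤ L ⊔ F) hz)) Q hQ

variable (p : ℕ) [hp : Fact p.Prime]

theorem finite_p_torsion {E : WeierstrassCurve ℚ} (hΔ : E.Δ ≠ 0) (n : ℕ) :
    {y : (E⁄Qbar).Point | p ^ n • y = 0}.Finite := by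
  have h1 := Fermat.Agent.Torsion.finite_torsionBy (baseChange_Δ_ne_zero hΔ) (n := p ^ n)
    (Nat.one_le_pow _ _ hp.out.pos)
  have : {y : (E⁄Qbar).Point | p ^ n • y = 0} =
      (Submodule.torsionBy ℤ (E⁄Qbar).Point ((p ^ n : ℕ) : ℤ) : Set (E⁄Qbar).Point) := by
    ext y
    simp only [Set.mem_ofPred_eq, SetLike.mem_coe, Submodule.mem_torsionBy_iff, natCast_zsmul]
  rw [this]
  exact h1

theorem p_divisible {E : WeierstrassCurve ℚ} (hΔ : E.Δ ≠ 0) (y : (E⁄Qbar).Point) :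
    ∃ z : (E⁄Qbar).Point, p • z = y :=
  Fermat.Agent.Torsion.smul_surjective (baseChange_Δ_ne_zero hΔ) hp.out.one_le y

theorem finite_p_torsion_one {E : WeierstrassCurve ℚ} (hΔ : E.Δ ≠ 0) :
    {y : (E⁄Qbar).Point | p • y = 0}.Finite := by
  have := finite_p_torsion p hΔ 1
  simpa using this

/-- **The `p`-adic Tate module** of `E / ℚ` as a Prelude `GaloisRepAdic ℤ_[p]`. -/
def tateRep (hΔ : E.Δ ≠ 0) : GaloisRepAdic ℤ_[p] where
  V := tateSeq p (E⁄Qbar).Point
  instFree := tateSeq_free (finite_p_torsion_one p hΔ)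
  instFinite := tateSeq_finite (finite_p_torsion_one p hΔ)
  finrank_eq := by
    refine tateSeq_finrank (p_divisible p hΔ) ?_
    have := Fermat.Agent.Torsion.card_torsionBy (baseChange_Δ_ne_zero hΔ) (n := p ^ 1)
      (Nat.one_le_pow _ _ hp.out.pos)
    rw [this, pow_one]
  ρ := tateSeqRep p (E⁄Qbar).Point
  isAdicContinuous := by
    intro n
    obtain ⟨L, hL, hfix⟩ := exists_finiteDimensional_fixing E _ (finite_p_torsion p hΔ n)
    exact ⟨L, hL, fun σ hσ v => tateSeqRep_sub_mem (fun y hy => hfix σ hσ y hy) v⟩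

variable {E p} (hΔ : E.Δ ≠ 0)

theorem tateRep_V : (tateRep E p hΔ).V = tateSeq p (E⁄Qbar).Point := rfl

@[simp] theorem tateRep_ρ_apply (σ : GQ) (x : tateSeq p (E⁄Qbar).Point) (n : ℕ) :
    ((tateRep E p hΔ).ρ σ x).1 n = σ • x.1 n := rfl

/-- The `n`-th entry of the Tate module is a reduction map onto `E[p^n]`. -/
theorem tateRep_isReduction (hΔ : E.Δ ≠ 0) (n : ℕ) :
    IsReduction (PadicInt.toZModPow (p := p) n) (tateRed p (E⁄Qbar).Point n) :=
  tateRed_isReduction (p_divisible p hΔ) n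

/-- Galois equivariance of the reduction maps. -/
theorem tateRep_red_smul (n : ℕ) (σ : GQ) (x : (tateRep E p hΔ).V) :
    tateRed p (E⁄Qbar).Point n ((tateRep E p hΔ).ρ σ x) = σ • tateRed p (E⁄Qbar).Point n x :=
  rfl

theorem tateRep_red_galoisRepModuleEnd (n : ℕ) (σ : GQ) (x : (tateRep E p hΔ).V) :
    tateRed p (E⁄Qbar).Point n ((tateRep E p hΔ).ρ σ x) =
      galoisRepModuleEnd ℚ (K := Qbar) E (p ^ n) σ (tateRed p (E⁄Qbar).Point n x) :=
  rfl

/-- The trace of `ρ σ` on the Tate module reduces to the trace of `σ` on `E[p^n]`. -/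
theorem tateRep_toZModPow_trace (n : ℕ) (σ : GQ) :
    PadicInt.toZModPow n ((tateRep E p hΔ).trace σ) = galoisTrace ℚ (K := Qbar) E (p ^ n) σ := by
  haveI : Module.Free ℤ_[p] (tateSeq p (E⁄Qbar).Point) := (tateRep E p hΔ).instFree
  haveI : Module.Finite ℤ_[p] (tateSeq p (E⁄Qbar).Point) := (tateRep E p hΔ).instFinite
  exact (tateRep_isReduction hΔ n).trace_eq ((tateRep E p hΔ).ρ σ)
    (galoisRepModuleEnd ℚ (K := Qbar) E (p ^ n) σ) (tateRep_red_galoisRepModuleEnd hΔ n σ)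

/-- The determinant of `ρ σ` on the Tate module reduces to the determinant of `σ` on
`E[p^n]`. -/
theorem tateRep_toZModPow_det (n : ℕ) (σ : GQ) :
    PadicInt.toZModPow n (LinearMap.det ((tateRep E p hΔ).ρ σ)) =
      LinearMap.det (galoisRepModuleEnd ℚ (K := Qbar) E (p ^ n) σ) := by
  haveI : Module.Free ℤ_[p] (tateSeq p (E⁄Qbar).Point) := (tateRep E p hΔ).instFree
  haveI : Module.Finite ℤ_[p] (tateSeq p (E⁄Qbar).Point) := (tateRep E p hΔ).instFinite
  exact (tateRep_isReduction hΔ n).det_eq ((tateRep E p hΔ).ρ σ)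
    (galoisRepModuleEnd ℚ (K := Qbar) E (p ^ n) σ) (tateRep_red_galoisRepModuleEnd hΔ n σ)

end Fermat.Agent.TateModule
end
end MergeWrap_Lib_TateModule_Rep

section MergeWrap_Lib_TateModule_Local -- from Lib/TateModule/Local.lean

set_option autoImplicit false
set_option linter.unusedSectionVars false
set_option linter.style.haveILetI false

/-!
# Transfer of finite-level statements about `E[p^n]` to the Tate module

All statements are of the form: a property of the Galois action on `E[p^n](ℚ̄)` for all `n`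
implies the corresponding Prelude property of `tateRep E p hΔ : GaloisRepAdic ℤ_[p]`.

* `tateRep_trace_eq`, `tateRep_det_eq`, `tateRep_charpoly_eq` (and `_intCast` forms);
* `tateRep_isUnramifiedAt`;
* `tateRep_isUnipotentOnInertiaAt` (trace/det form), `tateRep_isUnipotentOnInertiaAt_of_fix`;
* `tateRep_detIsCyclotomic`.
-/

noncomputable section

namespace Fermat.Agent.TateModule

open WeierstrassCurve WeierstrassCurve.Affine WeierstrassCurve.Affine.Point Polynomial
open scoped WeierstrassCurve.Affine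

local notation "Qbar" => AlgebraicClosure ℚ
local notation "GQ" => (AlgebraicClosure ℚ ≃ₐ[ℚ] AlgebraicClosure ℚ)

section Algebra

variable {A : Type*} [CommRing A] {V : Type*} [AddCommGroup V] [Module A V]
  [Module.Free A V] [Module.Finite A V]

/-- The characteristic polynomial of an endomorphism of a free module of rank two. -/
theorem charpoly_of_finrank_two [Nontrivial A] (hV : Module.finrank A V = 2)
    (f : Module.End A V) :
    f.charpoly = X ^ 2 - C (LinearMap.trace A V f) * X + C (LinearMap.det f) := by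
  classical
  set b : Module.Basis (Fin 2) A V := Module.finBasisOfFinrankEq A V hV
  rw [← LinearMap.charpoly_toMatrix f b, Matrix.charpoly_fin_two,
    LinearMap.trace_eq_matrix_trace A b, LinearMap.det_toMatrix b]

theorem charpoly_sub_one (f : Module.End A V) :
    (f - 1).charpoly = f.charpoly.comp (X + 1) := by
  classical
  let b := Module.Free.chooseBasis A V
  rw [← LinearMap.charpoly_toMatrix (f - 1) b, ← LinearMap.charpoly_toMatrix f b, map_sub,
    LinearMap.toMatrix_one]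
  have := Matrix.charpoly_sub_scalar (LinearMap.toMatrix b b f) 1
  rw [map_one, map_one] at this
  exact this

/-- An endomorphism `f` of a free module of rank two over a domain with `(f - 1) ^ 2 = 0` has
characteristic polynomial `(X - 1) ^ 2`. -/
theorem charpoly_of_sub_one_sq [IsDomain A] (hV : Module.finrank A V = 2) (f : Module.End A V)
    (hf : (f - 1) ^ 2 = 0) : f.charpoly = (X - 1) ^ 2 := by
  have hN : IsNilpotent (f - 1) := ⟨2, hf⟩
  have h1 : f.charpoly.comp (X + 1) = X ^ 2 := by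
    rw [← charpoly_sub_one, hN.charpoly_eq_X_pow_finrank, hV]
  have h2 := congrArg (fun P : A[X] => P.comp (X - 1)) h1
  simp only [Polynomial.comp_assoc, add_comp, X_comp, one_comp, sub_add_cancel, comp_X,
    pow_comp] at h2
  exact h2

end Algebra

variable {E : WeierstrassCurve ℚ} {p : ℕ} [hp : Fact p.Prime] [DecidableEq Qbar]

/-! ### trace, determinant, characteristic polynomial -/

theorem tateRep_trace_eq (hΔ : E.Δ ≠ 0) (σ : GQ) (a : ℤ_[p])
    (h : ∀ n, galoisTrace ℚ (K := Qbar) E (p ^ n) σ = PadicInt.toZModPow n a) :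
    (tateRep E p hΔ).trace σ = a :=
  PadicInt.ext_of_toZModPow.mp fun n => by rw [tateRep_toZModPow_trace, h]

theorem tateRep_det_eq (hΔ : E.Δ ≠ 0) (σ : GQ) (d : ℤ_[p])
    (h : ∀ n, LinearMap.det (galoisRepModuleEnd ℚ (K := Qbar) E (p ^ n) σ) =
      PadicInt.toZModPow n d) :
    LinearMap.det ((tateRep E p hΔ).ρ σ) = d :=
  PadicInt.ext_of_toZModPow.mp fun n => by rw [tateRep_toZModPow_det, h]

theorem tateRep_charpoly (hΔ : E.Δ ≠ 0) (σ : GQ) :
    LinearMap.charpoly ((tateRep E p hΔ).ρ σ) =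
      X ^ 2 - C ((tateRep E p hΔ).trace σ) * X + C (LinearMap.det ((tateRep E p hΔ).ρ σ)) :=
  charpoly_of_finrank_two (tateRep E p hΔ).finrank_eq _

theorem tateRep_charpoly_eq (hΔ : E.Δ ≠ 0) (σ : GQ) (a d : ℤ_[p])
    (ha : ∀ n, galoisTrace ℚ (K := Qbar) E (p ^ n) σ = PadicInt.toZModPow n a)
    (hd : ∀ n, LinearMap.det (galoisRepModuleEnd ℚ (K := Qbar) E (p ^ n) σ) =
      PadicInt.toZModPow n d) :
    LinearMap.charpoly ((tateRep E p hΔ).ρ σ) = X ^ 2 - C a * X + C d := by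
  rw [tateRep_charpoly, tateRep_trace_eq hΔ σ a ha, tateRep_det_eq hΔ σ d hd]

/-- Integer form: if `σ` has trace `a` and determinant `d` on every `E[p^n]` (`a d : ℤ`), then
`ρ σ` has characteristic polynomial `X² - a X + d` on the Tate module. -/
theorem tateRep_charpoly_eq_intCast (hΔ : E.Δ ≠ 0) (σ : GQ) (a d : ℤ)
    (ha : ∀ n, galoisTrace ℚ (K := Qbar) E (p ^ n) σ = ((a : ℤ) : ZMod (p ^ n)))
    (hd : ∀ n, LinearMap.det (galoisRepModuleEnd ℚ (K := Qbar) E (p ^ n) σ) =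
      ((d : ℤ) : ZMod (p ^ n))) :
    LinearMap.charpoly ((tateRep E p hΔ).ρ σ) =
      X ^ 2 - C ((a : ℤ) : ℤ_[p]) * X + C ((d : ℤ) : ℤ_[p]) :=
  tateRep_charpoly_eq hΔ σ _ _ (fun n => by rw [ha, map_intCast])
    (fun n => by rw [hd, map_intCast])

/-! ### unramified primes -/

/-- If inertia at `q` acts trivially on every `E[p^n]`, the Tate module is unramified at `q`. -/
theorem tateRep_isUnramifiedAt (hΔ : E.Δ ≠ 0) (q : ℕ)
    (h : ∀ n : ℕ, GaloisRepUnramifiedAt ℚ Qbar E (p ^ n) q) :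
    (tateRep E p hΔ).IsUnramifiedAt q := by
  intro P hP σ hσ
  refine tateSeqRep_eq_one fun n y hy => ?_
  have hy' : y ∈ Submodule.torsionBy ℤ (E⁄Qbar).Point ((p ^ n : ℕ) : ℤ) := by
    rw [Submodule.mem_torsionBy_iff, natCast_zsmul]; exact hy
  exact congrArg Subtype.val (h n P hP σ hσ ⟨y, hy'⟩)

/-- Conversely, if the Tate module is unramified at `q`, inertia at `q` acts trivially on
every `E[p^n]`. -/
theorem galoisRepUnramifiedAt_of_tateRep (hΔ : E.Δ ≠ 0) (q : ℕ)
    (h : (tateRep E p hΔ).IsUnramifiedAt q) (n : ℕ) :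
    GaloisRepUnramifiedAt ℚ Qbar E (p ^ n) q := by
  intro P hP σ hσ y
  obtain ⟨x, rfl⟩ := (tateRep_isReduction hΔ n).surj y
  rw [← tateRep_red_smul hΔ n σ x, h P hP σ hσ]
  rfl

/-! ### unipotent inertia -/

/-- Trace/determinant form. -/
theorem tateRep_isUnipotentOnInertiaAt (hΔ : E.Δ ≠ 0) (q : ℕ)
    (h : ∀ P : ValuationSubring Qbar, P.LiesOverPrime q → ∀ σ ∈ P.inertiaSubgroupIn ℚ,
      ∀ n : ℕ, galoisTrace ℚ (K := Qbar) E (p ^ n) σ = 2 ∧
        LinearMap.det (galoisRepModuleEnd ℚ (K := Qbar) E (p ^ n) σ) = 1) :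
    (tateRep E p hΔ).IsUnipotentOnInertiaAt q := by
  intro P hP σ hσ
  rw [tateRep_charpoly_eq hΔ σ 2 1 (fun n => by rw [(h P hP σ hσ n).1, map_ofNat])
    (fun n => by rw [(h P hP σ hσ n).2, map_one])]
  simp only [map_ofNat, map_one]
  ring

/-- Pointwise form: `(σ - 1)² = 0` on all `p`-power torsion points. -/
theorem tateRep_isUnipotentOnInertiaAt_of_fix (hΔ : E.Δ ≠ 0) (q : ℕ)
    (h : ∀ P : ValuationSubring Qbar, P.LiesOverPrime q → ∀ σ ∈ P.inertiaSubgroupIn ℚ,
      ∀ (n : ℕ) (y : (E⁄Qbar).Point), p ^ n • y = 0 → σ • (σ • y - y) = σ • y - y) :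
    (tateRep E p hΔ).IsUnipotentOnInertiaAt q := by
  intro P hP σ hσ
  refine charpoly_of_sub_one_sq (tateRep E p hΔ).finrank_eq _ ?_
  refine LinearMap.ext fun x => tateSeq_ext fun n => ?_
  have := h P hP σ hσ n (x.1 n) (tateSeq_pow_smul_self x n)
  rw [pow_two]
  show σ • (σ • x.1 n - x.1 n) - (σ • x.1 n - x.1 n) = 0
  rw [this, sub_self]

/-! ### the determinant is the cyclotomic character -/

theorem mem_span_natCast_pow_iff (n : ℕ) (x : ℤ_[p]) :
    x ∈ Ideal.span {((p ^ n : ℕ) : ℤ_[p])} ↔ PadicInt.toZModPow n x = 0 := by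
  rw [Nat.cast_pow, ← PadicInt.ker_toZModPow, RingHom.mem_ker]

theorem tateRep_detIsCyclotomic (hΔ : E.Δ ≠ 0)
    (h : ∀ (n : ℕ) (σ : GQ) (a : ℕ), (∀ μ : Qbar, μ ^ p ^ n = 1 → σ μ = μ ^ a) →
      LinearMap.det (galoisRepModuleEnd ℚ (K := Qbar) E (p ^ n) σ) = (a : ZMod (p ^ n))) :
    (tateRep E p hΔ).DetIsCyclotomic p := by
  refine ⟨?_, fun n σ a ha => ?_⟩
  · rw [PadicInt.maximalIdeal_eq_span_p]
    exact Ideal.subset_span rfl
  · rw [mem_span_natCast_pow_iff, map_sub, tateRep_toZModPow_det, h n σ a ha, map_natCast,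
      sub_self]

end Fermat.Agent.TateModule
end
end MergeWrap_Lib_TateModule_Local

section MergeWrap_Lib_TateModule_Model -- from Lib/TateModule/Model.lean

set_option autoImplicit false
set_option linter.unusedSectionVars false
set_option linter.style.haveILetI false

/-!
# The Tate module of an integral Weierstrass model: global properties

`W : WeierstrassCurve ℤ`, `Δ ≠ 0`, `p` prime, `tateRepOfModel W p hΔ : GaloisRepAdic ℤ_[p]`:

* `tateRepOfModel_charpoly_frobenius`: `charpoly (ρ Frob_ℓ) = X² - a_ℓ X + ℓ` at EVERY good `ℓ ≠ p`;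
* `tateRepOfModel_isUnramifiedAt`: unramified at every good `q ≠ p`;
* `tateRepOfModel_detIsCyclotomic`: Prelude `DetIsCyclotomic p`;
* `tateRepOfModel_det_complexConjugation`: oddness.
-/

noncomputable section

namespace Fermat.Agent.TateModule

open WeierstrassCurve WeierstrassCurve.Affine WeierstrassCurve.Affine.Point Polynomial
open scoped WeierstrassCurve.Affine

local notation "Qbar" => AlgebraicClosure ℚ
local notation "GQ" => (AlgebraicClosure ℚ ≃ₐ[ℚ] AlgebraicClosure ℚ)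

theorem map_Δ_ne_zero_of_model {W : WeierstrassCurve ℤ} (hΔ : W.Δ ≠ 0) :
    (W.map (Int.castRingHom ℚ)).Δ ≠ 0 := by
  rw [WeierstrassCurve.map_Δ]
  simpa using hΔ

variable (W : WeierstrassCurve ℤ) (p : ℕ) [hp : Fact p.Prime] [DecidableEq Qbar]

/-- The `p`-adic Tate module of the generic fibre of an integral Weierstrass model. -/
def tateRepOfModel (hΔ : W.Δ ≠ 0) : GaloisRepAdic ℤ_[p] :=
  tateRep (W.map (Int.castRingHom ℚ)) p (map_Δ_ne_zero_of_model hΔ)

variable {W p}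

/-- **Frobenius characteristic polynomial** at every good prime `ℓ ≠ p`. -/
theorem tateRepOfModel_charpoly_frobenius (hΔ : W.Δ ≠ 0) {ℓ : ℕ} [Fact ℓ.Prime] (hℓp : ℓ ≠ p)
    (hgood : W.IsGoodPrimeFor ℓ) (A : ValuationSubring Qbar) (hA : A.LiesOverPrime ℓ)
    (τ : GQ) (hτ : A.IsFrobeniusAt τ ℓ) :
    LinearMap.charpoly ((tateRepOfModel W p hΔ).ρ τ) =
      X ^ 2 - C ((W.apOfModel ℓ : ℤ) : ℤ_[p]) * X + C ((ℓ : ℤ_[p])) := by
  have h := fun j => Fermat.Agent.FrobTrace.galois_trace_det_frobenius_all W (p := p) hℓp hgood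
    A hA τ hτ j
  have := tateRep_charpoly_eq_intCast (map_Δ_ne_zero_of_model hΔ) (p := p) τ (W.apOfModel ℓ)
    (ℓ : ℤ) (fun n => (h n).1) (fun n => (h n).2)
  rw [Int.cast_natCast] at this
  exact this

theorem tateRepOfModel_trace_frobenius (hΔ : W.Δ ≠ 0) {ℓ : ℕ} [Fact ℓ.Prime] (hℓp : ℓ ≠ p)
    (hgood : W.IsGoodPrimeFor ℓ) (A : ValuationSubring Qbar) (hA : A.LiesOverPrime ℓ)
    (τ : GQ) (hτ : A.IsFrobeniusAt τ ℓ) :
    (tateRepOfModel W p hΔ).trace τ = ((W.apOfModel ℓ : ℤ) : ℤ_[p]) := by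
  have h := fun j => Fermat.Agent.FrobTrace.galois_trace_det_frobenius_all W (p := p) hℓp hgood
    A hA τ hτ j
  exact tateRep_trace_eq (map_Δ_ne_zero_of_model hΔ) τ _ fun n => by rw [(h n).1, map_intCast]

theorem tateRepOfModel_det_frobenius (hΔ : W.Δ ≠ 0) {ℓ : ℕ} [Fact ℓ.Prime] (hℓp : ℓ ≠ p)
    (hgood : W.IsGoodPrimeFor ℓ) (A : ValuationSubring Qbar) (hA : A.LiesOverPrime ℓ)
    (τ : GQ) (hτ : A.IsFrobeniusAt τ ℓ) :
    LinearMap.det ((tateRepOfModel W p hΔ).ρ τ) = (ℓ : ℤ_[p]) := by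
  have h := fun j => Fermat.Agent.FrobTrace.galois_trace_det_frobenius_all W (p := p) hℓp hgood
    A hA τ hτ j
  exact tateRep_det_eq (map_Δ_ne_zero_of_model hΔ) τ _ fun n => by
    rw [(h n).2, Int.cast_natCast, map_natCast]

/-- **`det = ` cyclotomic character** (Prelude `DetIsCyclotomic`). -/
theorem tateRepOfModel_detIsCyclotomic (hΔ : W.Δ ≠ 0) :
    (tateRepOfModel W p hΔ).DetIsCyclotomic p :=
  tateRep_detIsCyclotomic (map_Δ_ne_zero_of_model hΔ) fun n σ a ha =>
    Fermat.Agent.FrobTrace.galois_det_eq_natCast W hΔ n σ a ha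

/-- Inertia at a good prime `q ≠ p` acts trivially on `E[p^n]`. -/
theorem galoisRepUnramifiedAt_of_good {q : ℕ} (hq : q.Prime) (hqp : q ≠ p)
    (hgood : W.IsGoodPrimeFor q) (n : ℕ) :
    GaloisRepUnramifiedAt ℚ Qbar (W.map (Int.castRingHom ℚ)) (p ^ n) q := by
  classical
  intro A hA σ hσ y
  haveI : Fact q.Prime := ⟨hq⟩
  haveI : CharP (IsLocalRing.ResidueField A) q := Fermat.Agent.FrobTrace.charP_residueField A hA
  letI : Algebra (ZMod q) (IsLocalRing.ResidueField A) := ZMod.algebra _ q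
  obtain ⟨red, hinj, hfrob⟩ := Fermat.Agent.FrobTrace.exists_reduction W hgood A hA
  obtain ⟨τ, hτ, -, -⟩ := Fermat.Agent.FrobBridge.exists_isFrobeniusAt_of_liesOver A q hq hA
  have hστ : A.IsFrobeniusAt (σ * τ) q :=
    Fermat.Agent.FrobBridge.isFrobeniusAt_mul_of_mem_inertiaSubgroupIn A q σ τ hσ hτ
  -- `red (σ • P) = red P` for every point `P`
  have hred : ∀ P : ((W.map (Int.castRingHom ℚ))⁄Qbar).Point, red (σ • P) = red P := by
    intro P
    have h1 := hfrob (σ * τ) hστ (τ⁻¹ • P)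
    have h2 := hfrob τ hτ (τ⁻¹ • P)
    rw [mul_smul, smul_inv_smul] at h1
    rw [smul_inv_smul] at h2
    rw [h1, h2]
  have hy : (p ^ n) • (y : ((W.map (Int.castRingHom ℚ))⁄Qbar).Point) = 0 := by
    have := y.2
    rwa [Submodule.mem_torsionBy_iff, natCast_zsmul] at this
  have hnd : ¬ q ∣ p ^ n := fun h =>
    hqp ((Nat.prime_dvd_prime_iff_eq hq hp.out).mp (hq.dvd_of_dvd_pow h))
  apply Subtype.ext
  have h3 : σ • (y : ((W.map (Int.castRingHom ℚ))⁄Qbar).Point) - y = 0 := by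
    refine hinj (p ^ n) hnd _ ?_ ?_
    · rw [nsmul_sub, hy, sub_zero, smul_comm, hy]
      rfl
    · rw [map_sub, hred, sub_self]
  exact sub_eq_zero.mp h3

/-- **Unramified at good primes** `q ≠ p`. -/
theorem tateRepOfModel_isUnramifiedAt (hΔ : W.Δ ≠ 0) {q : ℕ} (hq : q.Prime) (hqp : q ≠ p)
    (hgood : W.IsGoodPrimeFor q) : (tateRepOfModel W p hΔ).IsUnramifiedAt q :=
  tateRep_isUnramifiedAt (map_Δ_ne_zero_of_model hΔ) q fun n =>
    galoisRepUnramifiedAt_of_good hq hqp hgood n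

end Fermat.Agent.TateModule
end
end MergeWrap_Lib_TateModule_Model

section MergeWrap_Lib_MultRed_StrictOrd -- from Lib/MultRed/StrictOrd.lean

/-!
# MultRed / StrictOrd (MR5, assembly; owner: helper4)

For `W / ℤ` with multiplicative reduction at an odd prime `p`, the `p`-adic Tate module of `W` is
strictly ordinary at `p` (Prelude `GaloisRepAdic.IsStrictOrdinaryAt`).

The line `L` is the submodule of compatible sequences of `p`-power torsion points lying in the
kernel of reduction at `A ∣ p`.  Inputs: helper75 (`E0[p^k] ⊆ E1`, `E[p] ⊄ E1`), helper78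
(an inertia element acting non-trivially on `μ_p`), helper51 (saturated lines), helper72
(`det = ` cyclotomic character), helper4 (the decomposition group acts on `E / E0` by a sign).
-/

set_option autoImplicit false
set_option linter.unusedSectionVars false
set_option linter.style.haveILetI false

open WeierstrassCurve WeierstrassCurve.Affine

namespace Fermat.Agent.MultRed

open S05H5 S05H65 S05H75 Fermat.Agent.TateModule

section G1

variable (W : WeierstrassCurve ℤ) [DecidableEq (AlgebraicClosure ℚ)]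
  (A : ValuationSubring (AlgebraicClosure ℚ))

/-- the kernel of reduction at `A` as a subgroup of `E(ℚ̄)` -/
def kerRedSubgroup : AddSubgroup ((W.map (Int.castRingHom ℚ))⁄(AlgebraicClosure ℚ)).Point where
  carrier := {P | InG1 A.valuation P}
  zero_mem' := Or.inl rfl
  add_mem' := fun {P Q} hP hQ => by
    have h := isReduction_redCurve (intCoeff_map_int W A)
    exact inG1_add A.valuation h.val_b₂ h.val_b₄ h.val_b₆ h.val_b₈ hP hQ
  neg_mem' := fun {P} hP => inG1_neg A.valuation hP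

theorem mem_kerRedSubgroup {P : ((W.map (Int.castRingHom ℚ))⁄(AlgebraicClosure ℚ)).Point} :
    P ∈ kerRedSubgroup W A ↔ InG1 A.valuation P := Iff.rfl

/-- the decomposition group preserves the kernel of reduction -/
theorem inG1_smul_of_mem_decomp (σ : AlgebraicClosure ℚ ≃ₐ[ℚ] AlgebraicClosure ℚ)
    (hσ : σ ∈ A.decompositionSubgroup ℚ)
    {P : ((W.map (Int.castRingHom ℚ))⁄(AlgebraicClosure ℚ)).Point} (hP : InG1 A.valuation P) :
    InG1 A.valuation (σ • P) := by
  have : Algebra.IsAlgebraic ℚ (AlgebraicClosure ℚ) := AlgebraicClosure.isAlgebraic ℚ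
  rcases P with _ | ⟨x, y, h⟩
  · exact Or.inl rfl
  · rcases hP with h0 | hlt
    · exact absurd h0 (Point.some_ne_zero h)
    · right
      obtain ⟨h', hmap⟩ : ∃ h', σ • (Point.some x y h :
            ((W.map (Int.castRingHom ℚ))⁄(AlgebraicClosure ℚ)).Point)
          = Point.some (σ x) (σ y) h' := ⟨_, Point.map_some σ.toAlgHom h⟩
      rw [hmap, px_some]
      rw [Fermat.Agent.S13Two.decomp_val_eq A σ hσ x]
      exact hlt

end G1

section Main

variable (W : WeierstrassCurve ℤ) (p : ℕ) [Fact p.Prime] [DecidableEq (AlgebraicClosure ℚ)]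

/-- the line of the ordinary filtration: compatible sequences in the kernel of reduction -/
noncomputable def ordLine (A : ValuationSubring (AlgebraicClosure ℚ))
    (hΔ0 : (W.map (Int.castRingHom ℚ)).Δ ≠ 0) :
    Submodule ℤ_[p] (tateRep (W.map (Int.castRingHom ℚ)) p hΔ0).V :=
  tateSub p (kerRedSubgroup W A)

variable (hp2 : p ≠ 2) (hΔ0 : (W.map (Int.castRingHom ℚ)).Δ ≠ 0) (hΔ : (p : ℤ) ∣ W.Δ)
  (hc₄ : ¬ (p : ℤ) ∣ W.c₄) (A : ValuationSubring (AlgebraicClosure ℚ)) (hA : A.LiesOverPrime p)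

include hp2 hΔ hc₄ hA

theorem ordLine_inertia (σ : AlgebraicClosure ℚ ≃ₐ[ℚ] AlgebraicClosure ℚ)
    (hσ : σ ∈ A.inertiaSubgroupIn ℚ) (v : (tateRep (W.map (Int.castRingHom ℚ)) p hΔ0).V) :
    (tateRep (W.map (Int.castRingHom ℚ)) p hΔ0).ρ σ v - v ∈ ordLine W p A hΔ0 :=
  tateSeqRep_sub_mem_tateSub (kerRedSubgroup W A)
    (fun n y hy => inertia_sub_inG1 W hΔ hc₄ A hA hp2 σ hσ n y hy) v

omit hp2 in
theorem ordLine_ne_top : ordLine W p A hΔ0 ≠ ⊤ := by
  obtain ⟨P, hP, hPn⟩ := exists_torsion_not_inG1 W hΔ0 hΔ hc₄ A hA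
  refine tateSub_ne_top (kerRedSubgroup W A) (p_divisible p hΔ0) (n := 1) ?_ hPn
  rw [pow_one]; exact hP

omit hp2 hΔ hc₄ hA in
theorem ordLine_decomp (σ : AlgebraicClosure ℚ ≃ₐ[ℚ] AlgebraicClosure ℚ)
    (hσ : σ ∈ A.decompositionSubgroup ℚ) (v : (tateRep (W.map (Int.castRingHom ℚ)) p hΔ0).V)
    (hv : v ∈ ordLine W p A hΔ0) :
    (tateRep (W.map (Int.castRingHom ℚ)) p hΔ0).ρ σ v ∈ ordLine W p A hΔ0 :=
  tateSeqRep_mem_tateSub (kerRedSubgroup W A)
    (fun _ hy => inG1_smul_of_mem_decomp W A σ hσ hy) hv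

theorem ordLine_ne_bot : ordLine W p A hΔ0 ≠ ⊥ := by
  intro hL
  have hp : p.Prime := Fact.out
  obtain ⟨σ, hσ, hσa⟩ := exists_inertia_cycExp_ne_one p hp2 A hA
  have h1 : (tateRep (W.map (Int.castRingHom ℚ)) p hΔ0).ρ σ = 1 := by
    apply LinearMap.ext
    intro v
    have := ordLine_inertia W p hp2 hΔ0 hΔ hc₄ A hA σ hσ v
    rw [hL, Submodule.mem_bot, sub_eq_zero] at this
    exact this
  have hdet : (tateRep (W.map (Int.castRingHom ℚ)) p hΔ0).DetIsCyclotomic p := by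
    have hΔZ : W.Δ ≠ 0 := by
      intro h0
      apply hΔ0
      rw [WeierstrassCurve.map_Δ, h0, map_zero]
    exact tateRepOfModel_detIsCyclotomic (W := W) (p := p) hΔZ
  haveI : NeZero (p ^ 1) := ⟨pow_ne_zero _ hp.ne_zero⟩
  set a : ℕ := ((Fermat.Agent.Cyclo.modChar (p ^ 1) σ : (ZMod (p ^ 1))ˣ) : ZMod (p ^ 1)).val
    with ha
  have hspec : ∀ μ : AlgebraicClosure ℚ, μ ^ p ^ 1 = 1 → σ μ = μ ^ a :=
    fun μ hμ => Fermat.Agent.Cyclo.modChar_spec (p ^ 1) σ hμ
  have hmem := hdet.2 1 σ a hspec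
  rw [h1, map_one, Ideal.mem_span_singleton, pow_one] at hmem
  apply hσa a hspec
  have h2 : (p : ℤ_[p]) ∣ (((1 - (a : ℤ) : ℤ)) : ℤ_[p]) := by
    push_cast
    exact hmem
  have h3 : (p : ℤ) ∣ 1 - (a : ℤ) :=
    (PadicInt.norm_int_lt_one_iff_dvd _).mp ((PadicInt.norm_lt_one_iff_dvd _).mpr h2)
  exact (dvd_sub_comm).mp h3

omit hp2 hΔ hc₄ hA in
theorem tateRep_detIsCyclotomic_of_model :
    (tateRep (W.map (Int.castRingHom ℚ)) p hΔ0).DetIsCyclotomic p := by
  have hΔZ : W.Δ ≠ 0 := by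
    intro h0
    apply hΔ0
    rw [WeierstrassCurve.map_Δ, h0, map_zero]
  exact tateRepOfModel_detIsCyclotomic (W := W) (p := p) hΔZ

/-- **MR5**: for `W / ℤ` with multiplicative reduction at an odd prime `p`, the `p`-adic Tate
module of `W` is strictly ordinary at `p`. -/
theorem tateRep_isStrictOrdinaryAt_of_mult' :
    ∃ L : Submodule ℤ_[p] (tateRep (W.map (Int.castRingHom ℚ)) p hΔ0).V,
      (∃ b : Module.Basis (Fin 2) ℤ_[p] (tateRep (W.map (Int.castRingHom ℚ)) p hΔ0).V,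
        L = Submodule.span ℤ_[p] {b 0}) ∧
      (∀ σ ∈ A.decompositionSubgroup ℚ, ∀ v ∈ L,
        (tateRep (W.map (Int.castRingHom ℚ)) p hΔ0).ρ σ v ∈ L) ∧
      (∀ σ ∈ A.inertiaSubgroupIn ℚ, ∀ v : (tateRep (W.map (Int.castRingHom ℚ)) p hΔ0).V,
        (tateRep (W.map (Int.castRingHom ℚ)) p hΔ0).ρ σ v - v ∈ L) ∧
      (∀ σ ∈ A.decompositionSubgroup ℚ, ∃ x z : ℤ_[p],
        (∀ w ∈ L, (tateRep (W.map (Int.castRingHom ℚ)) p hΔ0).ρ σ w = x • w) ∧
        (∀ v : (tateRep (W.map (Int.castRingHom ℚ)) p hΔ0).V,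
          (tateRep (W.map (Int.castRingHom ℚ)) p hΔ0).ρ σ v - z • v ∈ L) ∧
        ∀ (n a : ℕ), (∀ μ : AlgebraicClosure ℚ, μ ^ p ^ n = 1 → σ μ = μ ^ a) →
          x - (a : ℤ_[p]) * z ∈ Ideal.span {((p ^ n : ℕ) : ℤ_[p])}) := by
  have hbot := ordLine_ne_bot W p hp2 hΔ0 hΔ hc₄ A hA
  have htop := ordLine_ne_top W p hΔ0 hΔ hc₄ A hA
  have hdet := tateRep_detIsCyclotomic_of_model W p hΔ0
  obtain ⟨b, hb⟩ := exists_basis_of_saturated_padic p
    (tateRep (W.map (Int.castRingHom ℚ)) p hΔ0).finrank_eq (ordLine W p A hΔ0)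
    (fun x hx => tateSub_saturated (kerRedSubgroup W A) hx) hbot htop
  have hD : ∀ σ ∈ A.decompositionSubgroup ℚ, ∀ v ∈ ordLine W p A hΔ0,
      (tateRep (W.map (Int.castRingHom ℚ)) p hΔ0).ρ σ v ∈ ordLine W p A hΔ0 :=
    fun σ hσ v hv => ordLine_decomp W p hΔ0 A σ hσ v hv
  refine ⟨ordLine W p A hΔ0, ⟨b, hb⟩, hD,
    fun σ hσ v => ordLine_inertia W p hp2 hΔ0 hΔ hc₄ A hA σ hσ v, fun σ hσ => ?_⟩
  have key : ∀ ε : ℤ_[p], ε * ε = 1 →
      (∀ v : (tateRep (W.map (Int.castRingHom ℚ)) p hΔ0).V,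
        (tateRep (W.map (Int.castRingHom ℚ)) p hΔ0).ρ σ v - ε • v ∈ ordLine W p A hΔ0) →
      ∃ x z : ℤ_[p],
        (∀ w ∈ ordLine W p A hΔ0, (tateRep (W.map (Int.castRingHom ℚ)) p hΔ0).ρ σ w = x • w) ∧
        (∀ v : (tateRep (W.map (Int.castRingHom ℚ)) p hΔ0).V,
          (tateRep (W.map (Int.castRingHom ℚ)) p hΔ0).ρ σ v - z • v ∈ ordLine W p A hΔ0) ∧
        ∀ (n a : ℕ), (∀ μ : AlgebraicClosure ℚ, μ ^ p ^ n = 1 → σ μ = μ ^ a) →
          x - (a : ℤ_[p]) * z ∈ Ideal.span {((p ^ n : ℕ) : ℤ_[p])} := by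
    intro ε hε2 hε
    obtain ⟨x, z, hx, hz, hxz⟩ := exists_scalars_strictOrd b (ordLine W p A hΔ0) hb
      ((tateRep (W.map (Int.castRingHom ℚ)) p hΔ0).ρ σ) (hD σ hσ) ε hε2 hε
    exact ⟨x, z, hx, hz, fun n a ha => hxz _ _ (hdet.2 n σ a ha)⟩
  rcases decomp_sign_inG1 W hΔ hc₄ A hA hp2 σ hσ with h | h
  · refine key 1 (one_mul 1) (fun v => ?_)
    rw [one_smul]
    exact tateSeqRep_sub_mem_tateSub (kerRedSubgroup W A) h v
  · refine key (-1) (by ring) (fun v => ?_)
    rw [neg_one_smul, sub_neg_eq_add]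
    exact tateSeqRep_add_mem_tateSub (kerRedSubgroup W A) h v

end Main

/-- **MR5**: for `W / ℤ` with multiplicative reduction at an odd prime `p`, the `p`-adic Tate
module of `W` is strictly ordinary at `p`. -/
theorem tateRep_isStrictOrdinaryAt_of_mult (W : WeierstrassCurve ℤ) {p : ℕ} [Fact p.Prime]
    (hp2 : p ≠ 2) (hΔ0 : (W.map (Int.castRingHom ℚ)).Δ ≠ 0) (hΔ : (p : ℤ) ∣ W.Δ)
    (hc₄ : ¬ (p : ℤ) ∣ W.c₄) [DecidableEq (AlgebraicClosure ℚ)] :
    (tateRep (W.map (Int.castRingHom ℚ)) p hΔ0).IsStrictOrdinaryAt p := by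
  refine ⟨?_, fun A hA => tateRep_isStrictOrdinaryAt_of_mult' W p hp2 hΔ0 hΔ hc₄ A hA⟩
  rw [PadicInt.maximalIdeal_eq_span_p]
  exact Ideal.subset_span rfl

/-- ordinary at `p` (Prelude `IsOrdinaryAt`) -/
theorem tateRep_isOrdinaryAt_of_mult (W : WeierstrassCurve ℤ) {p : ℕ} [Fact p.Prime]
    (hp2 : p ≠ 2) (hΔ0 : (W.map (Int.castRingHom ℚ)).Δ ≠ 0) (hΔ : (p : ℤ) ∣ W.Δ)
    (hc₄ : ¬ (p : ℤ) ∣ W.c₄) [DecidableEq (AlgebraicClosure ℚ)] :
    (tateRep (W.map (Int.castRingHom ℚ)) p hΔ0).IsOrdinaryAt p :=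
  (tateRep_isStrictOrdinaryAt_of_mult W hp2 hΔ0 hΔ hc₄).isOrdinaryAt

end Fermat.Agent.MultRed
end MergeWrap_Lib_MultRed_StrictOrd

section MergeWrap_R38_S_Line -- from R38/S/Line.lean

set_option autoImplicit false
set_option linter.unusedVariables false
set_option linter.unusedSectionVars false
set_option linter.style.haveILetI false
set_option synthInstance.maxHeartbeats 400000
set_option maxHeartbeats 1000000

/-!
# Row 38, block S (interface with S33-new; helper11)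

Level `N₀ * p` (`p ∤ N₀`, `p` odd), `D` an Atkin-Lehner datum with `D.Q = p`, `D.R = N₀`,
`AuxOK D`, `A` a place of `ℚ̄` over `p`, `I` its inertia group,
`Sp = PNew.spSub N₀ p D hM A = (p-new) ∩ K'`, `K' = PNew.kPrime D hM A p` (classes with a Kummer
generator of `p`-power exponent which reduces to `1` for both Gauss valuations, i.e. `Ψ = 0`).

* `r38_splitG1`, `r38_splitG2` : (G1), (G2) for `Sp`, UNCONDITIONAL (S33-new: helper46's bridge,
  helper66's (W1), helper12's modular instance of (COV));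
* `r38_inertia_fix` : an element of `I` which fixes `μ_p` fixes `Sp[p]` pointwise
  (`l ∈ L` is `K₁`-rational);
* `r38_notMem_kPrime` (abstract form of helper76's (E)): let `G` be a Galois module,
  `E1 ≤ G` a subgroup such that `I` acts trivially on `G[p]` modulo `E1`, and
  `θ : G → J₀(N₀ p)` an equivariant map, injective on `G[p]`, with `p`-new values on `G[p]`.
  Then `θ x ∉ K'` for every `x ∈ G[p] \ E1`.
-/

noncomputable section

namespace Fermat.Agent.R38

open ModularCurve AlgebraicCurve Fermat.Agent.F3 Fermat.Agent.AtkinLehner Fermat.Agent.BadRed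
  Fermat.Agent.BadRed.PNew Fermat.Agent.BadRed.PullAux Fermat.Agent.F3Deg Fermat.Agent.F3DegW

local notation "Qb" => (AlgebraicClosure ℚ)

variable {p N₀ : ℕ} [NeZero N₀] [NeZero p] {D : ALData} {hM : N₀ * p = D.Q * D.R}
  {A : ValuationSubring Qb}

/-- **(G1)** for `Sp`. -/
theorem r38_splitG1 (hp : p.Prime) (hQ : D.Q = p) (hA : A.LiesOverPrime p)
    {n : ℕ} {x : JZero (N₀ * p)} (hx : (p ^ n) • x = 0)
    (h1 : pushAlpha N₀ p x = 0) (h2 : pushAlpha N₀ p (pushWAt D hM x) = 0)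
    {τ : Qb ≃ₐ[ℚ] Qb} (hτ : τ ∈ A.inertiaSubgroupIn ℚ) :
    τ • x - x ∈ spSub N₀ p D hM A :=
  smul_sub_mem_spSub (hQ ▸ hp) (hQ ▸ hA) hx h1 h2 hτ

/-- **(G2)** for `Sp`, unconditional. -/
theorem r38_splitG2 (hp : p.Prime) (hpN : ¬ p ∣ N₀) (hQ : D.Q = p) (hR : D.R = N₀)
    (haux : AuxLevel.AuxOK D) (hA : A.LiesOverPrime p) :
    haveI : NeZero (N₀ * p) := ⟨Nat.mul_ne_zero (NeZero.ne N₀) (NeZero.ne p)⟩
    SplitG2 p (N₀ * p) A (spSub N₀ p D hM A) := by
  haveI : NeZero (N₀ * p) := ⟨Nat.mul_ne_zero (NeZero.ne N₀) (NeZero.ne p)⟩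
  obtain ⟨ζ, hζ⟩ : ∃ ζ : Qb, IsPrimitiveRoot ζ p := by
    haveI : NeZero ((p : ℕ) : Qb) := ⟨by exact_mod_cast hp.ne_zero⟩
    exact HasEnoughRootsOfUnity.exists_primitiveRoot Qb p
  refine splitG2_spSub D hM A hp hA ?_ hζ (covInst_all p D hp hQ haux A hA ζ hζ)
  intro g hg _ hnew hred _
  exact w1_split D hM hp hpN hQ hR A hA hg hnew hred

/-- an element of the inertia group which fixes `μ_p` fixes `Sp[p]` pointwise. -/
theorem r38_inertia_fix (hp : p.Prime) (hpN : ¬ p ∣ N₀) (hQ : D.Q = p) (hR : D.R = N₀)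
    (haux : AuxLevel.AuxOK D) (hA : A.LiesOverPrime p)
    {l : JZero (N₀ * p)} (hl : l ∈ spSub N₀ p D hM A) (hpl : p • l = 0)
    {σ : Qb ≃ₐ[ℚ] Qb} (hσ : σ ∈ A.inertiaSubgroupIn ℚ)
    (hfix : ∀ ζ : Qb, ζ ^ p = 1 → σ ζ = ζ) : σ • l = l := by
  have h := r38_splitG2 (hM := hM) hp hpN hQ hR haux hA l hl hpl σ hσ 1
    (fun ζ hζ => by rw [pow_one]; exact hfix ζ hζ)
  rw [one_nsmul] at h
  exact h

/-- an element of the inertia group which inverts `μ_p` acts by `-1` on `Sp[p]`. -/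
theorem r38_inertia_neg (hp : p.Prime) (hpN : ¬ p ∣ N₀) (hQ : D.Q = p) (hR : D.R = N₀)
    (haux : AuxLevel.AuxOK D) (hA : A.LiesOverPrime p)
    {l : JZero (N₀ * p)} (hl : l ∈ spSub N₀ p D hM A) (hpl : p • l = 0)
    {σ : Qb ≃ₐ[ℚ] Qb} (hσ : σ ∈ A.inertiaSubgroupIn ℚ)
    (hinv : ∀ ζ : Qb, ζ ^ p = 1 → σ ζ = ζ⁻¹) : σ • l = -l := by
  have h := r38_splitG2 (hM := hM) hp hpN hQ hR haux hA l hl hpl σ hσ (p - 1)
    (fun ζ hζ => by
      rw [hinv ζ hζ]
      apply inv_eq_of_mul_eq_one_right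
      rw [← pow_succ', Nat.sub_add_cancel hp.one_le, hζ])
  rw [h]
  have h2 : (p - 1) • l + l = 0 := by
    rw [← succ_nsmul, Nat.sub_add_cancel hp.one_le, hpl]
  exact eq_neg_of_add_eq_zero_left h2

section Abstract

variable {G : Type*} [AddCommGroup G] [DistribMulAction (Qb ≃ₐ[ℚ] Qb) G]

/-- **(E), abstract form**: the points of `G[p]` outside `E1` go to classes outside `K'`
(`Ψ ≠ 0`). -/
theorem r38_notMem_kPrime (hp : p.Prime) (hp2 : p ≠ 2) (hpN : ¬ p ∣ N₀) (hQ : D.Q = p)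
    (hR : D.R = N₀) (haux : AuxLevel.AuxOK D) (hA : A.LiesOverPrime p)
    (E1 : AddSubgroup G)
    (hE1 : ∀ σ ∈ A.inertiaSubgroupIn ℚ, ∀ x : G, p • x = 0 → σ • x - x ∈ E1)
    (θ : G →+ JZero (N₀ * p))
    (hinj : ∀ x : G, p • x = 0 → θ x = 0 → x = 0)
    (heq : ∀ (σ : Qb ≃ₐ[ℚ] Qb) (x : G), θ (σ • x) = σ • θ x)
    (hnew : ∀ x : G, p • x = 0 →
      pushAlpha N₀ p (θ x) = 0 ∧ pushAlpha N₀ p (pushWAt D hM (θ x)) = 0)
    {x : G} (hx : p • x = 0) (hx1 : x ∉ E1) : θ x ∉ kPrime D hM A p := by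
  haveI : Fact p.Prime := ⟨hp⟩
  intro hk
  have hθx : p • θ x = 0 := by rw [← map_nsmul, hx, map_zero]
  have hSp : θ x ∈ spSub N₀ p D hM A := by
    rw [mem_spSub_iff]
    exact ⟨(hnew x hx).1, (hnew x hx).2, mem_kPrime_iff.mp hk⟩
  obtain ⟨σ, hσ, hinv⟩ := Fermat.Agent.S59.SOArith.exists_inertia_inv_on_roots p A hA
  have h1 : σ • θ x = -θ x := r38_inertia_neg (hM := hM) hp hpN hQ hR haux hA hSp hθx hσ hinv
  -- `σ x = - x`
  have h2 : σ • x = -x := by
    have h3 : θ (σ • x + x) = 0 := by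
      rw [map_add, heq, h1, neg_add_cancel]
    have h4 : p • (σ • x + x) = 0 := by
      rw [smul_add, smul_comm, hx, smul_zero, add_zero]
    exact eq_neg_of_add_eq_zero_left (hinj _ h4 h3)
  -- `2 x ∈ E1`
  have h5 : σ • x - x ∈ E1 := hE1 σ hσ x hx
  rw [h2] at h5
  have h6 : (2 : ℤ) • x ∈ E1 := by
    have : (2 : ℤ) • x = -(-x - x) := by
      rw [two_smul]; abel
    rw [this]
    exact E1.neg_mem h5
  -- `x ∈ E1` as `p` is odd
  have hcop : IsCoprime (2 : ℤ) (p : ℤ) := by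
    have h7 : Nat.Coprime 2 p :=
      (Nat.coprime_primes Nat.prime_two hp).mpr (Ne.symm hp2)
    exact_mod_cast Nat.isCoprime_iff_coprime.mpr h7
  obtain ⟨u, v, huv⟩ := hcop
  apply hx1
  have h8 : x = u • ((2 : ℤ) • x) + v • ((p : ℤ) • x) := by
    rw [smul_smul, smul_smul, ← add_smul, huv, one_smul]
  rw [h8, natCast_zsmul, hx, smul_zero, add_zero]
  exact E1.zsmul_mem h6 u

end Abstract

end Fermat.Agent.R38
end
end MergeWrap_R38_S_Line

section MergeWrap_R38_S_Junction -- from R38/S/Junction.lean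

set_option autoImplicit false
set_option linter.unusedVariables false
set_option linter.unusedSectionVars false
set_option linter.style.haveILetI false
set_option synthInstance.maxHeartbeats 400000
set_option maxHeartbeats 1000000

/-!
# Row 38, block S: the junction J-S (helper11)

* `r38_G1_at`, `r38_fix_at`, `r38_notMem_kPrime_at` : the statements of `R38/S/Line.lean` at a
  level `M` with `h : M = N₀ * p`, `hM : M = D.Q * D.R` (level casts);
* `blockS` : **J-S** at the spine level `D.Q * D.R`: for a Galois-equivariant injection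
  `θ : E[p] → J₀(D.Q D.R)(ℚ̄)` with `p`-new values, `E = W ⊗ ℚ` with multiplicative reduction at
  `p = D.Q` (odd, `AuxOK D`), and a place `A ∣ p`:
  - `θ x ∉ K'` for every `x` outside the kernel of reduction of `E` at `A`, and such `x` exist;
  - `spUnip p A (θ x)` for all `x`;
  - `σ • θ x - θ x ∈ K'` (and is `p`-new) for `σ` in the inertia group.
-/

noncomputable section

namespace Fermat.Agent.R38

open ModularCurve AlgebraicCurve Fermat.Agent.F3 Fermat.Agent.AtkinLehner Fermat.Agent.BadRed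
  Fermat.Agent.BadRed.PNew Fermat.Agent.BadRed.PullAux Fermat.Agent.F3Deg Fermat.Agent.F3DegW
  Fermat.Agent.S33 Fermat.Agent.S35 WeierstrassCurve WeierstrassCurve.Affine
  Fermat.Agent.MultRed S05H5 S05H65 S05H75

local notation "Qb" => (AlgebraicClosure ℚ)

section Cast

variable {M N₀ p : ℕ} [NeZero M] [NeZero N₀] [NeZero p] {D : ALData}
  {A : ValuationSubring Qb}

/-- **(G1)** at the level `M = N₀ * p`. -/
theorem r38_G1_at (h : M = N₀ * p) (hM : M = D.Q * D.R) (hp : p.Prime) (hQ : D.Q = p)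
    (hA : A.LiesOverPrime p) {n : ℕ} {x : JZero M} (hx : (p ^ n) • x = 0)
    (h1 : pnewAlpha h x = 0) (h2 : pnewBeta h D hM x = 0)
    {τ : Qb ≃ₐ[ℚ] Qb} (hτ : τ ∈ A.inertiaSubgroupIn ℚ) :
    pnewAlpha h (τ • x - x) = 0 ∧ pnewBeta h D hM (τ • x - x) = 0 ∧
      τ • x - x ∈ kPrime D hM A p := by
  subst h
  have h3 := r38_splitG1 (hM := hM) hp hQ hA hx h1 h2 hτ
  rw [mem_spSub_iff] at h3
  exact ⟨h3.1, h3.2.1, mem_kPrime_iff.mpr h3.2.2⟩

/-- an element of the inertia group which fixes `μ_p` fixes the `p`-new classes of `K'[p]`. -/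
theorem r38_fix_at (h : M = N₀ * p) (hM : M = D.Q * D.R) (hp : p.Prime) (hpN : ¬ p ∣ N₀)
    (hQ : D.Q = p) (hR : D.R = N₀) (haux : AuxLevel.AuxOK D) (hA : A.LiesOverPrime p)
    {l : JZero M} (h1 : pnewAlpha h l = 0) (h2 : pnewBeta h D hM l = 0)
    (hl : l ∈ kPrime D hM A p) (hpl : p • l = 0)
    {σ : Qb ≃ₐ[ℚ] Qb} (hσ : σ ∈ A.inertiaSubgroupIn ℚ)
    (hfix : ∀ ζ : Qb, ζ ^ p = 1 → σ ζ = ζ) : σ • l = l := by
  subst h
  have hSp : l ∈ spSub N₀ p D hM A := by
    rw [mem_spSub_iff]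
    exact ⟨h1, h2, mem_kPrime_iff.mp hl⟩
  exact r38_inertia_fix (hM := hM) hp hpN hQ hR haux hA hSp hpl hσ hfix

/-- **(E)**, abstract form, at the level `M = N₀ * p`. -/
theorem r38_notMem_kPrime_at {G : Type*} [AddCommGroup G] [DistribMulAction (Qb ≃ₐ[ℚ] Qb) G]
    (h : M = N₀ * p) (hM : M = D.Q * D.R) (hp : p.Prime) (hp2 : p ≠ 2) (hpN : ¬ p ∣ N₀)
    (hQ : D.Q = p) (hR : D.R = N₀) (haux : AuxLevel.AuxOK D) (hA : A.LiesOverPrime p)
    (E1 : AddSubgroup G)
    (hE1 : ∀ σ ∈ A.inertiaSubgroupIn ℚ, ∀ x : G, p • x = 0 → σ • x - x ∈ E1)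
    (θ : G →+ JZero M)
    (hinj : ∀ x : G, p • x = 0 → θ x = 0 → x = 0)
    (heq : ∀ (σ : Qb ≃ₐ[ℚ] Qb) (x : G), θ (σ • x) = σ • θ x)
    (hnew : ∀ x : G, p • x = 0 → pnewAlpha h (θ x) = 0 ∧ pnewBeta h D hM (θ x) = 0)
    {x : G} (hx : p • x = 0) (hx1 : x ∉ E1) : θ x ∉ kPrime D hM A p := by
  subst h
  exact r38_notMem_kPrime (hM := hM) hp hp2 hpN hQ hR haux hA E1 hE1 θ hinj heq hnew hx hx1

end Cast

section Spine

variable (D : ALData) [NeZero D.Q] [NeZero D.R] [NeZero (D.Q * D.R)]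
  (A : ValuationSubring Qb) (W : WeierstrassCurve ℤ)

/-- the `p`-torsion of `E = W ⊗ ℚ` over `ℚ̄`, `p = D.Q` (`= R38.ETors (W.map _) D.Q`). -/
abbrev STors : Type :=
  ↥(Submodule.torsionBy ℤ ((W.map (Int.castRingHom ℚ))⁄Qb).Point ((D.Q : ℕ) : ℤ))

/-- the kernel of reduction at `A` inside `E[p]`. -/
def sRedKer : AddSubgroup (STors D W) :=
  (kerRedSubgroup W A).comap
    (Submodule.torsionBy ℤ ((W.map (Int.castRingHom ℚ))⁄Qb).Point ((D.Q : ℕ) : ℤ)).subtype.toAddMonoidHom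

theorem mem_sRedKer {x : STors D W} :
    x ∈ sRedKer D A W ↔
      InG1 A.valuation (x.1 : ((W.map (Int.castRingHom ℚ))⁄Qb).Point) := Iff.rfl

variable {D A W}

theorem sTors_smul (x : STors D W) : (D.Q : ℕ) • x = 0 := by
  apply Subtype.ext
  have h := x.2
  rw [Submodule.mem_torsionBy_iff, natCast_zsmul] at h
  exact h

variable (hq : D.Q.Prime) (hq2 : D.Q ≠ 2) (haux : AuxLevel.AuxOK D) (hA : A.LiesOverPrime D.Q)
  (hΔ0 : W.Δ ≠ 0) (hΔ : (D.Q : ℤ) ∣ W.Δ) (hc₄ : ¬ (D.Q : ℤ) ∣ W.c₄)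
  (θ : STors D W →+ JZero (D.Q * D.R)) (hinj : Function.Injective θ)
  (heq : ∀ (σ : Qb ≃ₐ[ℚ] Qb) (x : STors D W), θ (σ • x) = σ • θ x)
  (hnew : ∀ x : STors D W, pnewAlpha (mul_comm D.Q D.R) (θ x) = 0 ∧
    pnewBeta (mul_comm D.Q D.R) D rfl (θ x) = 0)

include hq hq2 hA hΔ hc₄ in
/-- inertia acts trivially on `E[p]` modulo the kernel of reduction. -/
theorem sRedKer_inertia (σ : Qb ≃ₐ[ℚ] Qb) (hσ : σ ∈ A.inertiaSubgroupIn ℚ) (x : STors D W) :
    σ • x - x ∈ sRedKer D A W := by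
  haveI : Fact D.Q.Prime := ⟨hq⟩
  rw [mem_sRedKer]
  have hx : D.Q ^ 1 • (x : ((W.map (Int.castRingHom ℚ))⁄Qb).Point) = 0 := by
    rw [pow_one]
    exact congrArg Subtype.val (sTors_smul x)
  exact inertia_sub_inG1 W hΔ hc₄ A hA hq2 σ hσ 1 _ hx

include hq hA hΔ0 hΔ hc₄ in
/-- some point of `E[p]` is outside the kernel of reduction. -/
theorem exists_notMem_sRedKer : ∃ x : STors D W, x ∉ sRedKer D A W := by
  haveI : Fact D.Q.Prime := ⟨hq⟩
  have hΔ0' : (W.map (Int.castRingHom ℚ)).Δ ≠ 0 := by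
    rw [WeierstrassCurve.map_Δ, eq_intCast]
    exact_mod_cast hΔ0
  obtain ⟨P, hP, hP1⟩ := exists_torsion_not_inG1 W hΔ0' hΔ hc₄ A hA
  refine ⟨⟨P, ?_⟩, hP1⟩
  rw [Submodule.mem_torsionBy_iff, natCast_zsmul]
  exact hP

include hq hq2 haux hA hΔ hc₄ hinj heq hnew in
/-- **J-S, clause 1**: the points of `E[p]` outside the kernel of reduction go to classes outside
`K'` (`Ψ ≠ 0`). -/
theorem blockS_notMem {x : STors D W} (hx : x ∉ sRedKer D A W) :
    θ x ∉ kPrime D (rfl : D.Q * D.R = D.Q * D.R) A D.Q :=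
  r38_notMem_kPrime_at (mul_comm D.Q D.R) rfl hq hq2 (ALData_not_dvd D hq) rfl rfl haux hA
    (sRedKer D A W) (fun σ hσ x _ => sRedKer_inertia hq hq2 hA hΔ hc₄ σ hσ x) θ
    (fun x _ h0 => hinj (h0.trans (map_zero θ).symm)) heq (fun x _ => hnew x) (sTors_smul x) hx

include hq hA hnew heq in
/-- **J-S, clause 3**: inertia moves the image of `θ` inside `K'` (and inside the `p`-new part). -/
theorem blockS_sub_mem (x : STors D W) {σ : Qb ≃ₐ[ℚ] Qb} (hσ : σ ∈ A.inertiaSubgroupIn ℚ) :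
    pnewAlpha (mul_comm D.Q D.R) (σ • θ x - θ x) = 0 ∧
      pnewBeta (mul_comm D.Q D.R) D rfl (σ • θ x - θ x) = 0 ∧
      σ • θ x - θ x ∈ kPrime D (rfl : D.Q * D.R = D.Q * D.R) A D.Q := by
  have hx : (D.Q ^ 1) • θ x = 0 := by
    rw [pow_one, ← map_nsmul, sTors_smul, map_zero]
  exact r38_G1_at (mul_comm D.Q D.R) rfl hq rfl hA hx (hnew x).1 (hnew x).2 hσ

include hq haux hA hnew heq in
/-- **J-S, clause 2**: `spUnip`. -/
theorem blockS_unip (x : STors D W) : spUnip D.Q A (θ x) := by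
  intro ζ hζ σ hσ τ hτ hτζ
  obtain ⟨h1, h2, h3⟩ := blockS_sub_mem hq hA θ heq hnew x hσ
  have hpl : D.Q • (σ • θ x - θ x) = 0 := by
    have hx : D.Q • θ x = 0 := by rw [← map_nsmul, sTors_smul, map_zero]
    rw [nsmul_sub, smul_comm, hx, sub_zero]
    exact smul_zero (A := JZero (D.Q * D.R)) σ
  refine r38_fix_at (mul_comm D.Q D.R) rfl hq (ALData_not_dvd D hq) rfl rfl haux hA h1 h2 h3 hpl
    hτ ?_
  intro μ hμ
  obtain ⟨k, -, rfl⟩ := hζ.eq_pow_of_pow_eq_one hμ
  rw [map_pow, hτζ]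

include hq hq2 haux hA hΔ0 hΔ hc₄ hinj heq hnew in
/-- **J-S** (block S of row 38). -/
theorem blockS :
    (∃ x : STors D W, θ x ∉ kPrime D (rfl : D.Q * D.R = D.Q * D.R) A D.Q) ∧
      (∀ x : STors D W, spUnip D.Q A (θ x)) ∧
      ∀ (x : STors D W) (σ : Qb ≃ₐ[ℚ] Qb), σ ∈ A.inertiaSubgroupIn ℚ →
        σ • θ x - θ x ∈ kPrime D (rfl : D.Q * D.R = D.Q * D.R) A D.Q := by
  obtain ⟨x, hx⟩ := exists_notMem_sRedKer (D := D) hq hA hΔ0 hΔ hc₄
  exact ⟨⟨x, blockS_notMem hq hq2 haux hA hΔ hc₄ θ hinj heq hnew hx⟩,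
    fun x => blockS_unip hq haux hA θ heq hnew x,
    fun x σ hσ => (blockS_sub_mem hq hA θ heq hnew x hσ).2.2⟩

end Spine

end Fermat.Agent.R38
end
end MergeWrap_R38_S_Junction

section MergeWrap_R38_S_Final -- from R38/S/Final.lean

set_option autoImplicit false
set_option linter.unusedVariables false
set_option linter.unusedSectionVars false
set_option linter.style.haveILetI false
set_option synthInstance.maxHeartbeats 400000
set_option maxHeartbeats 1000000

/-!
# Row 38, block S: the junction `SpJS` of the spine (helper11)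

`spJS : SpJS`.  `E` is the integral Frey model `P.freyCurveInt` (multiplicative reduction at
`p ∣ abc`); `E1 ≤ E[p]` is the kernel of reduction at `A`.
-/

noncomputable section

namespace Fermat.Agent.R38

open ModularCurve AlgebraicCurve Fermat.Agent.F3 Fermat.Agent.AtkinLehner Fermat.Agent.BadRed
  Fermat.Agent.BadRed.PNew Fermat.Agent.BadRed.PullAux Fermat.Agent.F3Deg Fermat.Agent.F3DegW
  Fermat.Agent.S33 Fermat.Agent.S35 WeierstrassCurve WeierstrassCurve.Affine
  Fermat.Agent.MultRed S05H5 S05H65 S05H75 Fermat.Agent.FreyLib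
  Fermat.Agent.R38T

local notation "Qb" => (AlgebraicClosure ℚ)

section Ker

variable (P : FreyPackage) (A : ValuationSubring Qb)

/-- the kernel of reduction of `P.freyCurveInt` at `A` in `E[p]`. -/
def sKer : AddSubgroup (spETors P.freyCurveInt P.p) :=
  (kerRedSubgroup P.freyCurveInt A).comap
    (Submodule.torsionBy ℤ ((P.freyCurveInt.map (Int.castRingHom ℚ))⁄Qb).Point
      ((P.p : ℕ) : ℤ)).subtype.toAddMonoidHom

variable {P A}

theorem mem_sKer {x : spETors P.freyCurveInt P.p} :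
    x ∈ sKer P A ↔ InG1 A.valuation x.1 := Iff.rfl

theorem spETors_smul (W : WeierstrassCurve ℤ) (p : ℕ) (x : spETors W p) : p • x = 0 := by
  apply Subtype.ext
  have h := x.2
  rw [Submodule.mem_torsionBy_iff, natCast_zsmul] at h
  exact h

end Ker

/-- **J-S** (block S of row 38). -/
theorem spJS : SpJS := by
  intro P D _ _ _ hDQ hqR hcond W S hW hS θ hθ A hA
  obtain ⟨hinj, heq, hnewE⟩ := hθ
  have hq : D.Q.Prime := hDQ ▸ P.pp
  have hq5 : 5 ≤ D.Q := hDQ ▸ P.hp5
  have hq2 : D.Q ≠ 2 := by omega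
  have haux : AuxLevel.AuxOK D := ⟨fun h => by omega, fun h => by omega⟩
  haveI : Fact P.p.Prime := ⟨P.pp⟩
  have hAp : A.LiesOverPrime P.p := hDQ ▸ hA
  have hpabc : (P.p : ℤ) ∣ P.a * P.b * P.c :=
    hcond.support P.p P.pp (hDQ ▸ dvd_mul_right D.Q D.R)
  have hΔ := freyData_dvd_Δ P hpabc
  have hc₄ := freyData_not_dvd_c₄ P hpabc
  have hΔ0 : (P.freyCurveInt.map (Int.castRingHom ℚ)).Δ ≠ 0 := by
    rw [WeierstrassCurve.map_Δ, eq_intCast]
    exact_mod_cast freyCurveInt_Δ_ne_zero P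
  have hp2 : P.p ≠ 2 := by have := P.hp5; omega
  -- the hypotheses of the abstract statements
  have hnew : ∀ x : spETors P.freyCurveInt P.p, pnewAlpha (mul_comm D.Q D.R) (θ x) = 0 ∧
      pnewBeta (mul_comm D.Q D.R) D rfl (θ x) = 0 :=
    fun x => ⟨(hnewE x).2.1, (hnewE x).2.2.1⟩
  have htors : ∀ x : spETors P.freyCurveInt P.p, D.Q • x = 0 := fun x => by
    rw [hDQ]
    exact spETors_smul _ _ x
  have hE1 : ∀ σ ∈ A.inertiaSubgroupIn ℚ, ∀ x : spETors P.freyCurveInt P.p, D.Q • x = 0 →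
      σ • x - x ∈ sKer P A := by
    intro σ hσ x _
    rw [mem_sKer]
    have hx : P.p ^ 1 • (x : ((P.freyCurveInt.map (Int.castRingHom ℚ))⁄Qb).Point) = 0 := by
      rw [pow_one]
      exact congrArg Subtype.val (spETors_smul _ _ x)
    exact inertia_sub_inG1 P.freyCurveInt hΔ hc₄ A hAp hp2 σ hσ 1 _ hx
  refine ⟨?_, fun x => ?_⟩
  · -- clause 1
    obtain ⟨P₀, hP₀, hP₀1⟩ := exists_torsion_not_inG1 P.freyCurveInt hΔ0 hΔ hc₄ A hAp
    set x : spETors P.freyCurveInt P.p := ⟨P₀, by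
      rw [Submodule.mem_torsionBy_iff, natCast_zsmul]
      exact hP₀⟩ with hx
    have hx1 : x ∉ sKer P A := by
      rw [mem_sKer]
      exact hP₀1
    exact ⟨x, r38_notMem_kPrime_at (mul_comm D.Q D.R) rfl hq hq2 hqR rfl rfl haux hA
      (sKer P A) hE1 θ (fun x _ h0 => hinj (h0.trans (map_zero θ).symm)) heq
      (fun x _ => hnew x) (htors x) hx1⟩
  · -- clause 2
    intro ζ hζ σ hσ τ hτ hτζ
    have hx : (D.Q ^ 1) • θ x = 0 := by
      rw [pow_one, ← map_nsmul, htors, map_zero]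
    obtain ⟨h1, h2, h3⟩ := r38_G1_at (mul_comm D.Q D.R) rfl hq rfl hA hx (hnew x).1 (hnew x).2 hσ
    have hpl : D.Q • (σ • θ x - θ x) = 0 := by
      have hx' : D.Q • θ x = 0 := by rw [← map_nsmul, htors, map_zero]
      rw [nsmul_sub, smul_comm, hx', sub_zero]
      exact smul_zero (A := JZero (D.Q * D.R)) σ
    refine r38_fix_at (mul_comm D.Q D.R) rfl hq hqR rfl rfl haux hA h1 h2 h3 hpl hτ ?_
    intro μ hμ
    obtain ⟨k, -, rfl⟩ := hζ.eq_pow_of_pow_eq_one hμ
    rw [map_pow, hτζ]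

end Fermat.Agent.R38
end
end MergeWrap_R38_S_Final
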